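import Fermat.Agent.IharaH1.OneStep
import Fermat.Agent.GroupH1.HeckePair

/-!
# Degeneracy maps `Hom(Γ₀(M), B) → Hom(Γ₀(M'), B)` and Hecke operators

For `M * d ∣ M'` the map `degMap d` is composition with conjugation by `diag(d, 1)`. It commutes
with `T_ℓ` for `ℓ ∤ M'`. A homomorphism vanishing on `Γ₁(M)` is multiplied by `1 + ℓ`.
-/

set_option autoImplicit false

noncomputable section

open Matrix CongruenceSubgroup
open scoped MatrixGroups

namespace Fermat.Agent.IharaH1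

open Fermat.Agent.GroupH1 (GammaH HIdx repInt heckeSystem realMat realMat_mul coe_mapGL coe_repGL)
open Fermat.Agent.HeckeLattice (toGL CosetSystem)

/-- `Hom(Γ₀(M), B)`. -/
abbrev H1 (M : ℕ) (B : Type*) [AddCommGroup B] := Additive (GammaH M ⊤) →+ B

variable {B : Type*} [AddCommGroup B] {M : ℕ}

/-- View a homomorphism on `GammaH M ⊤` on `Γ₀(M)`. -/
def toGamma0 : H1 M B →+ (Additive (Gamma0 M) →+ B) :=
  AddMonoidHom.compHom' (Subgroup.inclusion GroupH1.GammaH_top.ge).toAdditive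

/-- View a homomorphism on `Γ₀(M)` on `GammaH M ⊤`. -/
def ofGamma0 : (Additive (Gamma0 M) →+ B) →+ H1 M B :=
  AddMonoidHom.compHom' (Subgroup.inclusion GroupH1.GammaH_top.le).toAdditive

/-- `toGamma0` is a left inverse of `ofGamma0`. -/
@[simp] theorem toGamma0_ofGamma0 (f : Additive (Gamma0 M) →+ B) : toGamma0 (ofGamma0 f) = f :=
  AddMonoidHom.ext fun _ => rfl

/-- The value at a matrix. -/
def valH (φ : H1 M B) (m : M2) : B := val (toGamma0 φ) m

/-- `valH φ` at a group element. -/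
theorem valH_coe (φ : H1 M B) (g : GammaH M ⊤) :
    valH φ (g : SL(2, ℤ)).1 = φ (Additive.ofMul g) :=
  val_coe (toGamma0 φ) (Subgroup.inclusion GroupH1.GammaH_top.le g)

/-- `valH` of a homomorphism on `Γ₀(M)` is `val`. -/
theorem valH_ofGamma0 (f : Additive (Gamma0 M) →+ B) (m : M2) : valH (ofGamma0 f) m = val f m := by
  rw [valH, toGamma0_ofGamma0]

/-! ### Hecke operators -/

section transfer

variable {ℓ : ℕ} [hℓ : Fact ℓ.Prime]

/-- `T_ℓ` through any family of matrices permuted by `γ` and equivalent to the representatives. -/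
theorem transfer_valH {ι : Type*} [Fintype ι] (φ : H1 M B) (γ : GammaH M ⊤) (R : ι → M2)
    (e : ι ≃ HIdx M ℓ) (k : ι → GammaH M ⊤)
    (hR : ∀ x, R x = (k x : SL(2, ℤ)).1 * repInt M ℓ (e x).1) (σ : ι → ι) (c : ι → GammaH M ⊤)
    (hc : ∀ x, R x * (γ : SL(2, ℤ)).1 = (c x : SL(2, ℤ)).1 * R (σ x)) :
    valH ((heckeSystem M ⊤ ℓ).transfer φ) (γ : SL(2, ℤ)).1 =
      ∑ x, valH φ (c x : SL(2, ℤ)).1 := by
  have key : ∀ x, (heckeSystem M ⊤ ℓ).next γ (e x) = e (σ x) ∧
      (heckeSystem M ⊤ ℓ).cocycle γ (e x) = (k x)⁻¹ * c x * k (σ x) := fun x => by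
    refine (heckeSystem M ⊤ ℓ).eq_of_rep_mul (Units.ext ?_)
    change ((GroupH1.repGL M ℓ (e x) * toGL γ : GL (Fin 2) ℝ) : Matrix (Fin 2) (Fin 2) ℝ)
      = ((toGL ((k x)⁻¹ * c x * k (σ x)) * GroupH1.repGL M ℓ (e (σ x)) : GL (Fin 2) ℝ) :
          Matrix (Fin 2) (Fin 2) ℝ)
    simp only [Units.val_mul, coe_repGL, toGL, coe_mapGL, ← realMat_mul, Subgroup.coe_mul,
      Matrix.SpecialLinearGroup.coe_mul]
    congr 1
    have h1 : ((k x)⁻¹ : GammaH M ⊤).1.1 * (k x : SL(2, ℤ)).1 = 1 := by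
      rw [← Matrix.SpecialLinearGroup.coe_mul, ← Subgroup.coe_mul, inv_mul_cancel,
        Subgroup.coe_one, Matrix.SpecialLinearGroup.coe_one]
    calc repInt M ℓ (e x).1 * (γ : SL(2, ℤ)).1
        = ((k x)⁻¹ : GammaH M ⊤).1.1 * (R x * (γ : SL(2, ℤ)).1) := by
          rw [hR x, ← mul_assoc, ← mul_assoc, h1, one_mul]
      _ = _ := by rw [hc x, hR (σ x)]; simp only [mul_assoc]
  have hinj : Function.Injective σ := fun x y h => e.injective <| by
    have := congrArg e h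
    rw [← (key x).1, ← (key y).1] at this
    exact ((heckeSystem M ⊤ ℓ).nextPerm γ).injective this
  rw [valH_coe, CosetSystem.transfer_apply, ← e.sum_comp]
  simp only [(key _).2, ofMul_mul, ofMul_inv, map_add, map_neg, Finset.sum_add_distrib,
    Finset.sum_neg_distrib, valH_coe]
  have hp : ∑ x, φ (Additive.ofMul (k (σ x))) = ∑ x, φ (Additive.ofMul (k x)) :=
    (Equiv.ofBijective σ ⟨hinj, Finite.surjective_of_injective hinj⟩).sum_comp
      (fun x => φ (Additive.ofMul (k x)))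
  rw [hp]
  abel

/-- A homomorphism which only depends on the upper left entry mod `M` is multiplied by `1 + ℓ`. -/
theorem transfer_of_gamma1 (hℓM : ¬ ℓ ∣ M) (φ : H1 M B)
    (h : ∀ g : GammaH M ⊤, (g : SL(2, ℤ)) ∈ Gamma1 M → φ (Additive.ofMul g) = 0) :
    (heckeSystem M ⊤ ℓ).transfer φ = (1 + ℓ : ℤ) • φ := by
  refine AddMonoidHom.ext fun γ => ?_
  obtain ⟨γ, rfl⟩ := Additive.ofMul.surjective γ
  have hx : ∀ x : HIdx M ℓ,
      φ (Additive.ofMul ((heckeSystem M ⊤ ℓ).cocycle γ x)) = φ (Additive.ofMul γ) := by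
    intro x
    set c := (heckeSystem M ⊤ ℓ).cocycle γ x
    have hu : GroupH1.upperLeft M ⊤ (c⁻¹ * γ) = 1 := by
      rw [map_mul, map_inv, GroupH1.upperLeft_cocycle, inv_mul_cancel]
    have h00 : ((((c⁻¹ * γ : GammaH M ⊤) : SL(2, ℤ)) 0 0 : ℤ) : ZMod M) = 1 := by
      rw [← GroupH1.coe_upperLeft, hu]; rfl
    have hm : ((c⁻¹ * γ : GammaH M ⊤) : SL(2, ℤ)) ∈ Gamma1 M := by
      revert h00
      generalize (c⁻¹ * γ : GammaH M ⊤) = g
      intro h00
      rw [Gamma1_mem]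
      refine ⟨h00, ?_, g.2.1⟩
      have hd := congrArg (Int.cast : ℤ → ZMod M) (g : SL(2, ℤ)).2
      rw [det_fin_two] at hd
      push_cast at hd
      rw [h00, g.2.1, one_mul, mul_zero, sub_zero] at hd
      exact hd
    have h0 := h _ hm
    rw [ofMul_mul, ofMul_inv, map_add, map_neg, neg_add_eq_zero] at h0
    exact h0
  rw [CosetSystem.transfer_apply, Finset.sum_congr rfl fun x _ => hx x, Finset.sum_const,
    Finset.card_univ, Fintype.card_congr (Equiv.subtypeUnivEquiv fun x _ => hℓM)]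
  rw [AddMonoidHom.smul_apply, add_zsmul, one_zsmul, natCast_zsmul]
  show Fintype.card (Option (ZMod ℓ)) • _ = _
  rw [Fintype.card_option, ZMod.card, succ_nsmul, add_comm]

end transfer

/-! ### Degeneracy maps -/

/-- Conjugation by `diag(d, 1)`. -/
abbrev upD (d : ℕ) (m : M2) : M2 := upM d m

variable {M' d : ℕ}

theorem omega_cancel (hd : d ≠ 0) {a b : M2} (h : a * omega d = b * omega d) : a = b := by
  have h2 := congrArg (fun Z => Z * (omega d).adjugate) h
  simp only [mul_assoc, Matrix.mul_adjugate, det_omega, Matrix.mul_smul, mul_one] at h2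
  exact smul_right_injective _ (Int.natCast_ne_zero.2 hd) h2

theorem omega_cancel_left (hd : d ≠ 0) {a b : M2} (h : omega d * a = omega d * b) : a = b := by
  have h2 := congrArg (fun Z => (omega d).adjugate * Z) h
  simp only [← mul_assoc, Matrix.adjugate_mul, det_omega, Matrix.smul_mul, one_mul] at h2
  exact smul_right_injective _ (Int.natCast_ne_zero.2 hd) h2

/-- The shape of a pair `ω η = η' ω`. -/
theorem upM_of_omega {q : ℕ} [hq : Fact q.Prime] {η η' : M2} (heq : omega q * η = η' * omega q) :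
    (q : ℤ) ∣ η 1 0 ∧ η' = upM q η := by
  have hdv : (q : ℤ) ∣ η 1 0 := by
    have := congrFun (congrFun heq 1) 0
    simp [omega, mul_apply, Fin.sum_univ_two] at this
    exact ⟨η' 1 0, by rw [this]; ring⟩
  refine ⟨hdv, omega_cancel hq.out.ne_zero ?_⟩
  rw [← heq, omega_mul_eq_upM_mul hdv]

theorem upD_mul (hd : d ≠ 0) {m n : M2} (hm : (d : ℤ) ∣ m 1 0) (hn : (d : ℤ) ∣ n 1 0) :
    upD d (m * n) = upD d m * upD d n := by
  refine omega_cancel hd ?_
  have hmn : (d : ℤ) ∣ (m * n) 1 0 := by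
    rw [mul_apply, Fin.sum_univ_two]
    exact dvd_add (dvd_mul_of_dvd_left hm _) (dvd_mul_of_dvd_right hn _)
  rw [← omega_mul_eq_upM_mul hmn, mul_assoc, ← omega_mul_eq_upM_mul hn, ← mul_assoc, ← mul_assoc,
    omega_mul_eq_upM_mul hm]

/-- `upD d` maps admissible matrices of level `M'` to admissible ones of level `M`. -/
theorem upD_adm (hdvd : M * d ∣ M') {m : M2} (hm : Adm0 M' m) :
    (d : ℤ) ∣ m 1 0 ∧ Adm0 M (upD d m) := by
  obtain ⟨h1, h2⟩ := adm0_iff.mp hm
  have h10 : ((M * d : ℕ) : ℤ) ∣ m 1 0 :=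
    dvd_trans (Int.natCast_dvd_natCast.mpr hdvd) ((ZMod.intCast_zmod_eq_zero_iff_dvd _ _).mp h1)
  have hdm : (d : ℤ) ∣ m 1 0 := dvd_trans ⟨M, by push_cast; ring⟩ h10
  refine ⟨hdm, adm0_iff.mpr ⟨?_, ?_⟩⟩
  · rw [ZMod.intCast_zmod_eq_zero_iff_dvd]
    obtain ⟨t, ht⟩ := h10
    rcases eq_or_ne d 0 with rfl | hd0
    · simp [upM]
    · refine ⟨t, ?_⟩
      simp only [upM, of_apply, cons_val', cons_val_zero, cons_val_one, empty_val']
      rw [ht]; push_cast
      rw [show (M : ℤ) * d * t = d * (M * t) by ring,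
        Int.mul_ediv_cancel_left _ (Int.natCast_ne_zero.2 hd0)]
  · have h3 := h2.map (ZMod.castHom (dvd_trans (dvd_mul_right M d) hdvd) (ZMod M))
    rw [map_intCast] at h3
    exact h3

/-- Conjugation by `diag(d, 1)` from `Γ₀(M')` to `Γ₀(M)`. -/
def upHom (hd : d ≠ 0) (hdvd : M * d ∣ M') : GammaH M' ⊤ →* GammaH M ⊤ :=
  MonoidHom.mk'
    (fun g => ⟨⟨upD d (g : SL(2, ℤ)).1, by
      rw [det_upM (upD_adm hdvd g.2).1]; exact (g : SL(2, ℤ)).2⟩, (upD_adm hdvd g.2).2⟩)
    fun g h => Subtype.ext (Subtype.ext (upD_mul hd (upD_adm hdvd g.2).1 (upD_adm hdvd h.2).1))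

/-- The matrix of `upHom`. -/
theorem upHom_coe (hd : d ≠ 0) (hdvd : M * d ∣ M') (g : GammaH M' ⊤) :
    (upHom hd hdvd g : SL(2, ℤ)).1 = upD d (g : SL(2, ℤ)).1 := rfl

/-- The degeneracy map. -/
def degMap (hd : d ≠ 0) (hdvd : M * d ∣ M') : H1 M B →+ H1 M' B :=
  AddMonoidHom.compHom' (upHom hd hdvd).toAdditive

/-- The value of a degeneracy map at a group element. -/
theorem degMap_apply (hd : d ≠ 0) (hdvd : M * d ∣ M') (φ : H1 M B) (g : GammaH M' ⊤) :
    degMap hd hdvd φ (Additive.ofMul g) = valH φ (upD d (g : SL(2, ℤ)).1) := by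
  rw [← upHom_coe hd hdvd, valH_coe]; rfl

variable {ℓ : ℕ} [hℓ : Fact ℓ.Prime]

/-- `T_ℓ` or `U_ℓ` commutes with the degeneracy maps when `ℓ` behaves alike at both levels. -/
theorem transfer_degMap_of_iff (hd : d ≠ 0) (hdvd : M * d ∣ M') (hℓd : ¬ ℓ ∣ d)
    (hiff : ℓ ∣ M' ↔ ℓ ∣ M) (φ : H1 M B) :
    (heckeSystem M' ⊤ ℓ).transfer (degMap hd hdvd φ) =
      degMap hd hdvd ((heckeSystem M ⊤ ℓ).transfer φ) := by
  set r : HIdx M' ℓ → M2 := fun x => repInt M' ℓ x.1 with hr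
  have hra : ∀ x, Adm0 M' (r x) := fun x => GroupH1.adm_repInt x
  have hex : ∀ x, ∃ (y : HIdx M ℓ) (k : GammaH M ⊤),
      upD d (r x) = (k : SL(2, ℤ)).1 * repInt M ℓ y.1 := by
    intro x
    have hdd : (upD d (r x)).det = ℓ := by
      rw [det_upM (upD_adm hdvd (hra x)).1]; exact GroupH1.det_repInt x
    obtain ⟨y, n, hn, hn'⟩ :=
      GroupH1.exists_eq_mul_repInt (upD_adm hdvd (hra x)).2 ⟨1, by rw [hdd, mul_one]⟩
    have hn1 : n.det = 1 := by
      rw [hn, det_mul, GroupH1.det_repInt (hℓ := hℓ)] at hdd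
      exact mul_right_cancel₀ (Int.natCast_ne_zero.2 hℓ.out.ne_zero) (by rw [hdd, one_mul])
    exact ⟨y, GroupH1.ofAdm n hn1 hn', hn⟩
  choose e k hk using hex
  have hinj : Function.Injective e := by
    intro x y hxy
    set u : M2 := (k y * (k x)⁻¹ : GammaH M ⊤).1.1 with hu_def
    have hu1 : u.det = 1 := (k y * (k x)⁻¹ : GammaH M ⊤).1.2
    have hu : u * upD d (r x) = upD d (r y) := by
      rw [hk x, hk y, hxy, hu_def, ← mul_assoc, ← Matrix.SpecialLinearGroup.coe_mul,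
        ← Subgroup.coe_mul, inv_mul_cancel_right]
    have hx := (upD_adm hdvd (hra x)).1
    have hy := (upD_adm hdvd (hra y)).1
    -- `u` is conjugate to an integral matrix
    have h1 : u * omega d * r x = omega d * r y := by
      rw [mul_assoc, omega_mul_eq_upM_mul hx, ← mul_assoc, omega_mul_eq_upM_mul hy, hu]
    have h2 : (ℓ : ℤ) • (u * omega d) = omega d * (r y * (r x).adjugate) := by
      rw [← mul_assoc, ← h1, mul_assoc, Matrix.mul_adjugate,
        show (r x).det = ℓ from GroupH1.det_repInt x, Matrix.mul_smul, mul_one]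
    have h01 : (d : ℤ) ∣ u 0 1 := by
      have h3 : (ℓ : ℤ) * u 0 1 = (d : ℤ) * (r y * (r x).adjugate) 0 1 := by
        have := congrFun (congrFun h2 0) 1
        simpa [omega, mul_apply, Fin.sum_univ_two] using this
      exact (Int.isCoprime_iff_gcd_eq_one.mpr (by
        rw [Int.gcd_natCast_natCast]
        exact (hℓ.out.coprime_iff_not_dvd.mpr hℓd).symm)).dvd_of_dvd_mul_left ⟨_, h3⟩
    obtain ⟨t, ht⟩ := h01
    set u' : M2 := !![u 0 0, t; (d : ℤ) * u 1 0, u 1 1] with hu'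
    have h4 : u * omega d = omega d * u' := by
      ext i j
      fin_cases i <;> fin_cases j <;>
        simp [hu', omega, mul_apply, Fin.sum_univ_two, ht, mul_comm]
    have h5 : u' * r x = r y := omega_cancel_left hd (by rw [← mul_assoc, ← h4, h1])
    refine GroupH1.eq_of_mul_repInt_eq (u := u') ?_ h5
    rw [hu', det_fin_two_of, ← hu1, det_fin_two, ht]; ring
  have hcard : Fintype.card (HIdx M' ℓ) = Fintype.card (HIdx M ℓ) :=
    Fintype.card_congr (Equiv.subtypeEquivRight fun x => by rw [hiff])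
  let eE : HIdx M' ℓ ≃ HIdx M ℓ :=
    Equiv.ofBijective e ((Fintype.bijective_iff_injective_and_card e).mpr ⟨hinj, hcard⟩)
  refine AddMonoidHom.ext fun γ => ?_
  obtain ⟨γ, rfl⟩ := Additive.ofMul.surjective γ
  rw [CosetSystem.transfer_apply, degMap_apply, ← upHom_coe hd hdvd,
    transfer_valH φ (upHom hd hdvd γ) (fun x => upD d (r x)) eE k hk
      ((heckeSystem M' ⊤ ℓ).next γ) (fun x => upHom hd hdvd ((heckeSystem M' ⊤ ℓ).cocycle γ x))
      fun x => by
        rw [upHom_coe, upHom_coe, ← upD_mul hd (upD_adm hdvd (hra x)).1 (upD_adm hdvd γ.2).1,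
          ← upD_mul hd (upD_adm hdvd ((heckeSystem M' ⊤ ℓ).cocycle γ x).2).1
            (upD_adm hdvd (hra _)).1]
        exact congrArg (upD d) (GroupH1.repInt_mul_eq γ x)]
  exact Finset.sum_congr rfl fun x _ => (degMap_apply hd hdvd φ _).trans rfl

/-- `T_ℓ` commutes with the degeneracy maps. -/
theorem transfer_degMap (hd : d ≠ 0) (hdvd : M * d ∣ M') (hℓ' : ¬ ℓ ∣ M') (φ : H1 M B) :
    (heckeSystem M' ⊤ ℓ).transfer (degMap hd hdvd φ) =
      degMap hd hdvd ((heckeSystem M ⊤ ℓ).transfer φ) :=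
  transfer_degMap_of_iff hd hdvd
    (fun h => hℓ' (dvd_trans h (dvd_trans (dvd_mul_left d M) hdvd)))
    (iff_of_false hℓ' fun h => hℓ' (dvd_trans h (dvd_trans (dvd_mul_right M d) hdvd))) φ

/-- The operator `T_ℓ - 2`. -/
def hecke2 (M ℓ : ℕ) [Fact ℓ.Prime] (B : Type*) [AddCommGroup B] : H1 M B →+ H1 M B :=
  (heckeSystem M ⊤ ℓ).transfer - 2 • AddMonoidHom.id _

/-- The definition of `hecke2`. -/
theorem hecke2_apply (φ : H1 M B) :
    hecke2 M ℓ B φ = (heckeSystem M ⊤ ℓ).transfer φ - 2 • φ := rfl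

/-- `hecke2` commutes with degeneracy maps away from the level. -/
theorem hecke2_degMap (hd : d ≠ 0) (hdvd : M * d ∣ M') (hℓ' : ¬ ℓ ∣ M') (φ : H1 M B) :
    hecke2 M' ℓ B (degMap hd hdvd φ) = degMap hd hdvd (hecke2 M ℓ B φ) := by
  rw [hecke2_apply, hecke2_apply, transfer_degMap hd hdvd hℓ', map_sub, map_nsmul]

end Fermat.Agent.IharaH1

end
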