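import Fermat.Agent.IharaH1.Family

/-!
# Corestriction, `U_q` to the lower level, and the Atkin-Lehner map

With coefficients in an abelian group, and described by families of integral matrices:

* `corMap : H1 (M q) B →+ H1 M B`, the corestriction along the cosets `cosetRep`;
* `uDown`, for `q ∣ M` the operator `U_q` from level `M q` to level `M`;
* `alMap`, for `q ∤ M` the Atkin-Lehner map at `q` of level `M q`.
-/

set_option autoImplicit false

noncomputable section

open Matrix CongruenceSubgroup
open scoped MatrixGroups OnePoint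

namespace Fermat.Agent.IharaH1

open Fermat.Agent.GroupH1 (GammaH HIdx repInt heckeSystem bezA bezB)

variable {B : Type*} [AddCommGroup B] {M q : ℕ} [hq : Fact q.Prime]

/-- Coset representatives of `Γ₀(Mq) \ Γ₀(M)`. -/
def cosetRep (M q : ℕ) (x : OnePoint (ZMod q)) : M2 :=
  x.elim !![bezA M q, -bezB M q; (M : ℤ), (q : ℤ)] fun j => !![1, 0; (M : ℤ) * j.val, 1]

omit hq in
/-- The coset representative at `∞`. -/
theorem cosetRep_infty : cosetRep M q ∞ = !![bezA M q, -bezB M q; (M : ℤ), (q : ℤ)] := rfl

omit hq in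
/-- The coset representatives at finite points. -/
theorem cosetRep_coe (j : ZMod q) :
    cosetRep M q (j : OnePoint (ZMod q)) = !![1, 0; (M : ℤ) * j.val, 1] := rfl

/-- The coset representatives have determinant one. -/
theorem det_cosetRep (x : HIdx M q) : (cosetRep M q x.1).det = 1 := by
  obtain ⟨x, hx⟩ := x
  cases x using OnePoint.rec with
  | infty =>
    rw [cosetRep_infty, det_fin_two_of]
    linear_combination GroupH1.bez_eq hq.out (hx rfl)
  | coe j => rw [cosetRep_coe, det_fin_two_of]; ring

/-- The coset representatives are admissible of level `M`. -/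
theorem adm_cosetRep (x : HIdx M q) : Adm0 M (cosetRep M q x.1) := by
  refine adm0_of_det_one (det_cosetRep x) ?_
  obtain ⟨x, hx⟩ := x
  cases x using OnePoint.rec <;> simp [cosetRep]

/-- The representatives as group elements. -/
def cosetElt (x : HIdx M q) : GammaH M ⊤ :=
  GroupH1.ofAdm (cosetRep M q x.1) (det_cosetRep x) (adm_cosetRep x)

/-- Every element of `Γ₀(M)` lies in the coset of some `cosetRep`. -/
theorem exists_cosetRep {m : M2} (hd : m.det = 1) (hm : Adm0 M m) :
    ∃ (x : HIdx M q) (k : GammaH (M * q) ⊤), m = (k : SL(2, ℤ)).1 * cosetRep M q x.1 := by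
  obtain ⟨c', hc'⟩ := (ZMod.intCast_zmod_eq_zero_iff_dvd _ _).mp hm.1
  rw [det_fin_two] at hd
  suffices h : ∃ (x : HIdx M q), ((M * q : ℕ) : ℤ) ∣ (m * (cosetRep M q x.1).adjugate) 1 0 by
    obtain ⟨x, hx⟩ := h
    have hdet : (m * (cosetRep M q x.1).adjugate).det = 1 := by
      rw [det_mul, det_adjugate_one (det_cosetRep x), det_fin_two, hd, one_mul]
    refine ⟨x, GroupH1.ofAdm _ hdet (adm0_of_det_one hdet
      ((ZMod.intCast_zmod_eq_zero_iff_dvd _ _).mpr hx)), ?_⟩
    show m = m * (cosetRep M q x.1).adjugate * _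
    rw [mul_assoc, adjugate_mul_one (det_cosetRep x), mul_one]
  by_cases h11 : ((m 1 1 : ℤ) : ZMod q) = 0
  · have hqM : ¬ q ∣ M := by
      intro h
      have := congrArg (Int.cast : ℤ → ZMod q) hd
      rw [hc'] at this
      push_cast at this
      rw [h11, (ZMod.natCast_eq_zero_iff _ _).mpr h, mul_zero, zero_mul, mul_zero, sub_zero] at this
      exact zero_ne_one this
    obtain ⟨d', hd'⟩ := (ZMod.intCast_zmod_eq_zero_iff_dvd _ _).mp h11
    refine ⟨⟨∞, fun _ => hqM⟩, c' - d', ?_⟩
    rw [cosetRep_infty, adjugate_fin_two_of]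
    simp [mul_apply, Fin.sum_univ_two, hc', hd']
    ring
  · set j : ZMod q := (c' : ZMod q) / (m 1 1 : ℤ)
    refine ⟨⟨(j : OnePoint (ZMod q)), fun h => absurd h (OnePoint.coe_ne_infty j)⟩, ?_⟩
    obtain ⟨t, ht⟩ : (q : ℤ) ∣ c' - j.val * m 1 1 := by
      rw [← ZMod.intCast_zmod_eq_zero_iff_dvd]
      push_cast
      rw [ZMod.natCast_zmod_val, div_mul_cancel₀ _ h11, sub_self]
    refine ⟨t, ?_⟩
    rw [cosetRep_coe, adjugate_fin_two_of]
    simp [mul_apply, Fin.sum_univ_two, hc', -ZMod.natCast_val]
    linear_combination (M : ℤ) * ht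

/-- Distinct `cosetRep` lie in distinct cosets of `Γ₀(M q)`. -/
theorem eq_of_mul_cosetRep (u : GammaH (M * q) ⊤) {x y : HIdx M q} (hM : M ≠ 0)
    (h : (u : SL(2, ℤ)).1 * cosetRep M q x.1 = cosetRep M q y.1) : x = y := by
  obtain ⟨c, hc⟩ := (ZMod.intCast_zmod_eq_zero_iff_dvd _ _).mp u.2.1
  push_cast at hc
  have hM' : (M : ℤ) ≠ 0 := Int.natCast_ne_zero.2 hM
  have hd := congrArg (Int.cast : ℤ → ZMod q) (u : SL(2, ℤ)).2
  rw [det_fin_two, hc] at hd
  push_cast at hd
  rw [ZMod.natCast_self, mul_zero, zero_mul, mul_zero, sub_zero] at hd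
  have h10 := congrFun (congrFun h 1) 0
  have h11 := congrArg (fun m : M2 => ((m 1 1 : ℤ) : ZMod q)) h
  refine Subtype.ext ?_
  obtain ⟨x, hx⟩ := x
  obtain ⟨y, hy⟩ := y
  cases x using OnePoint.rec with
  | infty =>
    cases y using OnePoint.rec with
    | infty => rfl
    | coe j =>
      simp [cosetRep_infty, cosetRep_coe, mul_apply, Fin.sum_univ_two, hc] at h11
  | coe i =>
    cases y using OnePoint.rec with
    | infty =>
      simp [cosetRep_infty, cosetRep_coe, mul_apply, Fin.sum_univ_two, hc] at h11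
      exact absurd h11 (right_ne_zero_of_mul_eq_one hd)
    | coe j =>
      simp [cosetRep_coe, mul_apply, Fin.sum_univ_two, hc, -ZMod.natCast_val]
        at h10 h11
      have h3 : (q : ℤ) * c + (u : SL(2, ℤ)) 1 1 * i.val = j.val :=
        mul_left_cancel₀ hM' (by linear_combination h10)
      have h4 := congrArg (Int.cast : ℤ → ZMod q) h3
      push_cast at h4
      rw [ZMod.natCast_self, zero_mul, zero_add, h11, one_mul, ZMod.natCast_zmod_val,
        ZMod.natCast_zmod_val] at h4
      exact congrArg (fun t : ZMod q => (t : OnePoint (ZMod q))) h4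

/-- Corestriction. -/
def corMap (hM : M ≠ 0) : H1 (M * q) B →+ H1 M B :=
  (matSystem (M₁ := M * q) (M₂ := M) (fun x : HIdx M q => cosetRep M q x.1)
    (fun x => by rw [det_cosetRep]; exact one_ne_zero)
    (fun γ x => exists_cosetRep (by rw [det_mul, det_cosetRep, (γ : SL(2, ℤ)).2, one_mul])
      ((adm_cosetRep x).mul γ.2))
    (fun u _ _ => eq_of_mul_cosetRep u hM)).transfer

/-- `corMap` is the transfer along the family `cosetRep`. -/
theorem sends_corMap (hM : M ≠ 0) (φ : H1 (M * q) B) :
    Sends (fun x : HIdx M q => cosetRep M q x.1) φ (corMap hM φ) :=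
  sends_matSystem _ _ _ _ φ

/-- For `q ∣ M` there are `q` classes. -/
theorem card_HIdx_of_dvd (h : q ∣ M) : Fintype.card (HIdx M q) = q := by
  refine (Fintype.card_congr ?_).trans (ZMod.card q)
  exact
    { toFun := fun x => x.1.elim 0 id
      invFun := fun j => ⟨(j : OnePoint (ZMod q)), fun e => absurd e (OnePoint.coe_ne_infty j)⟩
      left_inv := fun x => by
        obtain ⟨x, hx⟩ := x
        cases x using OnePoint.rec with
        | infty => exact absurd h (hx rfl)
        | coe j => rfl
      right_inv := fun j => rfl }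

/-- For `q ∤ M` there are `q + 1` classes. -/
theorem card_HIdx_of_not_dvd (h : ¬ q ∣ M) : Fintype.card (HIdx M q) = q + 1 := by
  rw [Fintype.card_congr (Equiv.subtypeUnivEquiv fun x _ => h)]
  show Fintype.card (Option (ZMod q)) = q + 1
  rw [Fintype.card_option, ZMod.card]

/-- `U_q` from level `Mq` to level `M`, for `q ∣ M`. -/
def uDown (hqM : q ∣ M) : H1 (M * q) B →+ H1 M B :=
  (matSystem (M₁ := M * q) (M₂ := M) (fun x : HIdx M q => repInt M q x.1)
    (fun x => by rw [GroupH1.det_repInt]; exact Int.natCast_ne_zero.2 hq.out.ne_zero)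
    (fun γ x => by
      have h := GroupH1.repInt_mul_eq γ x
      set c := (heckeSystem M ⊤ q).cocycle γ x
      set y := (heckeSystem M ⊤ q).next γ x
      refine ⟨y, GroupH1.ofAdm (c : SL(2, ℤ)).1 (c : SL(2, ℤ)).2
        (adm0_of_det_one (c : SL(2, ℤ)).2 ?_), h⟩
      have h' := congrFun (congrFun h 1) 0
      obtain ⟨x, hx⟩ := x
      obtain ⟨y, hy⟩ := y
      cases x using OnePoint.rec with
      | infty => exact absurd hqM (hx rfl)
      | coe i =>
        cases y using OnePoint.rec with
        | infty => exact absurd hqM (hy rfl)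
        | coe j =>
          simp [GroupH1.repInt_coe, mul_apply, Fin.sum_univ_two] at h'
          rw [← h', ZMod.intCast_zmod_eq_zero_iff_dvd]
          push_cast
          rw [mul_comm (M : ℤ)]
          exact mul_dvd_mul_left _ ((ZMod.intCast_zmod_eq_zero_iff_dvd _ _).mp γ.2.1))
    (fun u _ _ => GroupH1.eq_of_mul_repInt_eq (u : SL(2, ℤ)).2)).transfer

/-- `uDown` is the transfer along the representatives of `U_q`. -/
theorem sends_uDown (hqM : q ∣ M) (φ : H1 (M * q) B) :
    Sends (fun x : HIdx M q => repInt M q x.1) φ (uDown hqM φ) :=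
  sends_matSystem _ _ _ _ φ

/-- The Atkin-Lehner matrix at `q` of level `Mq`. -/
def alMat (M q : ℕ) : M2 := !![(q : ℤ) * bezA M q, -bezB M q; (M : ℤ) * q, (q : ℤ)]

/-- The Atkin-Lehner matrix has determinant `q`. -/
theorem det_alMat (hqM : ¬ q ∣ M) : (alMat M q).det = q := by
  rw [alMat, det_fin_two_of]
  linear_combination (q : ℤ) * GroupH1.bez_eq hq.out hqM

/-- The Atkin-Lehner operator. -/
def alMap (hqM : ¬ q ∣ M) : H1 (M * q) B →+ H1 (M * q) B :=
  (matSystem (M₁ := M * q) (M₂ := M * q) (fun _ : Unit => alMat M q)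
    (fun _ => by rw [det_alMat hqM]; exact Int.natCast_ne_zero.2 hq.out.ne_zero)
    (fun γ _ => by
      obtain ⟨C, hC⟩ := (ZMod.intCast_zmod_eq_zero_iff_dvd _ _).mp γ.2.1
      push_cast at hC
      have hb := GroupH1.bez_eq hq.out hqM
      set a := bezA M q
      set b := bezB M q
      set A := (γ : SL(2, ℤ)) 0 0
      set B' := (γ : SL(2, ℤ)) 0 1
      set D := (γ : SL(2, ℤ)) 1 1
      set c : M2 := !![(q : ℤ) * (a * A - b * M * C) - M * (q * a * B' - b * D),
        b * (a * A - b * M * C) + a * (q * a * B' - b * D);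
        (M : ℤ) * q * (A + q * C - (M * B' + D)),
        b * M * (A + q * C) + a * q * (M * B' + D)]
      have key : alMat M q * (γ : SL(2, ℤ)).1 = c * alMat M q := by
        have e : (γ : SL(2, ℤ)).1 = !![A, B'; (M : ℤ) * q * C, D] := by
          ext i j; fin_cases i <;> fin_cases j <;> simp [A, B', D, hC]
        rw [e, alMat]
        ext i j
        fin_cases i <;> fin_cases j <;> simp [c, mul_apply, Fin.sum_univ_two, a, b]
        · linear_combination -((q : ℤ) * (a * A - b * M * C)) * hb
        · linear_combination -((q : ℤ) * a * B' - b * D) * hb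
        · linear_combination -((M : ℤ) * q * (A + q * C)) * hb
        · linear_combination -((q : ℤ) * (M * B' + D)) * hb
      have hcd : c.det = 1 := by
        have := congrArg Matrix.det key
        rw [det_mul, det_mul, (γ : SL(2, ℤ)).2, mul_one, det_alMat hqM] at this
        exact mul_right_cancel₀ (Int.natCast_ne_zero.2 hq.out.ne_zero) (by rw [← this, one_mul])
      refine ⟨(), GroupH1.ofAdm c hcd (adm0_of_det_one hcd ?_), key⟩
      rw [ZMod.intCast_zmod_eq_zero_iff_dvd]
      exact ⟨A + q * C - (M * B' + D), by simp [c]⟩)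
    (fun _ _ _ _ => rfl)).transfer

/-- `alMap` is the transfer along the single matrix `alMat`. -/
theorem sends_alMap (hqM : ¬ q ∣ M) (φ : H1 (M * q) B) :
    Sends (fun _ : Unit => alMat M q) φ (alMap hqM φ) :=
  sends_matSystem _ _ _ _ φ

end Fermat.Agent.IharaH1

end
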