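import Fermat.Agent.IharaH1.Cor

/-!
# Corestriction commutes with Hecke operators

`transfer_corMap`: corestriction from level `M q` to level `M` commutes with `T_ℓ`, resp. `U_ℓ`,
for every prime `ℓ ≠ q`.
-/

set_option autoImplicit false

noncomputable section

open Matrix CongruenceSubgroup
open scoped MatrixGroups OnePoint

namespace Fermat.Agent.IharaH1

open Fermat.Agent.GroupH1 (GammaH HIdx repInt heckeSystem)

variable {B : Type*} [AddCommGroup B] {M q ℓ : ℕ} [hq : Fact q.Prime] [hℓ : Fact ℓ.Prime]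

/-- `T_ℓ` resp. `U_ℓ`, `ℓ ≠ q`, commutes with corestriction. -/
theorem transfer_corMap (hM : M ≠ 0) (hne : ℓ ≠ q) (φ : H1 (M * q) B) :
    (heckeSystem M ⊤ ℓ).transfer (corMap hM φ) =
      corMap hM ((heckeSystem (M * q) ⊤ ℓ).transfer φ) := by
  have hiff : ℓ ∣ M * q ↔ ℓ ∣ M := ⟨fun h => (hℓ.out.dvd_mul.1 h).resolve_right fun h' =>
    hne ((Nat.prime_dvd_prime_iff_eq hℓ.out hq.out).1 h'), fun h => dvd_mul_of_dvd_left h q⟩
  have hℓ0 : (ℓ : ℤ) ≠ 0 := Int.natCast_ne_zero.2 hℓ.out.ne_zero
  -- the representatives of level `M q` are representatives at level `M`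
  set r : HIdx (M * q) ℓ → M2 := fun x => repInt (M * q) ℓ x.1 with hr
  have hrd : ∀ x, (r x).det = ℓ := fun x => GroupH1.det_repInt x
  have hra : ∀ x, Adm0 (M * q) (r x) := fun x => GroupH1.adm_repInt x
  have hra' : ∀ x, Adm0 M (r x) := fun x => by
    have h := (upD_adm (d := 1) (M := M) (M' := M * q) (by simp) (hra x)).2
    rwa [show upD 1 (r x) = r x from by ext i j; fin_cases i <;> fin_cases j <;> simp [upM]] at h
  obtain ⟨e₁, k₁, hk₁⟩ := exists_classes (M₁ := M) (R := fun x : HIdx M ℓ => repInt M ℓ x.1)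
    (R' := r)
    (fun x => by
      obtain ⟨y, n, hn, hn'⟩ := GroupH1.exists_eq_mul_repInt (hra' x) ⟨1, by rw [hrd x, mul_one]⟩
      have hn1 : n.det = 1 := by
        have := hrd x
        rw [hn, det_mul, GroupH1.det_repInt (hℓ := hℓ)] at this
        exact mul_right_cancel₀ hℓ0 (by rw [this, one_mul])
      exact ⟨y, GroupH1.ofAdm n hn1 hn', hn⟩)
    (fun u x y h => GroupH1.eq_of_mul_repInt_eq (u : SL(2, ℤ)).2 h)
    (Fintype.card_congr (Equiv.subtypeEquivRight fun x => by rw [hiff]))
  have hL := (sends_corMap hM φ).comp ((sends_transfer (ℓ := ℓ) (corMap hM φ)).congr e₁ k₁ hk₁)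
  have hR := (sends_transfer (ℓ := ℓ) φ).comp (sends_corMap hM _)
  have hLd : ∀ z : HIdx M q × HIdx (M * q) ℓ, (cosetRep M q z.1.1 * r z.2).det = ℓ := fun z => by
    rw [det_mul, det_cosetRep, hrd, one_mul]
  refine hL.unique (fun z => by rw [hLd z]; exact hℓ0) ?_
  obtain ⟨e, k, hk⟩ := exists_classes (M₁ := M * q)
    (R := fun z : HIdx (M * q) ℓ × HIdx M q => r z.1 * cosetRep M q z.2.1)
    (R' := fun z : HIdx M q × HIdx (M * q) ℓ => cosetRep M q z.1.1 * r z.2)
    (fun z => by
      -- write `g r` as `k r' g'`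
      set m : M2 := cosetRep M q z.1.1 * r z.2 with hm
      have hma : Adm0 M m := (adm_cosetRep z.1).mul (hra' z.2)
      have hmd : m.det = ℓ := hLd z
      obtain ⟨c', hc'⟩ := (ZMod.intCast_zmod_eq_zero_iff_dvd _ _).mp hma.1
      suffices h : ∃ x : HIdx M q, Adm0 (M * q) (m * (cosetRep M q x.1).adjugate) by
        obtain ⟨x, hx⟩ := h
        have hdet : (m * (cosetRep M q x.1).adjugate).det = ℓ := by
          rw [det_mul, det_adjugate_one (det_cosetRep x), hmd, mul_one]
        obtain ⟨y, n, hn, hn'⟩ := GroupH1.exists_eq_mul_repInt hx ⟨1, by rw [hdet, mul_one]⟩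
        have hn1 : n.det = 1 := by
          rw [hn, det_mul, GroupH1.det_repInt (hℓ := hℓ)] at hdet
          exact mul_right_cancel₀ hℓ0 (by rw [hdet, one_mul])
        refine ⟨(y, x), GroupH1.ofAdm n hn1 hn', ?_⟩
        show m = n * (r y * cosetRep M q x.1)
        rw [← mul_assoc, hr, ← hn, mul_assoc, adjugate_mul_one (det_cosetRep x), mul_one]
      -- the coset of the bottom row
      have hu : ∀ x : HIdx M q, ((M * q : ℕ) : ℤ) ∣ (m * (cosetRep M q x.1).adjugate) 1 0 →
          Adm0 (M * q) (m * (cosetRep M q x.1).adjugate) := by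
        intro x hx
        have hM' := (adm0_iff.mp (hma.mul (adm0_adjugate_one (det_cosetRep x) (adm_cosetRep x)))).2
        have hdn : (m * (cosetRep M q x.1).adjugate).det = ℓ := by
          rw [det_mul, det_adjugate_one (det_cosetRep x), hmd, mul_one]
        generalize m * (cosetRep M q x.1).adjugate = n at hx hM' hdn ⊢
        refine adm0_iff.mpr ⟨(ZMod.intCast_zmod_eq_zero_iff_dvd _ _).mpr hx, ?_⟩
        have hnq : ((n 0 0 : ℤ) : ZMod q) ≠ 0 := fun h0 => by
          have h2 := congrArg (Int.cast : ℤ → ZMod q) hdn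
          rw [det_fin_two] at h2
          push_cast at h2
          rw [h0,
            (ZMod.intCast_zmod_eq_zero_iff_dvd _ _).mpr (dvd_trans ⟨M, by push_cast; ring⟩ hx),
            zero_mul, mul_zero, sub_zero, eq_comm, ZMod.natCast_eq_zero_iff] at h2
          exact hne ((Nat.prime_dvd_prime_iff_eq hq.out hℓ.out).mp h2).symm
        rw [ZMod.coe_int_isUnit_iff_isCoprime] at hM' ⊢
        push_cast
        refine IsCoprime.mul_left hM' ((Prime.coprime_iff_not_dvd
          (Nat.prime_iff_prime_int.mp hq.out)).mpr fun hd => hnq ?_)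
        exact (ZMod.intCast_zmod_eq_zero_iff_dvd _ _).mpr hd
      rw [det_fin_two] at hmd
      by_cases h11 : ((m 1 1 : ℤ) : ZMod q) = 0
      · have hqM : ¬ q ∣ M := by
          intro h
          have h2 := congrArg (Int.cast : ℤ → ZMod q) hmd
          rw [hc'] at h2
          push_cast at h2
          rw [h11, (ZMod.natCast_eq_zero_iff _ _).mpr h, mul_zero, zero_mul, mul_zero, sub_zero,
            eq_comm, ZMod.natCast_eq_zero_iff] at h2
          exact hne ((Nat.prime_dvd_prime_iff_eq hq.out hℓ.out).mp h2).symm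
        obtain ⟨d', hd'⟩ := (ZMod.intCast_zmod_eq_zero_iff_dvd _ _).mp h11
        refine ⟨⟨∞, fun _ => hqM⟩, hu _ ⟨c' - d', ?_⟩⟩
        rw [cosetRep_infty, adjugate_fin_two_of]
        simp [mul_apply, Fin.sum_univ_two, hc', hd']
        ring
      · set j : ZMod q := (c' : ZMod q) / (m 1 1 : ℤ)
        refine ⟨⟨(j : OnePoint (ZMod q)), fun h => absurd h (OnePoint.coe_ne_infty j)⟩, hu _ ?_⟩
        obtain ⟨t, ht⟩ : (q : ℤ) ∣ c' - j.val * m 1 1 := by
          rw [← ZMod.intCast_zmod_eq_zero_iff_dvd]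
          push_cast
          rw [ZMod.natCast_zmod_val, div_mul_cancel₀ _ h11, sub_self]
        refine ⟨t, ?_⟩
        rw [cosetRep_coe, adjugate_fin_two_of]
        simp [mul_apply, Fin.sum_univ_two, hc', -ZMod.natCast_val]
        linear_combination (M : ℤ) * ht)
    (fun u z z' h => by
      -- first the level `M` class, then the coset
      set U : GammaH M ⊤ := GroupH1.ofAdm (u : SL(2, ℤ)).1 (u : SL(2, ℤ)).2
        (adm0_of_det_one (u : SL(2, ℤ)).2 (by
          have := congrArg (ZMod.castHom (dvd_mul_right M q) (ZMod M)) u.2.1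
          rwa [map_intCast, map_zero] at this))
      set w : GammaH M ⊤ := (cosetElt z'.1)⁻¹ * U * cosetElt z.1
      have hw : (w : SL(2, ℤ)).1 * r z.2 = r z'.2 := by
        rw [coe_mul2, coe_mul2, mul_assoc, mul_assoc,
          show (cosetElt z.1 : SL(2, ℤ)).1 = cosetRep M q z.1.1 from rfl,
          show (U : SL(2, ℤ)).1 = (u : SL(2, ℤ)).1 from rfl, h,
          show cosetRep M q z'.1.1 = (cosetElt z'.1 : SL(2, ℤ)).1 from rfl, inv_mul_cancel_mat]
      have h2 : z.2 = z'.2 := GroupH1.eq_of_mul_repInt_eq (w : SL(2, ℤ)).2 hw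
      refine Prod.ext (eq_of_mul_cosetRep u hM ?_) h2
      refine mul_right_cancel_det (R := r z.2) (by rw [hrd]; exact hℓ0) ?_
      rw [mul_assoc]
      exact h.trans (by rw [h2]))
    (by simp [mul_comm])
  exact hR.congr e k hk

end Fermat.Agent.IharaH1

end
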