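import Fermat.Agent.GroupH1.GammaH

/-!
# The edge function of a compatible pair of homomorphisms on `Γ₀(N)`

For `f₀ f₁ : Γ₀(N) → A` compatible on `Γ₀(Nq)` (`f₁ (up η) = f₀ η`, `up` = conjugation by
`diag(q, 1)`) there is a function on admissible matrices of determinant `q`, equivariant for
`f_s` on the left and `f_{1-s}` on the right and antisymmetric under the adjugate.
-/

set_option autoImplicit false

open Matrix CongruenceSubgroup
open scoped MatrixGroups OnePoint

namespace Fermat.Agent.IharaH1

/-- Integral `2 × 2` matrices. -/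
abbrev M2 := Matrix (Fin 2) (Fin 2) ℤ

/-- Lower left entry `≡ 0` and upper left entry a unit modulo `N`. -/
abbrev Adm0 (N : ℕ) (m : M2) : Prop := GroupH1.Adm N ⊤ m

/-- Admissibility in terms of the first column. -/
theorem adm0_iff {N : ℕ} {m : M2} :
    Adm0 N m ↔ (m 1 0 : ZMod N) = 0 ∧ IsUnit (m 0 0 : ZMod N) :=
  ⟨fun h => ⟨h.1, h.isUnit⟩, fun h => ⟨h.1, h.2.unit, trivial, h.2.unit_spec⟩⟩

/-- A matrix with unit determinant and lower left entry zero modulo `N` is admissible. -/
theorem adm0_of_det {N : ℕ} {m : M2} (hd : IsUnit (m.det : ZMod N))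
    (hc : (m 1 0 : ZMod N) = 0) : Adm0 N m := by
  refine adm0_iff.mpr ⟨hc, ?_⟩
  rw [Matrix.det_fin_two] at hd
  push_cast at hd
  rw [hc, mul_zero, sub_zero] at hd
  exact isUnit_of_mul_isUnit_left hd

/-- A determinant one matrix with lower left entry zero modulo `N` is admissible. -/
theorem adm0_of_det_one {N : ℕ} {m : M2} (hd : m.det = 1) (hc : (m 1 0 : ZMod N) = 0) : Adm0 N m :=
  adm0_of_det (by simp [hd]) hc

/-- The adjugate of an admissible matrix is admissible. -/
theorem adm0_adjugate {N : ℕ} {m : M2} (hd : IsUnit (m.det : ZMod N)) (h : Adm0 N m) :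
    Adm0 N m.adjugate := by
  refine adm0_of_det ?_ ?_
  · rw [Matrix.det_adjugate]; simpa using hd
  · rw [Matrix.adjugate_fin_two]; simp [h.1]

/-- The elements of `Γ₀(N)` are admissible. -/
theorem adm0_of_mem {N : ℕ} (g : Gamma0 N) : Adm0 N (g : SL(2, ℤ)).1 :=
  adm0_of_det (by simp [(g : SL(2, ℤ)).2]) (Gamma0_mem.mp g.2)

/-- An admissible matrix of determinant one as an element of `Γ₀(N)`. -/
def toG {N : ℕ} (m : M2) (hd : m.det = 1) (ha : Adm0 N m) : Gamma0 N :=
  ⟨⟨m, hd⟩, Gamma0_mem.mpr ha.1⟩

/-- `diag(q, 1)`. -/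
def omega (q : ℕ) : M2 := !![(q : ℤ), 0; 0, 1]

/-- `diag(q, 1)` has determinant `q`. -/
theorem det_omega (q : ℕ) : (omega q).det = q := by simp [omega, Matrix.det_fin_two_of]

/-- The value of a homomorphism at a matrix (zero outside `Γ₀(N)`). -/
noncomputable def val {N : ℕ} {A : Type*} [AddCommGroup A] (f : Additive (Gamma0 N) →+ A)
    (m : M2) : A := by
  classical exact if h : m.det = 1 ∧ Adm0 N m then f (Additive.ofMul (toG m h.1 h.2)) else 0

section val

variable {N : ℕ} {A : Type*} [AddCommGroup A] (f : Additive (Gamma0 N) →+ A)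

/-- `val f` at a group element. -/
theorem val_coe (g : Gamma0 N) : val f (g : SL(2, ℤ)).1 = f (Additive.ofMul g) := by
  rw [val, dif_pos ⟨(g : SL(2, ℤ)).2, adm0_of_mem g⟩]; rfl

/-- `val f` is additive on admissible matrices of determinant one. -/
theorem val_mul {m n : M2} (hm : m.det = 1) (hm' : Adm0 N m) (hn : n.det = 1) (hn' : Adm0 N n) :
    val f (m * n) = val f m + val f n := by
  have hmn : (m * n).det = 1 ∧ Adm0 N (m * n) :=
    ⟨by rw [det_mul, hm, hn, one_mul], hm'.mul hn'⟩
  rw [val, val, val, dif_pos hmn, dif_pos ⟨hm, hm'⟩, dif_pos ⟨hn, hn'⟩, ← map_add]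
  rfl

/-- `val f` vanishes at one. -/
theorem val_one : val f 1 = 0 := by
  have h := val_mul f (m := 1) (n := 1) (by simp) GroupH1.adm_one (by simp) GroupH1.adm_one
  rw [one_mul] at h
  exact left_eq_add.mp h

/-- The inverse of an admissible matrix of determinant one is admissible. -/
theorem adm0_adjugate_one {m : M2} (hm : m.det = 1) (hm' : Adm0 N m) : Adm0 N m.adjugate :=
  adm0_adjugate (by simp [hm]) hm'

/-- The inverse of a matrix of determinant one has determinant one. -/
theorem det_adjugate_one {m : M2} (hm : m.det = 1) : m.adjugate.det = 1 := by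
  rw [Matrix.det_adjugate, hm, one_pow]

/-- The adjugate is a left inverse in determinant one. -/
theorem adjugate_mul_one {m : M2} (hm : m.det = 1) : m.adjugate * m = 1 := by
  rw [Matrix.adjugate_mul, hm, one_smul]

/-- The adjugate is a right inverse in determinant one. -/
theorem mul_adjugate_one {m : M2} (hm : m.det = 1) : m * m.adjugate = 1 := by
  rw [Matrix.mul_adjugate, hm, one_smul]

/-- `val f` of an inverse. -/
theorem val_adjugate {m : M2} (hm : m.det = 1) (hm' : Adm0 N m) :
    val f m.adjugate = -val f m := by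
  rw [eq_neg_iff_add_eq_zero, ← val_mul f (det_adjugate_one hm) (adm0_adjugate_one hm hm') hm hm',
    adjugate_mul_one hm, val_one]

end val

variable {N q : ℕ} [hq : Fact q.Prime] (hqN : ¬ q ∣ N)

include hqN

/-- For `q ∤ N` the prime `q` is a unit modulo `N`. -/
theorem isUnit_q : IsUnit (q : ZMod N) :=
  (ZMod.isUnit_iff_coprime q N).mpr (hq.out.coprime_iff_not_dvd.mpr hqN)

/-- `diag(q, 1)` is admissible for `q ∤ N`. -/
theorem adm0_omega : Adm0 N (omega q) :=
  adm0_of_det (by simpa [det_omega] using isUnit_q hqN) (by simp [omega])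

/-- For `q` prime to `N` a matrix of determinant `q` with lower left entry zero modulo `N` is
admissible. -/
theorem adm0_of_det_eq {m : M2} (hd : m.det = q) (hc : (m 1 0 : ZMod N) = 0) : Adm0 N m :=
  adm0_of_det (by simpa [hd] using isUnit_q hqN) hc

/-- Every representative is a double coset translate of `diag(q, 1)`. -/
theorem exists_rep_eq (x : GroupH1.HIdx N q) :
    ∃ α β : M2, α.det = 1 ∧ Adm0 N α ∧ β.det = 1 ∧ Adm0 N β ∧
      GroupH1.repInt N q x.1 = α * omega q * β := by
  obtain ⟨x, hx⟩ := x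
  set a := GroupH1.bezA N q
  set b := GroupH1.bezB N q
  have hb : a * q + b * N = 1 := GroupH1.bez_eq hq.out hqN
  cases x using OnePoint.rec with
  | infty =>
    refine ⟨!![a, -b; (N : ℤ), q], 1, ?_, ?_, by simp, GroupH1.adm_one, ?_⟩
    · rw [det_fin_two_of]; linear_combination hb
    · exact adm0_of_det_one (by rw [det_fin_two_of]; linear_combination hb) (by simp)
    · rw [GroupH1.repInt_infty, mul_one]
      ext i j; fin_cases i <;> fin_cases j <;> simp [omega, mul_apply, Fin.sum_univ_two, a, b]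
  | coe j =>
    have key : !![1, (j.val : ℤ); 0, (q : ℤ)] =
        (!![1, b; -(N : ℤ), a * q] : M2) * omega q *
          ((!![a, -b; (N : ℤ), q] : M2) * !![1, (j.val : ℤ); 0, 1]) := by
      ext i k
      fin_cases i <;> fin_cases k <;>
        simp [omega, mul_apply, Fin.sum_univ_two, -ZMod.natCast_val]
      · linear_combination -hb
      · linear_combination -(j.val : ℤ) * hb
      · ring
      · linear_combination -(q : ℤ) * hb
    refine ⟨_, _, ?_, ?_, ?_, ?_, key.trans rfl |> (GroupH1.repInt_coe N q j).trans⟩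
    · rw [det_fin_two_of]; linear_combination hb
    · exact adm0_of_det_one (by rw [det_fin_two_of]; linear_combination hb) (by simp)
    · rw [det_mul, det_fin_two_of, det_fin_two_of]; linear_combination hb
    · exact (adm0_of_det_one (by rw [det_fin_two_of]; linear_combination hb) (by simp)).mul
        (adm0_of_det_one (by simp [det_fin_two_of]) (by simp))

/-- Transitivity: every admissible matrix of determinant `q` is a translate of `diag(q, 1)`. -/
theorem exists_eq_mul_omega {y : M2} (hy : y.det = q) (hy' : Adm0 N y) :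
    ∃ α β : M2, α.det = 1 ∧ Adm0 N α ∧ β.det = 1 ∧ Adm0 N β ∧ y = α * omega q * β := by
  obtain ⟨x, n, hn, hn'⟩ := GroupH1.exists_eq_mul_repInt (ℓ := q) hy' (by rw [hy])
  obtain ⟨α, β, hα, hα', hβ, hβ', hx⟩ := exists_rep_eq hqN x
  have hnd : n.det = 1 := by
    rw [hn, det_mul, GroupH1.det_repInt] at hy
    exact mul_right_cancel₀ (Int.natCast_ne_zero.2 hq.out.ne_zero) (by rw [hy, one_mul])
  refine ⟨n * α, β, by rw [det_mul, hnd, hα, one_mul], hn'.mul hα', hβ, hβ', ?_⟩
  rw [hn, hx]; simp only [mul_assoc]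

variable {A : Type*} [AddCommGroup A]

omit hqN in
/-- Compatibility of a pair on `Γ₀(Nq)`: `f₁ (ω η ω⁻¹) = f₀ η`. -/
def Compat (N q : ℕ) (f₀ f₁ : Additive (Gamma0 N) →+ A) : Prop :=
  ∀ η η' : M2, η.det = 1 → Adm0 N η → η'.det = 1 → Adm0 N η' → omega q * η = η' * omega q →
    val f₁ η' = val f₀ η

variable {f₀ f₁ : Additive (Gamma0 N) →+ A}

omit hqN hq in
theorem adjugate_omega_mul {η η' : M2}
    (h : omega q * η = η' * omega q) :
    η.adjugate * (omega q).adjugate = (omega q).adjugate * η'.adjugate := by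
  rw [← Matrix.adjugate_mul_distrib, h, Matrix.adjugate_mul_distrib]

theorem exists_adjugate_omega_eq :
    ∃ α β : M2, α.det = 1 ∧ Adm0 N α ∧ β.det = 1 ∧ Adm0 N β ∧
      (omega q).adjugate = α * omega q * β :=
  exists_eq_mul_omega hqN (by rw [det_adjugate, det_omega]; simp)
    (adm0_adjugate (by simpa [det_omega] using isUnit_q hqN) (adm0_omega hqN))

/-- Compatibility is symmetric. -/
theorem Compat.symm (h : Compat N q f₀ f₁) : Compat N q f₁ f₀ := by
  intro η η' hη hηa hη' hη'a heq
  obtain ⟨α, β, hα, hαa, hβ, hβa, hd⟩ := exists_adjugate_omega_eq hqN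
  have h1 := adjugate_omega_mul heq
  rw [hd] at h1
  have h2 : omega q * (β * η'.adjugate * β.adjugate) =
      (α.adjugate * η.adjugate * α) * omega q := by
    calc omega q * (β * η'.adjugate * β.adjugate)
        = α.adjugate * (α * omega q * β * η'.adjugate) * β.adjugate := by
          simp only [← mul_assoc, adjugate_mul_one hα, one_mul]
      _ = α.adjugate * (η.adjugate * (α * omega q * β)) * β.adjugate := by rw [← h1]
      _ = _ := by simp only [mul_assoc, mul_adjugate_one hβ, mul_one]
  have hA := det_adjugate_one hα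
  have hB := det_adjugate_one hβ
  have hE := det_adjugate_one hη
  have hE' := det_adjugate_one hη'
  have hA' := adm0_adjugate_one hα hαa
  have hB' := adm0_adjugate_one hβ hβa
  have hEa := adm0_adjugate_one hη hηa
  have hE'a := adm0_adjugate_one hη' hη'a
  have h3 := h _ _ (by rw [det_mul, det_mul, hβ, hE', hB, one_mul, one_mul])
    ((hβa.mul hE'a).mul hB') (by rw [det_mul, det_mul, hA, hE, hα, one_mul, one_mul])
    ((hA'.mul hEa).mul hαa) h2
  rw [val_mul f₁ (by rw [det_mul, hA, hE, one_mul]) (hA'.mul hEa) hα hαa, val_mul f₁ hA hA' hE hEa,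
    val_mul f₀ (by rw [det_mul, hβ, hE', one_mul]) (hβa.mul hE'a) hB hB',
    val_mul f₀ hβ hβa hE' hE'a,
    val_adjugate f₁ hα hαa, val_adjugate f₁ hη hηa, val_adjugate f₀ hβ hβa,
    val_adjugate f₀ hη' hη'a] at h3
  have h4 : -val f₁ η = -val f₀ η' := by
    calc -val f₁ η = -val f₁ α + -val f₁ η + val f₁ α := by abel
      _ = val f₀ β + -val f₀ η' + -val f₀ β := h3
      _ = -val f₀ η' := by abel
  exact (neg_injective h4).symm

/-- The edge function of a compatible pair, with value `c` at `diag(q, 1)`. -/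
theorem exists_edge (h : Compat N q f₀ f₁) (c : A) :
    ∃ E : M2 → A, E (omega q) = c ∧ ∀ α y β : M2, α.det = 1 → Adm0 N α → y.det = q → Adm0 N y →
      β.det = 1 → Adm0 N β → E (α * y * β) = val f₁ α + E y + val f₀ β := by
  classical
  let E : M2 → A := fun y => if hy : ∃ α β : M2, α.det = 1 ∧ Adm0 N α ∧ β.det = 1 ∧ Adm0 N β ∧
      y = α * omega q * β then val f₁ hy.choose + c + val f₀ hy.choose_spec.choose else 0
  have hE : ∀ α β : M2, α.det = 1 → Adm0 N α → β.det = 1 → Adm0 N β →
      E (α * omega q * β) = val f₁ α + c + val f₀ β := by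
    intro α β hα hα' hβ hβ'
    have hy : ∃ α' β' : M2, α'.det = 1 ∧ Adm0 N α' ∧ β'.det = 1 ∧ Adm0 N β' ∧
        α * omega q * β = α' * omega q * β' := ⟨α, β, hα, hα', hβ, hβ', rfl⟩
    simp only [E, dif_pos hy]
    obtain ⟨a₁, ha₁', b₁, hb₁', heq⟩ := hy.choose_spec.choose_spec
    set β' := hy.choose_spec.choose
    set α' := hy.choose
    have h2 : omega q * (β * β'.adjugate) = (α.adjugate * α') * omega q := by
      calc omega q * (β * β'.adjugate)
          = α.adjugate * (α * omega q * β) * β'.adjugate := by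
            simp only [← mul_assoc, adjugate_mul_one hα, one_mul]
        _ = α.adjugate * (α' * omega q * β') * β'.adjugate := by rw [heq]
        _ = _ := by simp only [mul_assoc, mul_adjugate_one b₁, mul_one]
    have hA := det_adjugate_one hα
    have hA' := adm0_adjugate_one hα hα'
    have hB := det_adjugate_one b₁
    have hB' := adm0_adjugate_one b₁ hb₁'
    have h3 := h _ _ (by rw [det_mul, hβ, hB, one_mul]) (hβ'.mul hB')
      (by rw [det_mul, hA, a₁, one_mul]) (hA'.mul ha₁') h2
    rw [val_mul f₁ hA hA' a₁ ha₁', val_mul f₀ hβ hβ' hB hB', val_adjugate f₁ hα hα',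
      val_adjugate f₀ b₁ hb₁'] at h3
    calc val f₁ α' + c + val f₀ β'
        = (-val f₁ α + val f₁ α') + (val f₁ α + c + val f₀ β') := by abel
      _ = (val f₀ β + -val f₀ β') + (val f₁ α + c + val f₀ β') := by rw [h3]
      _ = _ := by abel
  refine ⟨E, ?_, fun α y β hα hα' hy hy' hβ hβ' => ?_⟩
  · have := hE 1 1 (by simp) GroupH1.adm_one (by simp) GroupH1.adm_one
    simpa [val_one] using this
  · obtain ⟨a, b, ha, ha', hb, hb', rfl⟩ := exists_eq_mul_omega hqN hy hy'
    rw [show α * (a * omega q * b) * β = (α * a) * omega q * (b * β) by simp only [mul_assoc],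
      hE _ _ (by rw [det_mul, hα, ha, one_mul]) (hα'.mul ha') (by rw [det_mul, hb, hβ, one_mul])
        (hb'.mul hβ'), hE a b ha ha' hb hb', val_mul f₁ hα hα' ha ha', val_mul f₀ hb hb' hβ hβ']
    abel

/-- The two edge functions, antisymmetric under the adjugate. -/
theorem exists_edges (h : Compat N q f₀ f₁) :
    ∃ E : Bool → M2 → A, ∀ s : Bool,
      (∀ α y β : M2, α.det = 1 → Adm0 N α → y.det = q → Adm0 N y → β.det = 1 → Adm0 N β →
        E s (α * y * β) =
          val (cond s f₁ f₀) α + E s y + val (cond s f₀ f₁) β) ∧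
      (∀ y : M2, y.det = q → Adm0 N y → E s y + E (!s) y.adjugate = 0) := by
  obtain ⟨a, b, ha, ha', hb, hb', hd⟩ := exists_adjugate_omega_eq hqN
  obtain ⟨E₀, hE₀, h₀⟩ := exists_edge hqN (h.symm hqN) (0 : A)
  obtain ⟨E₁, hE₁, h₁⟩ := exists_edge hqN h (-val f₁ a - val f₀ b)
  have hω := adm0_omega hqN
  have hA := det_adjugate_one ha
  have hA' := adm0_adjugate_one ha ha'
  have hB := det_adjugate_one hb
  have hB' := adm0_adjugate_one hb hb'
  -- the identity relating `a` and `b`
  have hab : omega q * (b * a.adjugate) = (a.adjugate * b) * omega q := by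
    have h1 : omega q = b.adjugate * (omega q).adjugate * a.adjugate := by
      have := congrArg Matrix.adjugate hd
      rw [Matrix.adjugate_mul_distrib, Matrix.adjugate_mul_distrib, adjugate_adjugate _ (by simp),
        show (omega q).det ^ (Fintype.card (Fin 2) - 2) = 1 by simp, one_smul] at this
      rw [← mul_assoc] at this
      exact this
    rw [hd] at h1
    calc omega q * (b * a.adjugate)
        = (a.adjugate * b) * (b.adjugate * (a * omega q * b) * a.adjugate) := by
          simp only [← mul_assoc, mul_assoc a.adjugate b b.adjugate, mul_adjugate_one hb, mul_one,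
            adjugate_mul_one ha, one_mul]
      _ = _ := by rw [← h1]
  have hrel := h _ _ (by rw [det_mul, hb, hA, one_mul]) (hb'.mul hA')
    (by rw [det_mul, hA, hb, one_mul]) (hA'.mul hb') hab
  rw [val_mul f₁ hA hA' hb hb', val_mul f₀ hb hb' hA hA', val_adjugate f₁ ha ha',
    val_adjugate f₀ ha ha'] at hrel
  refine ⟨fun s => cond s E₁ E₀, fun s => ?_⟩
  have hequiv : ∀ s : Bool, ∀ α y β : M2, α.det = 1 → Adm0 N α → y.det = q → Adm0 N y →
      β.det = 1 → Adm0 N β → cond s E₁ E₀ (α * y * β) =
        val (cond s f₁ f₀) α + cond s E₁ E₀ y + val (cond s f₀ f₁) β := by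
    intro s; cases s
    · exact h₀
    · exact h₁
  refine ⟨hequiv s, fun y hy hy' => ?_⟩
  obtain ⟨α, β, hα, hα', hβ, hβ', rfl⟩ := exists_eq_mul_omega hqN hy hy'
  have hadj : (α * omega q * β).adjugate = (β.adjugate * a) * omega q * (b * α.adjugate) := by
    rw [Matrix.adjugate_mul_distrib, Matrix.adjugate_mul_distrib, hd]; simp only [mul_assoc]
  simp only [hadj]
  rw [hequiv s α _ β hα hα' (det_omega q) hω hβ hβ',
    hequiv (!s) _ _ _ (by rw [det_mul, det_adjugate_one hβ, ha, one_mul])
      ((adm0_adjugate_one hβ hβ').mul ha') (det_omega q) hω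
      (by rw [det_mul, hb, det_adjugate_one hα, one_mul]) (hb'.mul (adm0_adjugate_one hα hα'))]
  rw [val_mul _ (det_adjugate_one hβ) (adm0_adjugate_one hβ hβ') ha ha',
    val_mul _ hb hb' (det_adjugate_one hα) (adm0_adjugate_one hα hα'),
    val_adjugate _ hα hα', val_adjugate _ hβ hβ']
  cases s
  · simp only [Bool.not_false, cond_false, cond_true, hE₀, hE₁]; abel
  · simp only [Bool.not_true, cond_false, cond_true, hE₀, hE₁]
    have h5 : val f₁ b + val f₀ a = val f₀ b + val f₁ a := by
      calc val f₁ b + val f₀ a = (-val f₁ a + val f₁ b) + (val f₁ a + val f₀ a) := by abel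
        _ = (val f₀ b + -val f₀ a) + (val f₁ a + val f₀ a) := by rw [hrel]
        _ = _ := by abel
    calc _ = (val f₁ b + val f₀ a) - (val f₀ b + val f₁ a) := by abel
      _ = 0 := by rw [h5, sub_self]

end Fermat.Agent.IharaH1
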