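import Fermat.Agent.IharaH1.Degen

/-!
# Operators described by families of integral matrices

`Sends R φ ψ` says that `ψ` is the transfer of `φ` along the family `R`. The image is unique, it
only depends on the left classes of the family, and families multiply under composition. So two
composites of operators agree as soon as their families agree up to left multiplication.
-/

set_option autoImplicit false

noncomputable section

open Matrix CongruenceSubgroup
open scoped MatrixGroups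

namespace Fermat.Agent.IharaH1

open Fermat.Agent.GroupH1 (GammaH HIdx repInt heckeSystem realMat realMat_mul coe_mapGL coe_repGL
  DoubleSystem)
open Fermat.Agent.HeckeLattice (toGL CosetSystem)

variable {B : Type*} [AddCommGroup B] {M₁ M₂ M₃ : ℕ} {ι κ : Type*} [Fintype ι] [Fintype κ]

/-- `ψ` is the transfer of `φ` along `R`. -/
def Sends (R : ι → M2) (φ : H1 M₁ B) (ψ : H1 M₂ B) : Prop :=
  ∀ γ : GammaH M₂ ⊤, ∃ (σ : Equiv.Perm ι) (c : ι → GammaH M₁ ⊤),
    (∀ x, R x * (γ : SL(2, ℤ)).1 = (c x : SL(2, ℤ)).1 * R (σ x)) ∧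
      ψ (Additive.ofMul γ) = ∑ x, φ (Additive.ofMul (c x))

/-- The matrix of a product. -/
theorem coe_mul2 {M : ℕ} (g h : GammaH M ⊤) :
    ((g * h : GammaH M ⊤) : SL(2, ℤ)).1 = (g : SL(2, ℤ)).1 * (h : SL(2, ℤ)).1 := by
  rw [Subgroup.coe_mul, Matrix.SpecialLinearGroup.coe_mul]

/-- The matrix of one. -/
theorem coe_one2 {M : ℕ} : ((1 : GammaH M ⊤) : SL(2, ℤ)).1 = 1 := by
  rw [Subgroup.coe_one, Matrix.SpecialLinearGroup.coe_one]

/-- An inverse cancels on matrices. -/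
theorem inv_mul_cancel_mat {M : ℕ} (g : GammaH M ⊤) (m : M2) :
    ((g⁻¹ : GammaH M ⊤) : SL(2, ℤ)).1 * ((g : SL(2, ℤ)).1 * m) = m := by
  rw [← mul_assoc, ← coe_mul2, inv_mul_cancel, coe_one2, one_mul]

/-- Right cancellation of a matrix of nonzero determinant. -/
theorem mul_right_cancel_det {A C R : M2} (hR : R.det ≠ 0) (h : A * R = C * R) : A = C := by
  have h2 := congrArg (fun Z => Z * R.adjugate) h
  simp only [mul_assoc, Matrix.mul_adjugate, Matrix.mul_smul, mul_one] at h2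
  exact smul_right_injective _ hR h2

variable {φ : H1 M₁ B} {ψ ψ' : H1 M₂ B} {R : ι → M2}

/-- The image is unique. -/
theorem Sends.unique (hdet : ∀ x, (R x).det ≠ 0) (h : Sends R φ ψ) (h' : Sends R φ ψ') :
    ψ = ψ' := by
  classical
  let S : Setoid ι :=
    { r := fun x y => ∃ g : GammaH M₁ ⊤, R x = (g : SL(2, ℤ)).1 * R y
      iseqv :=
        { refl := fun x => ⟨1, by rw [coe_one2, one_mul]⟩
          symm := fun ⟨g, hg⟩ => ⟨g⁻¹, by rw [hg, inv_mul_cancel_mat]⟩
          trans := fun ⟨g, hg⟩ ⟨g', hg'⟩ => ⟨g * g', by rw [hg, hg', coe_mul2, mul_assoc]⟩ } }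
  let o : ι → ι := fun x => (Quotient.mk S x).out
  choose k hk using fun x : ι => (show ∃ g : GammaH M₁ ⊤, R x = (g : SL(2, ℤ)).1 * R (o x) from
    Setoid.symm (Quotient.mk_out x))
  refine AddMonoidHom.ext fun a => ?_
  obtain ⟨γ, rfl⟩ := Additive.ofMul.surjective a
  obtain ⟨σ, c, hc, hψ⟩ := h γ
  obtain ⟨σ', c', hc', hψ'⟩ := h' γ
  have key : ∀ x, φ (Additive.ofMul (c x)) + φ (Additive.ofMul (k (σ x))) =
      φ (Additive.ofMul (c' x)) + φ (Additive.ofMul (k (σ' x))) := by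
    intro x
    have ho : o (σ x) = o (σ' x) := congrArg Quotient.out (Quotient.sound (s := S)
      ⟨(c x)⁻¹ * c' x, by rw [coe_mul2, mul_assoc, ← hc', hc, inv_mul_cancel_mat]⟩)
    rw [← φ.map_add, ← φ.map_add, ← ofMul_mul, ← ofMul_mul]
    refine congrArg (fun g => φ (Additive.ofMul g)) (Subtype.ext (Subtype.ext
      (mul_right_cancel_det (hdet (o (σ x))) ?_)))
    rw [coe_mul2, coe_mul2, mul_assoc, mul_assoc, ← hk, ← hc x, hc' x, hk (σ' x), ho]
  have h3 := Finset.sum_congr (rfl : (Finset.univ : Finset ι) = _) fun x _ => key x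
  rw [Finset.sum_add_distrib, Finset.sum_add_distrib, 
    Equiv.sum_comp σ (fun z => φ (Additive.ofMul (k z))),
    Equiv.sum_comp σ' (fun z => φ (Additive.ofMul (k z)))] at h3
  rw [hψ, hψ']
  exact add_right_cancel h3

/-- Changing the family inside its left classes. -/
theorem Sends.congr {R' : κ → M2} (h : Sends R φ ψ) (e : κ ≃ ι) (k : κ → GammaH M₁ ⊤)
    (hk : ∀ y, R' y = (k y : SL(2, ℤ)).1 * R (e y)) : Sends R' φ ψ := by
  intro γ
  obtain ⟨σ, c, hc, hψ⟩ := h γ
  let τ : Equiv.Perm κ := (e.trans σ).trans e.symm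
  refine ⟨τ, fun y => k y * c (e y) * (k (τ y))⁻¹, fun y => ?_, ?_⟩
  · show R' y * _ = ((k y * c (e y) * (k (τ y))⁻¹ : GammaH M₁ ⊤) : SL(2, ℤ)).1 * R' (τ y)
    rw [hk y, hk (τ y), mul_assoc _ (R (e y)), hc, coe_mul2, coe_mul2, mul_assoc,
      inv_mul_cancel_mat, show e (τ y) = σ (e y) by simp [τ], mul_assoc]
  · simp only [ofMul_mul, ofMul_inv, map_add, map_neg, Finset.sum_add_distrib,
      Finset.sum_neg_distrib]
    rw [Equiv.sum_comp τ (fun y => φ (Additive.ofMul (k y))),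
      Equiv.sum_comp e (fun x => φ (Additive.ofMul (c x))), hψ]
    abel

/-- Composition. -/
theorem Sends.comp {S : κ → M2} {χ : H1 M₃ B} (h : Sends R φ ψ) (h' : Sends S ψ χ) :
    Sends (fun z : ι × κ => R z.1 * S z.2) φ χ := by
  intro γ
  obtain ⟨τ, d, hd, hχ⟩ := h' γ
  choose σ c hc hψ using fun y => h (d y)
  refine ⟨((Equiv.prodComm ι κ).trans
    ((Equiv.prodShear τ σ).trans (Equiv.prodComm κ ι))), fun z => c z.2 z.1, fun z => ?_, ?_⟩
  · show R z.1 * S z.2 * _ = _ * (R (σ z.2 z.1) * S (τ z.2))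
    rw [mul_assoc, hd, ← mul_assoc, hc, mul_assoc]
  · rw [hχ, Finset.sum_congr rfl fun y _ => hψ y, Fintype.sum_prod_type, Finset.sum_comm]

/-- Disjoint union. -/
theorem Sends.sum {R' : κ → M2} (h : Sends R φ ψ) (h' : Sends R' φ ψ') :
    Sends (Sum.elim R R') φ (ψ + ψ') := by
  intro γ
  obtain ⟨σ, c, hc, hψ⟩ := h γ
  obtain ⟨σ', c', hc', hψ'⟩ := h' γ
  refine ⟨Equiv.sumCongr σ σ', Sum.elim c c', fun x => ?_, ?_⟩
  · cases x
    · exact hc _
    · exact hc' _
  · rw [Fintype.sum_sum_type, AddMonoidHom.add_apply, hψ, hψ']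
    rfl

/-- A nonzero scalar multiple of the family has the same effect. -/
theorem Sends.smul (h : Sends R φ ψ) (a : ℤ) : Sends (fun x => a • R x) φ ψ := by
  intro γ
  obtain ⟨σ, c, hc, hψ⟩ := h γ
  exact ⟨σ, c, fun x => by rw [Matrix.smul_mul, hc, Matrix.mul_smul], hψ⟩

/-- A family of elements of the group, up to a scalar. -/
theorem sends_const (φ : H1 M₁ B) (a : ℤ) (k : ι → GammaH M₁ ⊤) :
    Sends (fun x => a • (k x : SL(2, ℤ)).1) φ (Fintype.card ι • φ) := by
  intro γ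
  refine ⟨1, fun x => k x * γ * (k x)⁻¹, fun x => ?_, ?_⟩
  · rw [Equiv.Perm.one_apply, Matrix.smul_mul, Matrix.mul_smul, ← coe_mul2, ← coe_mul2,
      inv_mul_cancel_right]
  · simp [Finset.sum_const]

/-! ### The operators -/

section transfer

variable {M ℓ : ℕ} [hℓ : Fact ℓ.Prime]

/-- A Hecke operator is the transfer along its representatives. -/
theorem sends_transfer (φ : H1 M B) :
    Sends (fun x : HIdx M ℓ => repInt M ℓ x.1) φ ((heckeSystem M ⊤ ℓ).transfer φ) := fun γ =>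
  ⟨(heckeSystem M ⊤ ℓ).nextPerm γ, (heckeSystem M ⊤ ℓ).cocycle γ,
    fun x => GroupH1.repInt_mul_eq γ x, rfl⟩

end transfer

/-- A degeneracy map is the transfer along a single diagonal matrix. -/
theorem sends_degMap {d M' M : ℕ} (hd : d ≠ 0) (hdvd : M * d ∣ M') (φ : H1 M B) :
    Sends (fun _ : Unit => omega d) φ (degMap hd hdvd φ) := fun γ =>
  ⟨1, fun _ => upHom hd hdvd γ, fun _ => by
    rw [upHom_coe, Equiv.Perm.one_apply]; exact omega_mul_eq_upM_mul (upD_adm hdvd γ.2).1,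
    by rw [Fintype.sum_unique]; rfl⟩

/-- The system attached to a family of integral matrices. -/
def matSystem (R : ι → M2) (hdet : ∀ x, (R x).det ≠ 0)
    (hex : ∀ (γ : GammaH M₂ ⊤) (x : ι), ∃ (y : ι) (c : GammaH M₁ ⊤),
      R x * (γ : SL(2, ℤ)).1 = (c : SL(2, ℤ)).1 * R y)
    (hinj : ∀ (u : GammaH M₁ ⊤) (x y : ι), (u : SL(2, ℤ)).1 * R x = R y → x = y) :
    DoubleSystem (GammaH M₁ ⊤) (GammaH M₂ ⊤) ι where
  β x := Matrix.GeneralLinearGroup.mkOfDetNeZero (realMat (R x)) <| by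
    rw [GroupH1.det_realMat]; exact_mod_cast hdet x
  exists_mul γ x := by
    obtain ⟨y, c, hc⟩ := hex γ x
    refine ⟨(y, c), Units.ext ?_⟩
    show realMat (R x) * ((toGL γ : GL (Fin 2) ℝ) : Matrix (Fin 2) (Fin 2) ℝ) =
      ((toGL c : GL (Fin 2) ℝ) : Matrix (Fin 2) (Fin 2) ℝ) * realMat (R y)
    rw [toGL, toGL, coe_mapGL, coe_mapGL, ← realMat_mul, ← realMat_mul, hc]
  inj u x y h := by
    refine hinj u x y (GroupH1.realMat_injective ?_)
    have h1 := congrArg (fun g : GL (Fin 2) ℝ => (g : Matrix (Fin 2) (Fin 2) ℝ)) h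
    rw [realMat_mul]
    rwa [Units.val_mul, toGL, coe_mapGL] at h1

/-- The transfer of `matSystem R` is described by the family `R`. -/
theorem sends_matSystem (R : ι → M2) (hdet : ∀ x, (R x).det ≠ 0)
    (hex : ∀ (γ : GammaH M₂ ⊤) (x : ι), ∃ (y : ι) (c : GammaH M₁ ⊤),
      R x * (γ : SL(2, ℤ)).1 = (c : SL(2, ℤ)).1 * R y)
    (hinj : ∀ (u : GammaH M₁ ⊤) (x y : ι), (u : SL(2, ℤ)).1 * R x = R y → x = y) (φ : H1 M₁ B) :
    Sends R φ ((matSystem R hdet hex hinj).transfer φ) := by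
  intro γ
  refine ⟨(matSystem R hdet hex hinj).nextPerm γ, (matSystem R hdet hex hinj).cocycle γ,
    fun x => GroupH1.realMat_injective ?_, rfl⟩
  have h := congrArg (fun g : GL (Fin 2) ℝ => (g : Matrix (Fin 2) (Fin 2) ℝ))
    ((matSystem R hdet hex hinj).rep_mul γ x)
  simp only [Units.val_mul, toGL, coe_mapGL] at h
  rw [realMat_mul, realMat_mul]
  exact h

/-- An injective choice of classes between families of equal size is an equivalence. -/
theorem exists_classes {R' : κ → M2}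
    (hex : ∀ y, ∃ (x : ι) (k : GammaH M₁ ⊤), R' y = (k : SL(2, ℤ)).1 * R x)
    (hinj : ∀ (u : GammaH M₁ ⊤) (y y' : κ), (u : SL(2, ℤ)).1 * R' y = R' y' → y = y')
    (hcard : Fintype.card κ = Fintype.card ι) :
    ∃ (e : κ ≃ ι) (k : κ → GammaH M₁ ⊤), ∀ y, R' y = (k y : SL(2, ℤ)).1 * R (e y) := by
  choose e k hk using hex
  have hi : Function.Injective e := fun y y' he => hinj (k y' * (k y)⁻¹) y y' (by
    rw [hk y, hk y', he, coe_mul2, mul_assoc, inv_mul_cancel_mat])
  exact ⟨Equiv.ofBijective e ((Fintype.bijective_iff_injective_and_card e).mpr ⟨hi, hcard⟩), k, hk⟩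

end Fermat.Agent.IharaH1

end
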