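import Fermat.Agent.IharaH1.Potential
import Mathlib.FieldTheory.Finite.Basic
import Mathlib.Data.Rat.Lemmas

/-!
# A compatible pair extends to `Γ₀(N)[1/q]`

If `f₀, f₁` are compatible on `Γ₀(Nq)` and `f₀` is parabolic, then `f₀` extends to a homomorphism
on the elements of `SL₂(ℚ)` with entries in `ℤ[1/q]` and lower left entry divisible by `N`, which
kills every element of trace `2`.
-/

set_option autoImplicit false

open Matrix CongruenceSubgroup
open scoped MatrixGroups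

namespace Fermat.Agent.IharaH1

/-- `g ∈ SL₂(ℚ)` lies in `Γ₀(N)[1/q]`: some `q`-power multiple is integral with lower left entry
divisible by `N`. -/
def MemInv (N q : ℕ) (g : SL(2, ℚ)) : Prop :=
  ∃ n : ℕ, ∃ m : M2, (q : ℚ) ^ n • (g : Matrix (Fin 2) (Fin 2) ℚ) = m.map (Int.cast : ℤ → ℚ) ∧
    (m 1 0 : ZMod N) = 0

/-- A primitive kernel vector of a nilpotent integral matrix, completed to `SL₂(ℤ)`. -/
theorem exists_conj_strictUpper {N0 : M2} (ht : N0 0 0 + N0 1 1 = 0) (hd : N0.det = 0) :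
    ∃ (α : M2) (x : ℤ), α.det = 1 ∧ N0 = α * !![0, x; 0, 0] * α.adjugate := by
  rw [det_fin_two] at hd
  have h11 : N0 1 1 = -N0 0 0 := by linarith
  suffices h : ∃ v0 v1 : ℤ, IsCoprime v0 v1 ∧ N0 0 0 * v0 + N0 0 1 * v1 = 0 ∧
      N0 1 0 * v0 + N0 1 1 * v1 = 0 by
    obtain ⟨v0, v1, ⟨s, t, hst⟩, e0, e1⟩ := h
    have hα : (!![v0, -t; v1, s] : M2).det = 1 := by
      rw [det_fin_two_of]; linear_combination hst
    refine ⟨_, ((!![v0, -t; v1, s] : M2).adjugate * N0 * !![v0, -t; v1, s]) 0 1, hα, ?_⟩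
    have key : (!![0, ((!![v0, -t; v1, s] : M2).adjugate * N0 * !![v0, -t; v1, s]) 0 1; 0, 0] : M2)
        = (!![v0, -t; v1, s] : M2).adjugate * N0 * !![v0, -t; v1, s] := by
      ext i j
      fin_cases i <;> fin_cases j <;>
        simp [adjugate_fin_two_of, mul_apply, Matrix.vecMul, dotProduct, Fin.sum_univ_two]
      · linear_combination -(s * e0) - t * e1
      · linear_combination v1 * e0 - v0 * e1
      · linear_combination -(t * v1 + s * v0) * ht + (s * e0 + t * e1)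
    rw [key, mul_assoc, mul_assoc _ _ (adjugate _), mul_adjugate, hα, one_smul, mul_one,
      ← mul_assoc, mul_adjugate, hα, one_smul, one_mul]
  by_cases hc : N0 1 0 = 0
  · have ha : N0 0 0 = 0 := by
      rw [hc, h11, mul_zero, sub_zero, mul_neg, neg_eq_zero, mul_self_eq_zero] at hd
      exact hd
    exact ⟨1, 0, isCoprime_one_left, by simp [ha], by simp [hc]⟩
  · obtain ⟨a', c', hco, ha', hc'⟩ := Int.exists_gcd_one
      (m := N0 0 0) (n := N0 1 0) (Int.gcd_pos_of_ne_zero_right _ hc)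
    have hg : (Int.gcd (N0 0 0) (N0 1 0) : ℤ) ≠ 0 :=
      Int.natCast_ne_zero.2 (Int.gcd_pos_of_ne_zero_right _ hc).ne'
    refine ⟨a', c', Int.isCoprime_iff_gcd_eq_one.mpr hco, mul_right_cancel₀ hg ?_,
      mul_right_cancel₀ hg ?_⟩
    · rw [zero_mul]; linear_combination -hd - N0 0 0 * ha' - N0 0 1 * hc' + N0 0 0 * h11
    · rw [zero_mul, h11]; linear_combination -(N0 1 0 * ha') + N0 0 0 * hc'

variable {N q : ℕ} [hq : Fact q.Prime] {A : Type*} [AddCommGroup A] (hqN : ¬ q ∣ N)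
  {f₀ f₁ : Additive (Gamma0 N) →+ A} (E : Bool → M2 → A)
  (hE : ∀ s : Bool,
      (∀ α y β : M2, α.det = 1 → Adm0 N α → y.det = q → Adm0 N y → β.det = 1 → Adm0 N β →
        E s (α * y * β) = val (cond s f₁ f₀) α + E s y + val (cond s f₀ f₁) β) ∧
      (∀ y : M2, y.det = q → Adm0 N y → E s y + E (!s) y.adjugate = 0))

include hqN hE

omit hqN hE in
theorem potential_pow_smul (i k : ℕ) (m : M2) :
    potential N q f₀ E (2 * i + k) (((q : ℤ) ^ i) • m) = potential N q f₀ E k m := by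
  induction i with
  | zero => simp
  | succ i ih =>
    rw [show 2 * (i + 1) + k = 2 * i + k + 2 by ring, pow_succ', mul_smul, potential_q_smul E, ih]

/-- The potential kills scaled parabolic elements. -/
theorem potential_eq_zero_of_trace (hpar : ∀ γ : M2, γ.det = 1 → Adm0 N γ → γ 0 0 + γ 1 1 = 2 →
      val f₀ γ = 0) {n : ℕ} {m : M2} (hd : m.det = (q : ℤ) ^ (2 * n)) (ha : Adm0 N m)
    (ht : m 0 0 + m 1 1 = 2 * (q : ℤ) ^ n) : potential N q f₀ E (2 * n) m = 0 := by
  obtain ⟨Q, hQ⟩ : ∃ Q, Q = (q : ℤ) ^ n := ⟨_, rfl⟩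
  obtain ⟨N0, hN0⟩ : ∃ N0, N0 = m - Q • (1 : M2) := ⟨_, rfl⟩
  have hm : m = Q • (1 : M2) + N0 := by rw [hN0]; abel
  have e00 : N0 0 0 = m 0 0 - Q := by
    rw [hN0, Matrix.sub_apply, Matrix.smul_apply, Matrix.one_apply_eq, smul_eq_mul, mul_one]
  have e01 : N0 0 1 = m 0 1 := by
    rw [hN0, Matrix.sub_apply, Matrix.smul_apply, Matrix.one_apply_ne (by decide : (0 : Fin 2) ≠ 1),
      smul_eq_mul, mul_zero, sub_zero]
  have e10 : N0 1 0 = m 1 0 := by
    rw [hN0, Matrix.sub_apply, Matrix.smul_apply, Matrix.one_apply_ne (by decide : (1 : Fin 2) ≠ 0),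
      smul_eq_mul, mul_zero, sub_zero]
  have e11 : N0 1 1 = m 1 1 - Q := by
    rw [hN0, Matrix.sub_apply, Matrix.smul_apply, Matrix.one_apply_eq, smul_eq_mul, mul_one]
  have hN0t : N0 0 0 + N0 1 1 = 0 := by
    rw [e00, e11]; linear_combination ht - 2 * hQ
  have hN0d : N0.det = 0 := by
    rw [det_fin_two] at hd ⊢
    rw [e00, e01, e10, e11]
    linear_combination hd - Q * ht + (Q - (q : ℤ) ^ n) * hQ
  obtain ⟨α, x, hα, hx⟩ := exists_conj_strictUpper hN0t hN0d
  -- the exponent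
  have hq1 : Nat.Coprime q N := hq.out.coprime_iff_not_dvd.mpr hqN
  have hN : N ≠ 0 := fun h => hqN (h ▸ dvd_zero q)
  obtain ⟨j, hj⟩ : ∃ j, j = n * N.totient := ⟨_, rfl⟩
  have hK : ((q : ZMod N)) ^ (2 * j) = 1 := by
    have h1 : ((q : ZMod N)) ^ N.totient = 1 := by
      rw [← Nat.cast_pow, ← Nat.cast_one]
      exact (ZMod.natCast_eq_natCast_iff _ _ _).mpr (Nat.ModEq.pow_totient hq1)
    rw [hj, show 2 * (n * N.totient) = N.totient * (2 * n) by ring, pow_mul, h1, one_pow]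
  obtain ⟨K, hKdef⟩ : ∃ K, K = (q : ℤ) ^ (2 * j) := ⟨_, rfl⟩
  have hKN : (K : ZMod N) = 1 := by rw [hKdef]; push_cast; exact hK
  set h₁ : M2 := α * !![K, 0; 0, 1] * α.adjugate with hh₁
  set h₂ : M2 := α * !![1, 0; 0, K] * α.adjugate with hh₂
  have hαz : ((α 0 0 : ZMod N) * α 1 1 - α 0 1 * α 1 0) = 1 := by
    have := congrArg (Int.cast : ℤ → ZMod N) hα
    rw [det_fin_two] at this; push_cast at this; exact this
  have hh₁d : h₁.det = (q : ℤ) ^ (2 * j) := by
    rw [hh₁, det_mul, det_mul, det_adjugate, hα, det_fin_two_of, hKdef]; simp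
  have hh₂d : h₂.det = (q : ℤ) ^ (2 * j) := by
    rw [hh₂, det_mul, det_mul, det_adjugate, hα, det_fin_two_of, hKdef]; simp
  have hqu : ∀ i : ℕ, IsUnit (((q : ℤ) ^ i : ℤ) : ZMod N) := fun i => by
    push_cast; exact (isUnit_q hqN).pow i
  have hh₁a : Adm0 N h₁ := adm0_of_det (hh₁d ▸ hqu _) (by
    rw [hh₁]; simp [adjugate_fin_two, mul_apply, Fin.sum_univ_two, hKN]; ring)
  have hh₂a : Adm0 N h₂ := adm0_of_det (hh₂d ▸ hqu _) (by
    rw [hh₂]; simp [adjugate_fin_two, mul_apply, Fin.sum_univ_two, hKN]; ring)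
  -- conjugation
  have hconj : h₁ * (m * h₂) = ((q : ℤ) ^ (2 * j)) • (Q • (1 : M2) + K • N0) := by
    have hαα : α.adjugate * α = 1 := adjugate_mul_one hα
    have e1 : h₁ * h₂ = K • (1 : M2) := by
      rw [hh₁, hh₂]
      calc α * !![K, 0; 0, 1] * α.adjugate * (α * !![1, 0; 0, K] * α.adjugate)
          = α * (!![K, 0; 0, 1] * (α.adjugate * α) * !![1, 0; 0, K]) * α.adjugate := by
            simp only [mul_assoc]
        _ = α * (K • (1 : M2)) * α.adjugate := by
            rw [hαα, mul_one]; congr 2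
            ext i k; fin_cases i <;> fin_cases k <;> simp [mul_apply, Fin.sum_univ_two]
        _ = _ := by rw [Matrix.mul_smul, Matrix.smul_mul, mul_one, mul_adjugate, hα, one_smul]
    have e2 : h₁ * (N0 * h₂) = (K * K) • N0 := by
      rw [hh₁, hh₂, hx]
      calc _ = α * (!![K, 0; 0, 1] * (α.adjugate * α) * !![0, x; 0, 0] * (α.adjugate * α) *
              !![1, 0; 0, K]) * α.adjugate := by simp only [mul_assoc]
        _ = α * ((K * K) • !![0, x; 0, 0]) * α.adjugate := by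
            rw [hαα, mul_one, mul_one]; congr 2
            ext i k; fin_cases i <;> fin_cases k <;> simp [mul_apply, Fin.sum_univ_two]
            ring
        _ = _ := by rw [Matrix.mul_smul, Matrix.smul_mul]
    rw [hm, add_mul, mul_add, Matrix.smul_mul, one_mul, Matrix.mul_smul, e1, e2, ← hKdef,
      smul_add, smul_smul, smul_smul, smul_smul, mul_comm Q K]
  have hsum : potential N q f₀ E (2 * j) h₁ + potential N q f₀ E (2 * j) h₂ = 0 := by
    rw [← potential_mul hqN E hE j hh₁d hh₁a (2 * j) h₂ hh₂d hh₂a]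
    have : h₁ * h₂ = ((q : ℤ) ^ (2 * j)) • (1 : M2) := by
      rw [hh₁, hh₂, ← hKdef]
      calc α * !![K, 0; 0, 1] * α.adjugate * (α * !![1, 0; 0, K] * α.adjugate)
          = α * (!![K, 0; 0, 1] * (α.adjugate * α) * !![1, 0; 0, K]) * α.adjugate := by
            simp only [mul_assoc]
        _ = α * (K • (1 : M2)) * α.adjugate := by
            rw [adjugate_mul_one hα, mul_one]; congr 2
            ext i k; fin_cases i <;> fin_cases k <;> simp [mul_apply, Fin.sum_univ_two]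
        _ = _ := by rw [Matrix.mul_smul, Matrix.smul_mul, mul_one, mul_adjugate, hα, one_smul]
    rw [this, show 2 * j + 2 * j = 2 * (2 * j) + 0 by ring, potential_pow_smul E,
      potential, val_one]
  have hmh₂a : Adm0 N (m * h₂) := ha.mul hh₂a
  have h3 := potential_mul hqN E hE j hh₁d hh₁a (2 * n + 2 * j) (m * h₂)
    (by rw [det_mul, hd, hh₂d, pow_add]) hmh₂a
  rw [potential_mul hqN E hE n hd ha (2 * j) h₂ hh₂d hh₂a, hconj,
    show 2 * j + (2 * n + 2 * j) = 2 * (2 * j) + 2 * n by ring, potential_pow_smul E] at h3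
  -- `Q + K N₀` is `Q` times an integral parabolic element
  obtain ⟨T, hT⟩ : ∃ T, K = Q * T := by
    refine ⟨(q : ℤ) ^ (2 * j - n), ?_⟩
    rw [hQ, hKdef, ← pow_add]; congr 1
    have : n ≤ n * N.totient :=
      Nat.le_mul_of_pos_right _ (Nat.totient_pos.mpr (Nat.pos_of_ne_zero hN))
    omega
  set γ : M2 := 1 + T • N0 with hγ
  have hγeq : Q • (1 : M2) + K • N0 = ((q : ℤ) ^ n) • γ := by
    rw [hγ, ← hQ, smul_add, smul_smul, hT]
  have hγd : γ.det = 1 := by
    rw [det_fin_two] at hN0d ⊢; rw [hγ]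
    simp only [Matrix.add_apply, Matrix.smul_apply, smul_eq_mul, Matrix.one_apply_eq,
      Matrix.one_apply_ne (by decide : (0 : Fin 2) ≠ 1),
      Matrix.one_apply_ne (by decide : (1 : Fin 2) ≠ 0)]
    linear_combination T * hN0t + T ^ 2 * hN0d
  have hγc : (γ 1 0 : ZMod N) = 0 := by
    have : (N0 1 0 : ZMod N) = 0 := by rw [e10]; exact ha.1
    rw [hγ]; rw [Matrix.add_apply, Matrix.smul_apply, smul_eq_mul]; simp [this]
  rw [hγeq, show potential N q f₀ E (2 * n) ((q : ℤ) ^ n • γ) = val f₀ γ by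
    rw [show 2 * n = 2 * n + 0 by ring, potential_pow_smul E, potential],
    hpar γ hγd (adm0_of_det_one hγd hγc) (by
      rw [hγ]; simp only [Matrix.add_apply, Matrix.smul_apply, smul_eq_mul, Matrix.one_apply_eq]
      linear_combination T * hN0t)] at h3
  calc potential N q f₀ E (2 * n) m
      = (potential N q f₀ E (2 * j) h₁ + (potential N q f₀ E (2 * n) m +
          potential N q f₀ E (2 * j) h₂)) -
          (potential N q f₀ E (2 * j) h₁ + potential N q f₀ E (2 * j) h₂) := by abel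
    _ = 0 := by rw [← h3, hsum, sub_zero]

omit E hE in
/-- **Gluing.** -/
theorem exists_extension (h : Compat N q f₀ f₁)
    (hpar : ∀ γ : Gamma0 N, (γ : SL(2, ℤ)) 0 0 + (γ : SL(2, ℤ)) 1 1 = 2 →
      f₀ (Additive.ofMul γ) = 0) :
    ∃ Φ : SL(2, ℚ) → A,
      (∀ g g', MemInv N q g → MemInv N q g' → Φ (g * g') = Φ g + Φ g') ∧
      (∀ γ : Gamma0 N,
        Φ (Matrix.SpecialLinearGroup.map (Int.castRingHom ℚ) (γ : SL(2, ℤ))) =
          f₀ (Additive.ofMul γ)) ∧
      ∀ g, MemInv N q g → g 0 0 + g 1 1 = 2 → Φ g = 0 := by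
  classical
  obtain ⟨E, hE⟩ := exists_edges hqN h
  have hq0 : (q : ℚ) ≠ 0 := Nat.cast_ne_zero.2 hq.out.ne_zero
  have hcast : Function.Injective (fun m : M2 => m.map (Int.cast : ℤ → ℚ)) :=
    Matrix.map_injective Int.cast_injective
  have hdet : ∀ (g : SL(2, ℚ)) (n : ℕ) (m : M2),
      (q : ℚ) ^ n • (g : Matrix (Fin 2) (Fin 2) ℚ) = m.map (Int.cast : ℤ → ℚ) →
      m.det = (q : ℤ) ^ (2 * n) := fun g n m hm => by
    have h1 := congrArg Matrix.det hm
    rw [Matrix.det_smul, g.2, ← Int.cast_det, Fintype.card_fin, mul_one, ← pow_mul, mul_comm] at h1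
    exact_mod_cast h1.symm
  have hadm : ∀ (g : SL(2, ℚ)) (n : ℕ) (m : M2),
      (q : ℚ) ^ n • (g : Matrix (Fin 2) (Fin 2) ℚ) = m.map (Int.cast : ℤ → ℚ) →
      (m 1 0 : ZMod N) = 0 → Adm0 N m := fun g n m hm hc => by
    refine adm0_of_det ?_ hc
    rw [hdet g n m hm]; push_cast; exact (isUnit_q hqN).pow _
  let Φ : SL(2, ℚ) → A := fun g =>
    if hg : MemInv N q g then potential N q f₀ E (2 * hg.choose) hg.choose_spec.choose else 0
  have hΦ : ∀ (g : SL(2, ℚ)) (n : ℕ) (m : M2),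
      (q : ℚ) ^ n • (g : Matrix (Fin 2) (Fin 2) ℚ) = m.map (Int.cast : ℤ → ℚ) →
      (m 1 0 : ZMod N) = 0 → Φ g = potential N q f₀ E (2 * n) m := by
    intro g n m hm hc
    have hg : MemInv N q g := ⟨n, m, hm, hc⟩
    simp only [Φ, dif_pos hg]
    obtain ⟨hm', -⟩ := hg.choose_spec.choose_spec
    set n' := hg.choose
    set m' := hg.choose_spec.choose
    have heq : ((q : ℤ) ^ n) • m' = ((q : ℤ) ^ n') • m := by
      apply hcast
      show ((q : ℤ) ^ n • m').map _ = ((q : ℤ) ^ n' • m).map _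
      ext i k
      have e1 := congrFun (congrFun hm' i) k
      have e2 := congrFun (congrFun hm i) k
      simp only [Matrix.smul_apply, Matrix.map_apply, smul_eq_mul, Int.cast_mul, Int.cast_pow,
        Int.cast_natCast] at e1 e2 ⊢
      rw [← e1, ← e2]; ring
    rw [← potential_pow_smul E n (2 * n') m', ← potential_pow_smul E n' (2 * n) m, heq,
      show 2 * n + 2 * n' = 2 * n' + 2 * n by ring]
  refine ⟨Φ, ?_, fun γ => ?_, ?_⟩
  · rintro g g' ⟨n, m, hm, hc⟩ ⟨n', m', hm', hc'⟩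
    have ha := hadm g n m hm hc
    have ha' := hadm g' n' m' hm' hc'
    have hprod : (q : ℚ) ^ (n + n') • ((g * g' : SL(2, ℚ)) : Matrix (Fin 2) (Fin 2) ℚ) =
        (m * m').map (Int.cast : ℤ → ℚ) := by
      rw [Matrix.SpecialLinearGroup.coe_mul,
        show (m * m').map (Int.cast : ℤ → ℚ) =
            m.map (Int.cast : ℤ → ℚ) * m'.map (Int.cast : ℤ → ℚ) from
          Matrix.map_mul (f := Int.castRingHom ℚ),
        ← hm, ← hm', Matrix.smul_mul, Matrix.mul_smul, smul_smul, pow_add]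
    rw [hΦ _ _ _ hprod (ha.mul ha').1, hΦ g n m hm hc, hΦ g' n' m' hm' hc', mul_add,
      potential_mul hqN E hE n (hdet g n m hm) ha _ m' (hdet g' n' m' hm') ha']
  · rw [hΦ _ 0 (γ : SL(2, ℤ)).1 (by ext i k; simp) (Gamma0_mem.mp γ.2), potential, val_coe]
  · rintro g ⟨n, m, hm, hc⟩ ht
    rw [hΦ g n m hm hc]
    refine potential_eq_zero_of_trace hqN E hE ?_ (hdet g n m hm) (hadm g n m hm hc) ?_
    · intro γ hγ hγ' htr
      have := hpar (toG γ hγ hγ') htr
      rw [← val_coe] at this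
      exact this
    · have e0 := congrFun (congrFun hm 0) 0
      have e1 := congrFun (congrFun hm 1) 1
      simp only [Matrix.smul_apply, Matrix.map_apply, smul_eq_mul] at e0 e1
      have : ((m 0 0 + m 1 1 : ℤ) : ℚ) = ((2 * (q : ℤ) ^ n : ℤ) : ℚ) := by
        push_cast; rw [← e0, ← e1, ← mul_add, ht]; ring
      exact_mod_cast this

end Fermat.Agent.IharaH1
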