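import Fermat.Agent.IharaH1.Cor

/-!
# The identities between degeneracy maps, corestriction, `U_q` and `T_q`

For one step, between the levels `M` and `M q`: the composites of corestriction with the two
degeneracy maps and with the Atkin-Lehner map, and `U_q` on degeneracy maps and under
corestriction. The composites `j ∘ i` and `j ∘ U_q` of `Fermat.Agent.IharaH1.LevelSq` follow.
-/

set_option autoImplicit false

noncomputable section

open Matrix CongruenceSubgroup
open scoped MatrixGroups OnePoint

namespace Fermat.Agent.IharaH1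

open Fermat.Agent.GroupH1 (GammaH HIdx repInt heckeSystem bezA bezB)

variable {B : Type*} [AddCommGroup B] {M M' q : ℕ} [hq : Fact q.Prime]

/-- An admissible matrix of determinant `q` lies in the class of some representative. -/
theorem exists_class_hecke {m : M2} (hd : m.det = q) (hm : Adm0 M m) :
    ∃ (x : HIdx M q) (k : GammaH M ⊤), m = (k : SL(2, ℤ)).1 * repInt M q x.1 := by
  obtain ⟨x, n, hn, hn'⟩ := GroupH1.exists_eq_mul_repInt hm ⟨1, by rw [hd, mul_one]⟩
  refine ⟨x, GroupH1.ofAdm n ?_ hn', hn⟩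
  rw [hn, det_mul, GroupH1.det_repInt (hℓ := hq)] at hd
  exact mul_right_cancel₀ (Int.natCast_ne_zero.2 hq.out.ne_zero) (by rw [hd, one_mul])

omit hq in
/-- `omega 1` is the identity. -/
theorem omega_one : omega 1 = 1 := by
  ext i j; fin_cases i <;> fin_cases j <;> simp [omega]

theorem omega_mul_omega (a b : ℕ) : omega a * omega b = omega (a * b) := by
  ext i j; fin_cases i <;> fin_cases j <;> simp [omega, mul_apply, Fin.sum_univ_two]

/-- A unipotent element of `Γ₀(M)`. -/
def uElt (M : ℕ) (t : ℤ) : GammaH M ⊤ :=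
  GroupH1.ofAdm !![1, t; 0, 1] (by simp [det_fin_two_of])
    (adm0_of_det_one (by simp [det_fin_two_of]) (by simp))

/-- Degeneracy maps compose multiplicatively. -/
theorem degMap_degMap {L a b : ℕ} (ha : a ≠ 0) (hb : b ≠ 0) (h₁ : L * a ∣ M) (h₂ : M * b ∣ M')
    (φ : H1 L B) :
    degMap hb h₂ (degMap ha h₁ φ) = degMap (M' := M') (mul_ne_zero ha hb)
      (dvd_trans (by rw [← mul_assoc]; exact mul_dvd_mul_right h₁ b) h₂) φ := by
  refine Sends.unique (fun x => ?_) ((sends_degMap ha h₁ φ).comp (sends_degMap hb h₂ _))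
    ((sends_degMap _ _ φ).congr (Equiv.prodUnique Unit Unit) (fun _ => 1) fun _ => ?_)
  · rw [det_mul, det_omega, det_omega]
    exact mul_ne_zero (Int.natCast_ne_zero.2 ha) (Int.natCast_ne_zero.2 hb)
  · rw [coe_one2, one_mul, omega_mul_omega]

/-- `U_q` on the lowest degeneracy map. -/
theorem transfer_degMap_one_add (hqM : ¬ q ∣ M) (h₁ : M * 1 ∣ M') (hdvd : M * q ∣ M') (φ : H1 M B) :
    (heckeSystem M' ⊤ q).transfer (degMap one_ne_zero h₁ φ) + degMap hq.out.ne_zero hdvd φ =
      degMap one_ne_zero h₁ ((heckeSystem M ⊤ q).transfer φ) := by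
  have hqM' : q ∣ M' := dvd_trans (dvd_mul_left q M) hdvd
  have hL := ((sends_degMap one_ne_zero h₁ φ).comp (sends_transfer (ℓ := q) _)).sum
    (sends_degMap hq.out.ne_zero hdvd φ)
  have hR := (sends_transfer (ℓ := q) φ).comp (sends_degMap (M' := M') one_ne_zero h₁ _)
  have hd : ∀ x : (Unit × HIdx M' q) ⊕ Unit, ((Sum.elim (fun z => omega 1 * repInt M' q z.2.1)
      (fun _ => omega q) : _ → M2) x).det = (q : ℤ) := by
    rintro (z | z)
    · rw [Sum.elim_inl, det_mul, det_omega, GroupH1.det_repInt, Nat.cast_one, one_mul]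
    · rw [Sum.elim_inr, det_omega]
  refine hL.unique (fun x => by rw [hd x]; exact Int.natCast_ne_zero.2 hq.out.ne_zero) ?_
  obtain ⟨e, k, hk⟩ := exists_classes (M₁ := M)
    (R := fun z : HIdx M q × Unit => repInt M q z.1.1 * omega 1)
    (R' := (Sum.elim (fun z : Unit × HIdx M' q => omega 1 * repInt M' q z.2.1)
      (fun _ : Unit => omega q)))
    (fun x => by
      obtain ⟨y, k, hk⟩ := exists_class_hecke (hd x) (adm0_of_det_eq hqM (hd x) (by
        rcases x with ⟨u, ⟨z, hz⟩⟩ | z
        · cases z using OnePoint.rec with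
          | infty => exact absurd hqM' (hz rfl)
          | coe j => simp [omega_one, GroupH1.repInt_coe]
        · simp [omega]))
      exact ⟨(y, ()), k, hk.trans (by rw [omega_one, mul_one])⟩)
    (fun u x y h => by
      rcases x with ⟨u₁, ⟨x, hx⟩⟩ | x <;> rcases y with ⟨u₂, ⟨y, hy⟩⟩ | y
      · simp only [Sum.elim_inl, omega_one, one_mul] at h
        have := GroupH1.eq_of_mul_repInt_eq (M := M') (u : SL(2, ℤ)).2
          (x := ⟨x, hx⟩) (y := ⟨y, hy⟩) h
        rw [this]
      · exfalso
        cases x using OnePoint.rec with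
        | infty => exact absurd hqM' (hx rfl)
        | coe i =>
          have h0 := congrArg (fun m : M2 => ((m 0 0 : ℤ) : ZMod q)) h
          have h1 := congrArg (fun m : M2 => ((m 1 0 : ℤ) : ZMod q)) h
          have hd1 := congrArg (Int.cast : ℤ → ZMod q) (u : SL(2, ℤ)).2
          rw [det_fin_two] at hd1
          push_cast at hd1
          simp [omega, GroupH1.repInt_coe, mul_apply, Fin.sum_univ_two] at h0 h1
          simp [h0, h1] at hd1
      · exfalso
        cases y using OnePoint.rec with
        | infty => exact absurd hqM' (hy rfl)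
        | coe i =>
          have h0 := congrArg (fun m : M2 => ((m 0 0 : ℤ) : ZMod q)) h
          simp [omega, GroupH1.repInt_coe, mul_apply, Fin.sum_univ_two] at h0
      · rfl)
    (by simp [card_HIdx_of_dvd hqM', card_HIdx_of_not_dvd hqM])
  exact hR.congr e k hk

/-- `U_q` on a degeneracy map divisible by `q`. -/
theorem transfer_degMap_mul {d : ℕ} (hd : d ≠ 0) (hdvd : M * (q * d) ∣ M') (φ : H1 M B) :
    (heckeSystem M' ⊤ q).transfer (degMap (mul_ne_zero hq.out.ne_zero hd) hdvd φ) =
      q • degMap hd (dvd_trans (mul_dvd_mul_left M (dvd_mul_left d q)) hdvd) φ := by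
  have hqM' : q ∣ M' := dvd_trans (dvd_trans (dvd_mul_right q d) (dvd_mul_left _ M)) hdvd
  have hR := (sends_const φ (q : ℤ) (fun x : HIdx M' q =>
    uElt M (d * x.1.elim 0 fun j => (j.val : ℤ)))).comp
    (sends_degMap (M' := M') hd (dvd_trans (mul_dvd_mul_left M (dvd_mul_left d q)) hdvd) _)
  rw [card_HIdx_of_dvd hqM', map_nsmul] at hR
  refine Sends.unique (fun x => ?_) ((sends_degMap _ hdvd φ).comp (sends_transfer (ℓ := q) _))
    (hR.congr (Equiv.prodComm _ _) (fun _ => 1) fun x => ?_)
  · rw [det_mul, det_omega, GroupH1.det_repInt]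
    exact mul_ne_zero (Int.natCast_ne_zero.2 (mul_ne_zero hq.out.ne_zero hd))
      (Int.natCast_ne_zero.2 hq.out.ne_zero)
  · obtain ⟨u, ⟨z, hz⟩⟩ := x
    cases z using OnePoint.rec with
    | infty => exact absurd hqM' (hz rfl)
    | coe j =>
      show omega (q * d) * repInt M' q _ = _ * ((q : ℤ) • (uElt M (d * j.val)).1.1 * omega d)
      rw [coe_one2, one_mul]
      ext i k
      fin_cases i <;> fin_cases k <;>
        simp [uElt, GroupH1.ofAdm, omega, GroupH1.repInt_coe, mul_apply, Fin.sum_univ_two,
          mul_comm, mul_assoc, mul_left_comm]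

/-- Corestriction after restriction is multiplication by the index. -/
theorem corMap_degMap_one (hM : M ≠ 0) (φ : H1 M B) :
    corMap hM (degMap (M' := M * q) one_ne_zero (by simp) φ) =
      Fintype.card (HIdx M q) • φ := by
  refine Sends.unique (fun x => ?_)
    ((sends_degMap one_ne_zero _ φ).comp (sends_corMap hM _))
    ((sends_const φ 1 (fun x : HIdx M q => cosetElt x)).congr (Equiv.uniqueProd _ Unit)
      (fun _ => 1) fun x => ?_)
  · rw [det_mul, det_omega, det_cosetRep, Nat.cast_one, mul_one]; exact one_ne_zero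
  · rw [coe_one2, one_mul, omega_one, one_mul, one_smul]; rfl

/-- `T_q` is corestriction after conjugation. -/
theorem corMap_degMap_q (hM : M ≠ 0) (hqM : ¬ q ∣ M) (φ : H1 M B) :
    corMap hM (degMap (M' := M * q) hq.out.ne_zero dvd_rfl φ) =
      (heckeSystem M ⊤ q).transfer φ := by
  have hd : ∀ z : Unit × HIdx M q, (omega q * cosetRep M q z.2.1).det = (q : ℤ) := fun z => by
    rw [det_mul, det_omega, det_cosetRep, mul_one]
  refine Sends.unique (fun z => by rw [hd z]; exact Int.natCast_ne_zero.2 hq.out.ne_zero)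
    ((sends_degMap _ _ φ).comp (sends_corMap hM _)) ?_
  obtain ⟨e, k, hk⟩ := exists_classes (M₁ := M) (R := fun x : HIdx M q => repInt M q x.1)
    (R' := fun z : Unit × HIdx M q => omega q * cosetRep M q z.2.1)
    (fun z => exists_class_hecke (hd z) ((adm0_omega hqM).mul (adm_cosetRep z.2)))
    (fun u z z' h => by
      set v : GammaH M ⊤ := cosetElt z'.2 * (cosetElt z.2)⁻¹
      have hv : (v : SL(2, ℤ)).1 * cosetRep M q z.2.1 = cosetRep M q z'.2.1 := by
        show _ * (cosetElt z.2 : SL(2, ℤ)).1 = (cosetElt z'.2 : SL(2, ℤ)).1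
        rw [← coe_mul2, inv_mul_cancel_right]
      obtain ⟨hdv, -⟩ := upM_of_omega (η := (v : SL(2, ℤ)).1) (η' := (u : SL(2, ℤ)).1)
        (mul_right_cancel_det (R := cosetRep M q z.2.1) (by rw [det_cosetRep]; exact one_ne_zero)
          (by rw [mul_assoc, mul_assoc, hv, h]))
      refine Prod.ext rfl (eq_of_mul_cosetRep (GroupH1.ofAdm _ (v : SL(2, ℤ)).2
        (adm0_of_det_one (v : SL(2, ℤ)).2 ?_)) hM hv)
      rw [ZMod.intCast_zmod_eq_zero_iff_dvd]
      exact dvd_Nq hqM ((ZMod.intCast_zmod_eq_zero_iff_dvd _ _).mp v.2.1) hdv)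
    (by simp)
  exact (sends_transfer φ).congr e k hk

/-- Conjugation after corestriction. -/
theorem degMap_corMap (hM : M ≠ 0) (hqM : ¬ q ∣ M) (ψ : H1 (M * q) B) :
    degMap (M' := M * q) hq.out.ne_zero dvd_rfl (corMap hM ψ) =
      corMap (Nat.mul_ne_zero hM hq.out.ne_zero)
        (degMap (M' := M * q * q) hq.out.ne_zero dvd_rfl ψ) + alMap hqM ψ := by
  have hMq : M * q ≠ 0 := Nat.mul_ne_zero hM hq.out.ne_zero
  have hL := (sends_corMap hM ψ).comp (sends_degMap (M' := M * q) hq.out.ne_zero dvd_rfl _)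
  have hR := ((sends_degMap (M' := M * q * q) hq.out.ne_zero dvd_rfl ψ).comp
    (sends_corMap hMq _)).sum (sends_alMap hqM ψ)
  let f : (Unit × HIdx (M * q) q) ⊕ Unit → HIdx M q × Unit :=
    Sum.elim (fun z => (⟨z.2.1, fun _ => hqM⟩, ())) (fun _ => (⟨∞, fun _ => hqM⟩, ()))
  have hfin : ∀ z : HIdx (M * q) q, z.1 ≠ ∞ := fun z hz => z.2 hz (dvd_mul_left q M)
  have hf : Function.Bijective f := by
    rw [Fintype.bijective_iff_injective_and_card]
    refine ⟨?_, by simp [card_HIdx_of_dvd (dvd_mul_left q M), card_HIdx_of_not_dvd hqM]⟩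
    rintro (⟨u₁, x⟩ | x) (⟨u₂, y⟩ | y) h <;> simp only [f, Sum.elim_inl, Sum.elim_inr,
      Prod.mk.injEq, Subtype.mk.injEq, and_true] at h
    · rw [Subtype.ext h]
    · exact absurd h (hfin x)
    · exact absurd h.symm (hfin y)
    · rfl
  refine Sends.unique (fun x => ?_) (hL.congr (Equiv.ofBijective f hf) (fun _ => 1) fun x => ?_) hR
  · cases x with
    | inl z =>
      rw [Sum.elim_inl, det_mul, det_omega, det_cosetRep, mul_one]
      exact Int.natCast_ne_zero.2 hq.out.ne_zero
    | inr z => rw [Sum.elim_inr, det_alMat hqM]; exact Int.natCast_ne_zero.2 hq.out.ne_zero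
  · rw [coe_one2, one_mul]
    rcases x with ⟨-, ⟨z, hz⟩⟩ | -
    · cases z using OnePoint.rec with
      | infty => exact absurd rfl (hfin ⟨∞, hz⟩)
      | coe j =>
        show omega q * cosetRep (M * q) q (j : OnePoint (ZMod q)) =
          cosetRep M q (j : OnePoint (ZMod q)) * omega q
        ext i k
        fin_cases i <;> fin_cases k <;>
          simp [omega, cosetRep_coe, mul_apply, Fin.sum_univ_two, mul_comm, mul_assoc,
            mul_left_comm]
    · show alMat M q = cosetRep M q ∞ * omega q
      ext i k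
      fin_cases i <;> fin_cases k <;>
        simp [omega, alMat, cosetRep_infty, mul_apply, Fin.sum_univ_two, mul_comm]

/-- The Atkin-Lehner map exchanges the two degeneracy maps. -/
theorem alMap_degMap_q (hqM : ¬ q ∣ M) (φ : H1 M B) :
    alMap hqM (degMap (M' := M * q) hq.out.ne_zero dvd_rfl φ) =
      degMap (M' := M * q) one_ne_zero (by simp) φ := by
  have hb := GroupH1.bez_eq hq.out hqM
  set g : GammaH M ⊤ := GroupH1.ofAdm !![(q : ℤ) * bezA M q, -bezB M q; (M : ℤ), 1]
    (by rw [det_fin_two_of]; linear_combination hb)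
    (adm0_of_det_one (by rw [det_fin_two_of]; linear_combination hb) (by simp))
  have hR := (sends_const φ (q : ℤ) (fun _ : Unit => g)).comp
    (sends_degMap (M' := M * q) one_ne_zero (by simp) _)
  rw [Fintype.card_unit, one_nsmul] at hR
  refine Sends.unique (fun x => ?_) ((sends_degMap _ _ φ).comp (sends_alMap hqM _))
    (hR.congr (Equiv.refl _) (fun _ => 1) fun x => ?_)
  · rw [det_mul, det_omega, det_alMat hqM]
    exact mul_ne_zero (Int.natCast_ne_zero.2 hq.out.ne_zero) (Int.natCast_ne_zero.2 hq.out.ne_zero)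
  · rw [coe_one2, one_mul, omega_one, mul_one]
    ext i k
    fin_cases i <;> fin_cases k <;>
      simp [g, GroupH1.ofAdm, omega, alMat, mul_apply, Fin.sum_univ_two, Matrix.smul_apply,
        mul_comm]

/-- The Atkin-Lehner map exchanges the two degeneracy maps. -/
theorem alMap_degMap_one (hqM : ¬ q ∣ M) (φ : H1 M B) :
    alMap hqM (degMap (M' := M * q) one_ne_zero (by simp) φ) =
      degMap (M' := M * q) hq.out.ne_zero dvd_rfl φ := by
  have hR := (sends_const φ 1 (fun _ : Unit => cosetElt (⟨∞, fun _ => hqM⟩ : HIdx M q))).comp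
    (sends_degMap (M' := M * q) hq.out.ne_zero dvd_rfl _)
  rw [Fintype.card_unit, one_nsmul] at hR
  refine Sends.unique (fun x => ?_) ((sends_degMap _ _ φ).comp (sends_alMap hqM _))
    (hR.congr (Equiv.refl _) (fun _ => 1) fun x => ?_)
  · rw [det_mul, det_omega, det_alMat hqM, Nat.cast_one, one_mul]
    exact Int.natCast_ne_zero.2 hq.out.ne_zero
  · rw [coe_one2, one_mul, omega_one, one_mul]
    ext i k
    fin_cases i <;> fin_cases k <;>
      simp [cosetElt, GroupH1.ofAdm, omega, alMat, cosetRep_infty, mul_apply, Fin.sum_univ_two,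
        mul_comm]

theorem alMap_alMap (hqM : ¬ q ∣ M) (ψ : H1 (M * q) B) : alMap hqM (alMap hqM ψ) = ψ := by
  have hb := GroupH1.bez_eq hq.out hqM
  set a := bezA M q with ha
  set b := bezB M q with hb'
  set g0 : M2 := !![(q : ℤ) * a * a - b * M, -b * (a + 1);
    (M : ℤ) * q * (a + 1), -b * M + q] with hg0
  have hg0d : g0.det = 1 := by
    rw [hg0, det_fin_two_of]
    linear_combination (a * q + b * M + 1) * hb
  set g : GammaH (M * q) ⊤ := GroupH1.ofAdm g0 hg0d (adm0_of_det_one hg0d (by
    rw [ZMod.intCast_zmod_eq_zero_iff_dvd]; exact ⟨a + 1, by simp [hg0]⟩))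
  have hR := sends_const ψ (q : ℤ) (fun _ : Unit => g)
  rw [Fintype.card_unit, one_nsmul] at hR
  refine Sends.unique (fun x => ?_) ((sends_alMap hqM ψ).comp (sends_alMap hqM _))
    (hR.congr (Equiv.prodUnique Unit Unit) (fun _ => 1) fun x => ?_)
  · rw [det_mul, det_alMat hqM]
    exact mul_ne_zero (Int.natCast_ne_zero.2 hq.out.ne_zero) (Int.natCast_ne_zero.2 hq.out.ne_zero)
  · rw [coe_one2, one_mul]
    ext i k
    fin_cases i <;> fin_cases k <;>
      simp [g, hg0, GroupH1.ofAdm, alMat, mul_apply, Fin.sum_univ_two, Matrix.smul_apply, ← ha,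
        ← hb'] <;> ring

/-- `U_q + W` is restriction of corestriction after `W`. -/
theorem degMap_one_corMap_alMap (hM : M ≠ 0) (hqM : ¬ q ∣ M) (ψ : H1 (M * q) B) :
    degMap (M' := M * q) one_ne_zero (by simp) (corMap hM (alMap hqM ψ)) =
      (heckeSystem (M * q) ⊤ q).transfer ψ + alMap hqM ψ := by
  have hL := ((sends_alMap hqM ψ).comp (sends_corMap hM _)).comp
    (sends_degMap (M' := M * q) one_ne_zero (by simp) _)
  have hR := (sends_transfer (ℓ := q) ψ).sum (sends_alMap hqM ψ)
  have hq0 : (q : ℤ) ≠ 0 := Int.natCast_ne_zero.2 hq.out.ne_zero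
  have hLd : ∀ z : (Unit × HIdx M q) × Unit,
      (alMat M q * cosetRep M q z.1.2.1 * omega 1).det = (q : ℤ) := fun z => by
    rw [det_mul, det_mul, det_alMat hqM, det_cosetRep, det_omega, Nat.cast_one, mul_one, mul_one]
  refine hL.unique (fun z => by rw [hLd z]; exact hq0) ?_
  obtain ⟨e, k, hk⟩ := exists_classes (M₁ := M * q)
    (R := Sum.elim (fun x : HIdx (M * q) q => repInt (M * q) q x.1) (fun _ : Unit => alMat M q))
    (R' := fun z : (Unit × HIdx M q) × Unit => alMat M q * cosetRep M q z.1.2.1 * omega 1)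
    (fun z => by
      obtain ⟨⟨u₁, ⟨z, hz⟩⟩, u₂⟩ := z
      by_cases h0 : z = ((0 : ZMod q) : OnePoint (ZMod q))
      · refine ⟨Sum.inr (), 1, ?_⟩
        subst h0
        rw [Sum.elim_inr, coe_one2, one_mul, omega_one, mul_one]
        ext i k
        fin_cases i <;> fin_cases k <;> simp [alMat, cosetRep_coe, mul_apply, Fin.sum_univ_two]
      · suffices hadm : Adm0 (M * q) (alMat M q * cosetRep M q z * omega 1) by
          obtain ⟨x, k, hk⟩ := exists_class_hecke (M := M * q)
            (hLd ((((), ⟨z, hz⟩) : Unit × HIdx M q), ())) hadm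
          exact ⟨Sum.inl x, k, hk⟩
        -- admissibility at level `M q`
        have hb := GroupH1.bez_eq hq.out hqM
        have hbq : (bezB M q : ZMod q) * (M : ZMod q) = 1 := by
          have := congrArg (Int.cast : ℤ → ZMod q) hb
          push_cast at this
          rwa [ZMod.natCast_self, mul_zero, zero_add] at this
        rw [omega_one, mul_one]
        refine adm0_iff.mpr ⟨?_, ?_⟩
        · rw [ZMod.intCast_zmod_eq_zero_iff_dvd]
          cases z using OnePoint.rec with
          | infty =>
            exact ⟨bezA M q + 1, by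
              simp [alMat, cosetRep_infty, mul_apply, Fin.sum_univ_two]; ring⟩
          | coe j =>
            exact ⟨(1 + (j.val : ℤ)), by
              simp [alMat, cosetRep_coe, mul_apply, Fin.sum_univ_two, -ZMod.natCast_val]; ring⟩
        · have hco : ∀ x : ℤ, IsUnit (x : ZMod M) → (x : ZMod q) ≠ 0 →
              IsUnit (x : ZMod (M * q)) := by
            intro x hxM hxq
            have hco : Nat.Coprime M q := (hq.out.coprime_iff_not_dvd.mpr hqM).symm
            refine (isUnit_map_iff (ZMod.chineseRemainder hco) (x : ZMod (M * q))).mp ?_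
            rw [Prod.isUnit_iff]
            have hq' : IsUnit (x : ZMod q) := Ne.isUnit hxq
            constructor
            · simpa using hxM
            · simpa using hq'
          cases z using OnePoint.rec with
          | infty =>
            refine hco _ ?_ ?_
            · have h2 := congrArg (Int.cast : ℤ → ZMod M) hb
              push_cast at h2
              rw [ZMod.natCast_self, mul_zero, add_zero] at h2
              simp [alMat, cosetRep_infty, mul_apply, Fin.sum_univ_two]
              exact ⟨IsUnit.of_mul_eq_one _ (by rw [mul_comm]; exact h2),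
                IsUnit.of_mul_eq_one _ h2⟩
            · simp [alMat, cosetRep_infty, mul_apply, Fin.sum_univ_two, hbq]
          | coe j =>
            refine hco _ ?_ ?_
            · have h2 := congrArg (Int.cast : ℤ → ZMod M) hb
              push_cast at h2
              rw [ZMod.natCast_self, mul_zero, add_zero] at h2
              simp [alMat, cosetRep_coe, mul_apply, Fin.sum_univ_two]
              exact ⟨IsUnit.of_mul_eq_one _ (by rw [mul_comm]; exact h2),
                IsUnit.of_mul_eq_one _ h2⟩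
            · simp [alMat, cosetRep_coe, mul_apply, Fin.sum_univ_two, -ZMod.natCast_val]
              exact ⟨left_ne_zero_of_mul_eq_one hbq, right_ne_zero_of_mul_eq_one hbq,
                fun hj => h0 (by rw [ZMod.natCast_zmod_val] at hj; rw [hj])⟩)
    (fun u z z' h => by
      obtain ⟨⟨u₁, x⟩, u₂⟩ := z
      obtain ⟨⟨u₃, y⟩, u₄⟩ := z'
      have hx : x = y := by
        simp only [omega_one, mul_one] at h
        set v : GammaH M ⊤ := cosetElt y * (cosetElt x)⁻¹
        have hv : (v : SL(2, ℤ)).1 * cosetRep M q x.1 = cosetRep M q y.1 := by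
          show _ * (cosetElt x : SL(2, ℤ)).1 = (cosetElt y : SL(2, ℤ)).1
          rw [← coe_mul2, inv_mul_cancel_right]
        have h2 : (u : SL(2, ℤ)).1 * alMat M q = alMat M q * (v : SL(2, ℤ)).1 :=
          mul_right_cancel_det (R := cosetRep M q x.1) (by rw [det_cosetRep]; exact one_ne_zero)
            (by rw [mul_assoc, mul_assoc, hv, h])
        have h3 : (alMat M q).adjugate * ((u : SL(2, ℤ)).1 * alMat M q) =
            (q : ℤ) • (v : SL(2, ℤ)).1 := by
          rw [h2, ← mul_assoc, adjugate_mul, det_alMat hqM, Matrix.smul_mul, one_mul]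
        refine eq_of_mul_cosetRep (GroupH1.ofAdm _ (v : SL(2, ℤ)).2
          (adm0_of_det_one (v : SL(2, ℤ)).2 ?_)) hM hv
        obtain ⟨C, hC⟩ := (ZMod.intCast_zmod_eq_zero_iff_dvd _ _).mp u.2.1
        rw [ZMod.intCast_zmod_eq_zero_iff_dvd]
        have h4 := congrFun (congrFun h3 1) 0
        rw [alMat, adjugate_fin_two_of, Matrix.smul_apply, smul_eq_mul] at h4
        simp [mul_apply, Fin.sum_univ_two, hC] at h4
        refine ⟨-(bezA M q) * (u : SL(2, ℤ)) 0 0 + bezA M q * bezA M q * q * C
          - M * (u : SL(2, ℤ)) 0 1 + bezA M q * (u : SL(2, ℤ)) 1 1, mul_left_cancel₀ hq0 ?_⟩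
        push_cast
        linear_combination -h4
      rw [hx])
    (by simp [card_HIdx_of_dvd (dvd_mul_left q M), card_HIdx_of_not_dvd hqM])
  exact hR.congr e k hk

/-- `U_q` on a multiple level factors through the lower level. -/
theorem transfer_eq_degMap_uDown (hqM : q ∣ M) (x : H1 (M * q) B) :
    (heckeSystem (M * q) ⊤ q).transfer x =
      degMap (M' := M * q) one_ne_zero (by simp) (uDown hqM x) := by
  refine Sends.unique (fun z => by
      rw [GroupH1.det_repInt]; exact Int.natCast_ne_zero.2 hq.out.ne_zero)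
    (sends_transfer x)
    (((sends_uDown hqM x).comp (sends_degMap (M' := M * q) one_ne_zero (by simp) _)).congr
      ((Equiv.subtypeEquivRight fun z => ⟨fun h e => absurd (dvd_mul_of_dvd_left hqM q) (h e),
          fun h e => absurd hqM (h e)⟩).trans (Equiv.prodUnique _ Unit).symm)
      (fun _ => 1) fun z => ?_)
  obtain ⟨z, hz⟩ := z
  cases z using OnePoint.rec with
  | infty => exact absurd (dvd_mul_of_dvd_left hqM q) (hz rfl)
  | coe j =>
    rw [coe_one2, one_mul, omega_one, mul_one]
    rfl

/-- `uDown` after restriction is `U_q`. -/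
theorem uDown_degMap (hqM : q ∣ M) (ψ : H1 M B) :
    uDown hqM (degMap (M' := M * q) one_ne_zero (by simp) ψ) =
      (heckeSystem M ⊤ q).transfer ψ := by
  refine Sends.unique (fun z => ?_) ((sends_degMap one_ne_zero _ ψ).comp (sends_uDown hqM _))
    ((sends_transfer ψ).congr (Equiv.uniqueProd _ Unit) (fun _ => 1) fun z => ?_)
  · rw [det_mul, det_omega, GroupH1.det_repInt, Nat.cast_one, one_mul]
    exact Int.natCast_ne_zero.2 hq.out.ne_zero
  · rw [coe_one2, one_mul, omega_one, one_mul]
    rfl

variable (hM : M ≠ 0) (hqM : ¬ q ∣ M)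

include hM hqM

/-- Corestriction after `U_q`. -/
theorem corMap_transfer (ψ : H1 (M * q) B) :
    corMap hM ((heckeSystem (M * q) ⊤ q).transfer ψ) = q • corMap hM (alMap hqM ψ) := by
  have h := congrArg (corMap hM) (degMap_one_corMap_alMap hM hqM ψ)
  rw [corMap_degMap_one, card_HIdx_of_not_dvd hqM, map_add, succ_nsmul] at h
  exact (add_right_cancel h).symm

/-- Corestriction after the Atkin-Lehner map, composed with `U_q`. -/
theorem corMap_alMap_transfer (ψ : H1 (M * q) B) :
    corMap hM (alMap hqM ((heckeSystem (M * q) ⊤ q).transfer ψ)) =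
      (heckeSystem M ⊤ q).transfer (corMap hM (alMap hqM ψ)) - corMap hM ψ := by
  rw [eq_sub_of_add_eq (degMap_one_corMap_alMap hM hqM ψ).symm, map_sub, map_sub,
    alMap_degMap_one, alMap_alMap, corMap_degMap_q hM hqM]

/-- The quadratic relation of `U_q` after corestriction. -/
theorem corMap_transfer_transfer (ψ : H1 (M * q) B) :
    corMap hM ((heckeSystem (M * q) ⊤ q).transfer ((heckeSystem (M * q) ⊤ q).transfer ψ)) =
      (heckeSystem M ⊤ q).transfer (corMap hM ((heckeSystem (M * q) ⊤ q).transfer ψ))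
        - q • corMap hM ψ := by
  rw [corMap_transfer hM hqM, corMap_alMap_transfer hM hqM, corMap_transfer hM hqM, map_nsmul,
    nsmul_sub]

end Fermat.Agent.IharaH1

end
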