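import Fermat.Agent.IharaH1.Kernel
import Fermat.Agent.IharaGroup.Main
import Mathlib.Algebra.Module.ZMod
import Mathlib.LinearAlgebra.Basis.VectorSpace

/-!
# Ihara's lemma for coefficient groups killed by an odd prime

`iharaProp`: a homomorphism on `Γ₀(N)[1/q]` with values in a group killed by an odd prime `p`
which kills every element of trace two vanishes on `Γ₁(N)`.
-/

set_option autoImplicit false

noncomputable section

open Matrix CongruenceSubgroup
open scoped MatrixGroups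

namespace Fermat.Agent.IharaH1

open Fermat.Agent.IharaGroup (qGamma0 IsQInt qInts)

theorem memInv_of_mem_qGamma0 {N q : ℕ} (hN : N ≠ 0) {g : SL(2, ℚ)} (hg : g ∈ qGamma0 N q) :
    MemInv N q g := by
  obtain ⟨hint, nc, mc, hc⟩ := hg
  choose n m hm using hint
  set K := nc + (n 0 0 + n 0 1 + n 1 0 + n 1 1) with hK
  have hle : ∀ i j, n i j ≤ K := by
    intro i j; fin_cases i <;> fin_cases j <;> simp only [Fin.zero_eta, Fin.mk_one] <;> omega
  refine ⟨K, Matrix.of fun i j => (q : ℤ) ^ (K - n i j) * m i j, ?_, ?_⟩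
  · ext i j
    rw [Matrix.smul_apply, Matrix.map_apply, Matrix.of_apply, smul_eq_mul]
    push_cast
    rw [← hm i j, ← mul_assoc, ← pow_add, Nat.sub_add_cancel (hle i j)]
  · rw [Matrix.of_apply, ZMod.intCast_zmod_eq_zero_iff_dvd]
    refine ⟨(q : ℤ) ^ (K - nc) * mc, ?_⟩
    have hN' : (N : ℚ) ≠ 0 := Nat.cast_ne_zero.2 hN
    have h : ((((q : ℤ) ^ (K - n 1 0) * m 1 0 : ℤ)) : ℚ) =
        (((N : ℤ) * ((q : ℤ) ^ (K - nc) * mc) : ℤ) : ℚ) := by
      push_cast
      rw [← hm 1 0, ← hc, ← mul_assoc, ← pow_add, Nat.sub_add_cancel (hle 1 0),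
        ← mul_assoc _ _ (g 1 0 / _), ← pow_add, Nat.sub_add_cancel (by omega : nc ≤ K)]
      field_simp
    exact_mod_cast h

/-- Ihara's lemma for coefficients in a vector space over `ZMod p`. -/
theorem iharaProp_of_module {N q p : ℕ} [hq : Fact q.Prime] [hp : Fact p.Prime] (hp2 : p ≠ 2)
    (hN : N ≠ 0) (hqN : ¬ q ∣ N) (B : Type*) [AddCommGroup B] [Module (ZMod p) B] :
    IharaProp N q B := by
  intro Φ hmul htr γ hγ
  have hmem : ∀ g : qGamma0 N q, MemInv N q g.1 := fun g => memInv_of_mem_qGamma0 hN g.2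
  refine (Module.forall_dual_apply_eq_zero_iff (ZMod p) _).mp fun f => ?_
  let h : Additive (qGamma0 N q) →+ ZMod p :=
    AddMonoidHom.mk' (fun g => f (Φ (Additive.toMul g).1)) fun a b => by
      rw [← map_add]
      exact congrArg f (hmul _ _ (hmem (Additive.toMul a)) (hmem (Additive.toMul b)))
  have hc : (N : ℤ) ∣ γ 1 0 :=
    (ZMod.intCast_zmod_eq_zero_iff_dvd _ _).mp ((Gamma1_mem _ _).mp hγ).2.2
  have ha : (N : ℤ) ∣ γ 0 0 - 1 := (ZMod.intCast_zmod_eq_zero_iff_dvd _ _).mp (by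
    push_cast; rw [((Gamma1_mem _ _).mp hγ).1, sub_self])
  exact IharaGroup.ihara_of_parabolic hp2 (Nat.pos_of_ne_zero hN) hq.out hqN h
    (fun g hg => by
      show f (Φ g.1) = 0
      rw [htr g.1 (hmem g) hg, map_zero]) γ hc ha

/-- **Ihara's lemma** for coefficients killed by `p`. -/
theorem iharaProp {N q p : ℕ} [hq : Fact q.Prime] [hp : Fact p.Prime] (hp2 : p ≠ 2) (hN : N ≠ 0)
    (hqN : ¬ q ∣ N) {B : Type*} [AddCommGroup B] (hB : ∀ b : B, p • b = 0) : IharaProp N q B :=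
  @iharaProp_of_module N q p hq hp hp2 hN hqN B _ (AddCommGroup.zmodModule hB)

end Fermat.Agent.IharaH1

end
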