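import Fermat.Agent.IharaH1.Degen
import Fermat.Agent.IharaH1.Glue
import Fermat.Agent.HeckeCohom.Boundary

/-!
# The kernel of the degeneracy maps in characteristic `p`

For `ℓ ≡ 1 (mod N q)`, `ℓ ≡ 1 (mod p)` put `P = T_ℓ - 2`. Given Ihara's lemma for
`Γ₀(N)[1/q]`, pairs killed by the two degeneracy maps to level `Nq` are killed by `P²` and
triples killed by the three maps to level `Nq²` are killed by `P³`.
-/

set_option autoImplicit false

noncomputable section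

open Matrix CongruenceSubgroup
open scoped MatrixGroups

namespace Fermat.Agent.IharaH1

open Fermat.Agent.GroupH1 (GammaH HIdx heckeSystem)

/-- **The statement of Ihara's lemma.** A homomorphism on `Γ₀(N)[1/q]` killing all elements of trace
two vanishes on `Γ₁(N)`. -/
def IharaProp (N q : ℕ) (B : Type*) [AddCommGroup B] : Prop :=
  ∀ Φ : SL(2, ℚ) → B, (∀ g g', MemInv N q g → MemInv N q g' → Φ (g * g') = Φ g + Φ g') →
    (∀ g, MemInv N q g → g 0 0 + g 1 1 = 2 → Φ g = 0) →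
    ∀ γ : SL(2, ℤ), γ ∈ Gamma1 N →
      Φ (Matrix.SpecialLinearGroup.map (Int.castRingHom ℚ) γ) = 0

variable {B : Type*} [AddCommGroup B] {N q p ℓ : ℕ} [hℓ : Fact ℓ.Prime]

omit hℓ in
theorem zsmul_eq_zero_of_one (hB : ∀ b : B, p • b = 0) (h1 : (ℓ : ZMod p) = 1) (b : B) :
    ((ℓ : ℤ) - 1) • b = 0 := by
  obtain ⟨t, ht⟩ : (p : ℤ) ∣ (ℓ : ℤ) - 1 := by
    rw [← ZMod.intCast_zmod_eq_zero_iff_dvd]; push_cast; rw [h1, sub_self]
  rw [ht, mul_comm, mul_smul, natCast_zsmul, hB, smul_zero]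

/-- `P` kills homomorphisms which vanish on `Γ₁(M)`. -/
theorem hecke2_of_gamma1 {M : ℕ} (hℓM : ¬ ℓ ∣ M) (hB : ∀ b : B, p • b = 0)
    (h1 : (ℓ : ZMod p) = 1) (φ : H1 M B)
    (h : ∀ g : GammaH M ⊤, (g : SL(2, ℤ)) ∈ Gamma1 M → φ (Additive.ofMul g) = 0) :
    hecke2 M ℓ B φ = 0 := by
  rw [hecke2_apply, transfer_of_gamma1 hℓM φ h]
  refine AddMonoidHom.ext fun g => ?_
  show ((1 + ℓ : ℤ) • φ g) - 2 • φ g = 0
  rw [← natCast_zsmul (φ g) 2, ← sub_smul, show ((1 + ℓ : ℤ) - ((2 : ℕ) : ℤ)) = (ℓ : ℤ) - 1 by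
    push_cast; ring]
  exact zsmul_eq_zero_of_one hB h1 _

/-- `P φ` kills elements of trace two. -/
theorem hecke2_trace_two {M : ℕ} (hM1 : (ℓ : ZMod M) = 1) (hB : ∀ b : B, p • b = 0)
    (h1 : (ℓ : ZMod p) = 1) (φ : H1 M B) (γ : GammaH M ⊤)
    (ht : (γ : SL(2, ℤ)) 0 0 + (γ : SL(2, ℤ)) 1 1 = 2) :
    hecke2 M ℓ B φ (Additive.ofMul γ) = 0 := by
  set N0 : M2 := (γ : SL(2, ℤ)).1 - 1 with hN0
  have h00 : N0 0 0 = (γ : SL(2, ℤ)) 0 0 - 1 := by simp [hN0]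
  have h11 : N0 1 1 = (γ : SL(2, ℤ)) 1 1 - 1 := by simp [hN0]
  have hd : N0.det = 0 := by
    have := (γ : SL(2, ℤ)).2
    rw [det_fin_two] at this ⊢
    rw [h00, h11, show N0 0 1 = (γ : SL(2, ℤ)) 0 1 by simp [hN0],
      show N0 1 0 = (γ : SL(2, ℤ)) 1 0 by simp [hN0]]
    linear_combination this - ht
  obtain ⟨α, x, hα, hx⟩ := exists_conj_strictUpper (by rw [h00, h11]; linarith) hd
  obtain ⟨a, ha⟩ : ∃ a : SL(2, ℤ), a.1 = α := ⟨⟨α, hα⟩, rfl⟩
  have hπ : (γ : SL(2, ℤ)) = a * HeckeCohom.unipotentInt x * a⁻¹ := by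
    refine Subtype.ext ?_
    rw [Matrix.SpecialLinearGroup.coe_mul, Matrix.SpecialLinearGroup.coe_mul,
      Matrix.SpecialLinearGroup.coe_inv, ha, HeckeCohom.coe_unipotentInt,
      show (!![1, x; 0, 1] : M2) = 1 + !![0, x; 0, 0] by
        ext i j; fin_cases i <;> fin_cases j <;> simp,
      mul_add, add_mul, mul_one, mul_adjugate_one hα, ← hx, hN0, add_sub_cancel]
  rw [hecke2_apply]
  show (heckeSystem M ⊤ ℓ).transfer φ (Additive.ofMul γ) - 2 • φ (Additive.ofMul γ) = 0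
  rw [HeckeCohom.transfer_apply_conj_T_zpow hM1 φ γ _ x hπ, ← natCast_zsmul _ 2, ← sub_smul,
    show ((1 + ℓ : ℤ) - ((2 : ℕ) : ℤ)) = (ℓ : ℤ) - 1 by push_cast; ring]
  exact zsmul_eq_zero_of_one hB h1 _

theorem upM_one (m : M2) : upM 1 m = m := by
  ext i j; fin_cases i <;> fin_cases j <;> simp [upM]

theorem upM_upM {a b : ℕ} {m : M2} : upM b (upM a m) = upM (a * b) m := by
  ext i j
  fin_cases i <;> fin_cases j <;> simp [upM]
  · ring
  · rw [Int.ediv_ediv_of_nonneg (Int.natCast_nonneg a)]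

theorem upD_one (m : M2) : upD 1 m = m := upM_one m

theorem upD_upD {a b : ℕ} {m : M2} : upD b (upD a m) = upD (a * b) m := upM_upM

variable [hq : Fact q.Prime]

omit hℓ in
/-- An equation between degeneracy maps is a compatibility. -/
theorem compat_of_degMap (hqN : ¬ q ∣ N) {φ₀ φ₁ : H1 N B}
    (h : degMap (M' := N * q) one_ne_zero (by simp) φ₀ =
      degMap (M' := N * q) hq.out.ne_zero dvd_rfl φ₁) :
    Compat N q (toGamma0 φ₀) (toGamma0 φ₁) := by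
  intro η η' hη hηa hη' hη'a heq
  obtain ⟨hdv, rfl⟩ := upM_of_omega heq
  have hadm : Adm0 (N * q) η := adm0_of_det_one hη (by
    rw [ZMod.intCast_zmod_eq_zero_iff_dvd]
    exact dvd_Nq hqN ((ZMod.intCast_zmod_eq_zero_iff_dvd _ _).mp hηa.1) hdv)
  have h1 := DFunLike.congr_fun h (Additive.ofMul (GroupH1.ofAdm η hη hadm))
  rw [degMap_apply, degMap_apply] at h1
  exact (Eq.trans (by rfl) (h1.symm.trans (by rw [upD_one]; rfl)))

/-- A pair in the kernel is killed by `P²`. -/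
theorem hecke2_hecke2_eq_zero_of_pair (hI : IharaProp N q B) (hqN : ¬ q ∣ N)
    (hN1 : (ℓ : ZMod N) = 1) (hℓq : ℓ ≠ q) (hB : ∀ b : B, p • b = 0) (h1 : (ℓ : ZMod p) = 1)
    {φ₀ φ₁ : H1 N B}
    (h : degMap (M' := N * q) one_ne_zero (by simp) φ₀ =
      degMap (M' := N * q) hq.out.ne_zero dvd_rfl φ₁) :
    hecke2 N ℓ B (hecke2 N ℓ B φ₀) = 0 ∧ hecke2 N ℓ B (hecke2 N ℓ B φ₁) = 0 := by
  have hℓN : ¬ ℓ ∣ N := HeckeCohom.not_dvd_of_cast_eq_one hN1
  have hℓNq : ¬ ℓ ∣ N * q := fun hd => by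
    rcases (Nat.Prime.dvd_mul hℓ.out).mp hd with hd | hd
    · exact hℓN hd
    · exact hℓq ((Nat.prime_dvd_prime_iff_eq hℓ.out hq.out).mp hd)
  have hP := congrArg (hecke2 (N * q) ℓ B) h
  rw [hecke2_degMap _ _ hℓNq, hecke2_degMap _ _ hℓNq] at hP
  have hc := compat_of_degMap hqN hP
  have main : ∀ (φ : H1 N B) (f : Additive (Gamma0 N) →+ B),
      Compat N q (toGamma0 (hecke2 N ℓ B φ)) f → hecke2 N ℓ B (hecke2 N ℓ B φ) = 0 := by
    intro φ f hf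
    obtain ⟨Φ, hmul, hres, htr⟩ := exists_extension hqN hf
      fun γ ht => hecke2_trace_two hN1 hB h1 φ _ ht
    refine hecke2_of_gamma1 hℓN hB h1 _ fun g hg => ?_
    have h2 := hres (Subgroup.inclusion GroupH1.GammaH_top.le g)
    exact (h2.symm.trans (hI Φ hmul htr (g : SL(2, ℤ)) hg) :)
  exact ⟨main φ₀ _ hc, main φ₁ _ (hc.symm hqN)⟩

variable [hp : Fact p.Prime]

/-- A triple in the kernel is killed by `P³`. -/
theorem hecke2_cube_eq_zero_of_triple (hI : IharaProp N q B) (hp2 : p ≠ 2) (hpq : p ≠ q)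
    (hqN : ¬ q ∣ N) (hN1 : (ℓ : ZMod N) = 1) (hℓq : ℓ ≠ q) (hB : ∀ b : B, p • b = 0)
    (h1 : (ℓ : ZMod p) = 1) {φ₀ φ₁ φ₂ : H1 N B}
    (h : degMap (M' := N * q * q) one_ne_zero
          (by rw [mul_one, mul_assoc]; exact dvd_mul_right N _) φ₀
      + degMap (M' := N * q * q) hq.out.ne_zero (dvd_mul_right (N * q) q) φ₁
      + degMap (M' := N * q * q) (mul_ne_zero hq.out.ne_zero hq.out.ne_zero)
          (by rw [mul_assoc]) φ₂ = 0) :
    let P := hecke2 N ℓ B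
    P (P (P φ₀)) = 0 ∧ P (P (P φ₁)) = 0 ∧ P (P (P φ₂)) = 0 := by
  intro P
  have hℓN : ¬ ℓ ∣ N := HeckeCohom.not_dvd_of_cast_eq_one hN1
  have hℓNq : ¬ ℓ ∣ N * q := fun hd => by
    rcases (Nat.Prime.dvd_mul hℓ.out).mp hd with hd | hd
    · exact hℓN hd
    · exact hℓq ((Nat.prime_dvd_prime_iff_eq hℓ.out hq.out).mp hd)
  let D₁ : H1 N B →+ H1 (N * q) B := degMap one_ne_zero (by simp)
  let Dq : H1 N B →+ H1 (N * q) B := degMap hq.out.ne_zero dvd_rfl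
  set ξ : H1 (N * q) B := D₁ φ₀ + Dq φ₁
  set ξ' : H1 (N * q) B := -Dq φ₂
  have hc : Compat (N * q) q (toGamma0 ξ) (toGamma0 ξ') := by
    intro η η' hη hηa hη' hη'a heq
    obtain ⟨hdv, rfl⟩ := upM_of_omega heq
    have hadm : Adm0 (N * q * q) η := adm0_of_det_one hη (by
      rw [ZMod.intCast_zmod_eq_zero_iff_dvd]
      have h10 := (ZMod.intCast_zmod_eq_zero_iff_dvd _ _).mp hη'a.1
      simp only [upM, of_apply, cons_val', cons_val_zero, cons_val_one, empty_val'] at h10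
      rw [← Int.ediv_mul_cancel hdv]; push_cast
      exact mul_dvd_mul (by exact_mod_cast h10) dvd_rfl)
    have hA := DFunLike.congr_fun h (Additive.ofMul (GroupH1.ofAdm η hη hadm))
    simp only [AddMonoidHom.add_apply, AddMonoidHom.zero_apply, degMap_apply] at hA
    rw [upD_one, ← upD_upD] at hA
    show valH ξ' (upM q η) = valH ξ η
    have e1 : valH ξ η = valH φ₀ η + valH φ₁ (upM q η) := by
      rw [show η = (GroupH1.ofAdm η hη hηa : GammaH (N * q) ⊤).1.1 from rfl, valH_coe]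
      show D₁ φ₀ _ + Dq φ₁ _ = _
      rw [degMap_apply, degMap_apply, upD_one]
    have e2 : valH ξ' (upM q η) = -valH φ₂ (upM q (upM q η)) := by
      rw [show upM q η = (GroupH1.ofAdm (upM q η) hη' hη'a : GammaH (N * q) ⊤).1.1 from rfl,
        valH_coe]
      show -(Dq φ₂ _) = _
      rw [degMap_apply]
    rw [e1, e2, eq_comm, eq_neg_iff_add_eq_zero]
    exact hA
  obtain ⟨Φ, χ, hχ, hΦ⟩ := exists_of_compat_level hp2 hpq hqN hB hc
  have hχ1 : χ 1 = 0 := by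
    have := hχ 1 1 one_ne_zero one_ne_zero
    rw [one_mul] at this
    exact left_eq_add.mp this
  -- both defects vanish on `Γ₁(Nq)`
  have hg1 : ∀ g : GammaH (N * q) ⊤, (g : SL(2, ℤ)) ∈ Gamma1 (N * q) →
      ((((g : SL(2, ℤ)) 0 0 : ℤ)) : ZMod q) = 1 := fun g hg => by
    have h3 := congrArg (ZMod.castHom (dvd_mul_left q N) (ZMod q)) ((Gamma1_mem _ _).mp hg).1
    rwa [map_intCast, map_one] at h3
  have hk : ∀ C : H1 (N * q) B, (∀ g : GammaH (N * q) ⊤, C (Additive.ofMul g) =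
      χ (((g : SL(2, ℤ)) 0 0 : ℤ) : ZMod q)) → hecke2 (N * q) ℓ B C = 0 := fun C hC =>
    hecke2_of_gamma1 hℓNq hB h1 C fun g hg => by rw [hC, hg1 g hg, hχ1]
  have hΦ' : ∀ g : GammaH (N * q) ⊤,
      ξ' (Additive.ofMul g) = valH (ofGamma0 Φ) (g : SL(2, ℤ)).1 + χ ((g : SL(2, ℤ)) 0 0) ∧
      ξ (Additive.ofMul g) = valH (ofGamma0 Φ) (upM q (g : SL(2, ℤ)).1)
        + χ ((g : SL(2, ℤ)) 0 0) := fun g => by
    have := hΦ (Subgroup.inclusion GroupH1.GammaH_top.le g)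
    rw [valH_ofGamma0, valH_ofGamma0]
    exact this
  have e1 := hk (ξ' - D₁ (ofGamma0 Φ)) fun g => by
    rw [AddMonoidHom.sub_apply, (hΦ' g).1]
    show _ - degMap _ _ _ _ = _
    rw [degMap_apply, upD_one, add_sub_cancel_left]
  have e2 := hk (ξ - Dq (ofGamma0 Φ)) fun g => by
    rw [AddMonoidHom.sub_apply, (hΦ' g).2]
    show _ - degMap _ _ _ _ = _
    rw [degMap_apply, add_sub_cancel_left]
  simp only [ξ, ξ', D₁, Dq, map_sub, map_add, map_neg, hecke2_degMap _ _ hℓNq] at e1 e2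
  have p1 := hecke2_hecke2_eq_zero_of_pair (φ₀ := P (ofGamma0 Φ)) (φ₁ := -P φ₂) hI hqN hN1 hℓq hB h1
    (by rw [map_neg]; exact (sub_eq_zero.mp e1).symm)
  have p2 := hecke2_hecke2_eq_zero_of_pair (φ₀ := P φ₀) (φ₁ := P (ofGamma0 Φ) - P φ₁) hI hqN hN1 hℓq
    hB h1 (by rw [map_sub, eq_sub_iff_add_eq]; exact sub_eq_zero.mp e2)
  refine ⟨p2.1, ?_, ?_⟩
  · have := p2.2
    rw [map_sub, map_sub] at this
    rw [← sub_eq_zero.mp this]
    exact p1.1
  · have := p1.2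
    rwa [map_neg, map_neg, neg_eq_zero] at this

/-- The map to level `Nq²` attached to `U_q = 0`: `q r₀ - r₁ T_q + r₂`. -/
def iMap (N q : ℕ) [hq : Fact q.Prime] (B : Type*) [AddCommGroup B] :
    H1 N B →+ H1 (N * q * q) B :=
  q • degMap one_ne_zero (by rw [mul_one, mul_assoc]; exact dvd_mul_right N _)
    - (degMap hq.out.ne_zero (dvd_mul_right (N * q) q)).comp (heckeSystem N ⊤ q).transfer
    + degMap (mul_ne_zero hq.out.ne_zero hq.out.ne_zero) (by rw [mul_assoc])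

/-- **`iMap` is injective in characteristic `p` up to `P³`.** -/
theorem hecke2_cube_eq_zero_of_iMap (hI : IharaProp N q B) (hp2 : p ≠ 2) (hpq : p ≠ q)
    (hqN : ¬ q ∣ N) (hN1 : (ℓ : ZMod N) = 1) (hℓq : ℓ ≠ q) (hB : ∀ b : B, p • b = 0)
    (h1 : (ℓ : ZMod p) = 1) {φ : H1 N B} (h : iMap N q B φ = 0) :
    hecke2 N ℓ B (hecke2 N ℓ B (hecke2 N ℓ B φ)) = 0 :=
  (hecke2_cube_eq_zero_of_triple hI hp2 hpq hqN hN1 hℓq hB h1 (φ₀ := q • φ)
    (φ₁ := -(heckeSystem N ⊤ q).transfer φ) (φ₂ := φ) (by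
      rw [map_nsmul, map_neg, ← sub_eq_add_neg]; exact h)).2.2

end Fermat.Agent.IharaH1

end
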