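import Fermat.Agent.IharaH1.Kernel
import Fermat.Agent.IharaH1.Gram
import Fermat.Agent.IharaH1.CorHecke

/-!
# The level `N q²`: the maps `i` and `j`

`i = q r₀ - r₁ T_q + r₂`, `j = cor ∘ (U_q² - T_q U_q + q)`. Both commute with `T_ℓ` (`ℓ ∤ N q²`),
`U_q i = 0`, `j U_q = 0` and `j i = q (q - 1) ((q + 1)² - T_q²)`.
-/

set_option autoImplicit false

noncomputable section

open Matrix CongruenceSubgroup
open scoped MatrixGroups

namespace Fermat.Agent.IharaH1

open Fermat.Agent.GroupH1 (GammaH HIdx heckeSystem)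

variable {B : Type*} [AddCommGroup B] {N q : ℕ} [hq : Fact q.Prime]

/-- `N q` is nonzero. -/
theorem mul_q_ne (hN : N ≠ 0) : N * q ≠ 0 := Nat.mul_ne_zero hN hq.out.ne_zero

/-- Corestriction from `Γ₀(N q²)` to `Γ₀(N)`. -/
def corSq (hN : N ≠ 0) : H1 (N * q * q) B →+ H1 N B :=
  (corMap hN).comp (corMap (mul_q_ne hN))

/-- `j = cor (U² - T U + q)`. -/
def jMap (hN : N ≠ 0) : H1 (N * q * q) B →+ H1 N B :=
  (corSq hN).comp ((heckeSystem (N * q * q) ⊤ q).transfer.comp
    (heckeSystem (N * q * q) ⊤ q).transfer)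
    - ((heckeSystem N ⊤ q).transfer.comp (corSq hN)).comp (heckeSystem (N * q * q) ⊤ q).transfer
    + q • corSq hN

/-- The definition of `j`. -/
theorem jMap_apply (hN : N ≠ 0) (x : H1 (N * q * q) B) :
    jMap hN x = corSq hN ((heckeSystem (N * q * q) ⊤ q).transfer
        ((heckeSystem (N * q * q) ⊤ q).transfer x))
      - (heckeSystem N ⊤ q).transfer (corSq hN ((heckeSystem (N * q * q) ⊤ q).transfer x))
      + q • corSq hN x := rfl

/-- The definition of `i`. -/
theorem iMap_apply (φ : H1 N B) :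
    iMap N q B φ = q • degMap one_ne_zero (by rw [mul_one, mul_assoc]; exact dvd_mul_right N _) φ
      - degMap hq.out.ne_zero (dvd_mul_right (N * q) q) ((heckeSystem N ⊤ q).transfer φ)
      + degMap (mul_ne_zero hq.out.ne_zero hq.out.ne_zero) (by rw [mul_assoc]) φ := rfl

variable (hN : N ≠ 0) (hqN : ¬ q ∣ N)

section Hecke

variable {ℓ : ℕ} [hℓ : Fact ℓ.Prime]

theorem dvd_mul_q_iff (hℓq : ℓ ≠ q) : (ℓ ∣ N * q * q ↔ ℓ ∣ N) ∧ ¬ ℓ ∣ q := by
  have hnd : ¬ ℓ ∣ q := fun h => hℓq ((Nat.prime_dvd_prime_iff_eq hℓ.out hq.out).mp h)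
  exact ⟨⟨fun h => (hℓ.out.dvd_mul.1 ((hℓ.out.dvd_mul.1 h).resolve_right hnd)).resolve_right hnd,
    fun h => dvd_mul_of_dvd_left (dvd_mul_of_dvd_left h q) q⟩, hnd⟩

/-- `i` commutes with every Hecke operator away from `q`. -/
theorem transfer_iMap (hℓq : ℓ ≠ q) (φ : H1 N B) :
    (heckeSystem (N * q * q) ⊤ ℓ).transfer (iMap N q B φ) =
      iMap N q B ((heckeSystem N ⊤ ℓ).transfer φ) := by
  obtain ⟨h, hnd⟩ := dvd_mul_q_iff (N := N) hℓq
  rw [iMap_apply, iMap_apply, map_add, map_sub, map_nsmul,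
    transfer_degMap_of_iff _ _ hℓ.out.not_dvd_one h, transfer_degMap_of_iff _ _ hnd h,
    transfer_degMap_of_iff _ _ (fun hd => (hℓ.out.dvd_mul.1 hd).elim hnd hnd) h,
    GroupH1.transfer_comm hℓq]

include hN in
theorem transfer_corSq (hℓq : ℓ ≠ q) (x : H1 (N * q * q) B) :
    (heckeSystem N ⊤ ℓ).transfer (corSq hN x) =
      corSq hN ((heckeSystem (N * q * q) ⊤ ℓ).transfer x) := by
  show (heckeSystem N ⊤ ℓ).transfer (corMap hN (corMap (mul_q_ne hN) x)) = _
  rw [transfer_corMap hN hℓq, transfer_corMap (mul_q_ne hN) hℓq]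
  rfl

/-- `j` commutes with every Hecke operator away from `q`. -/
theorem transfer_jMap (hℓq : ℓ ≠ q) (x : H1 (N * q * q) B) :
    (heckeSystem N ⊤ ℓ).transfer (jMap hN x) =
      jMap hN ((heckeSystem (N * q * q) ⊤ ℓ).transfer x) := by
  simp only [jMap_apply, map_add, map_sub, map_nsmul, transfer_corSq hN hℓq,
    GroupH1.transfer_comm hℓq]

end Hecke

include hN hqN

omit hN in
/-- The image of `i` is killed by `U_q`. -/
theorem transfer_iMap_self (φ : H1 N B) :
    (heckeSystem (N * q * q) ⊤ q).transfer (iMap N q B φ) = 0 := by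
  have h1 := transfer_degMap_one_add (B := B) (M := N) (M' := N * q * q) hqN
    (by rw [mul_one, mul_assoc]; exact dvd_mul_right N _) (dvd_mul_right (N * q) q) φ
  have h2 : (heckeSystem (N * q * q) ⊤ q).transfer
      (degMap (M := N) hq.out.ne_zero (dvd_mul_right (N * q) q) ((heckeSystem N ⊤ q).transfer φ)) =
      q • degMap one_ne_zero (by rw [mul_one, mul_assoc]; exact dvd_mul_right N _)
        ((heckeSystem N ⊤ q).transfer φ) := by
    have := transfer_degMap_mul (M := N) (M' := N * q * q) (d := 1) one_ne_zero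
      (by rw [mul_one]; exact dvd_mul_right (N * q) q) ((heckeSystem N ⊤ q).transfer φ)
    simp only [mul_one] at this
    exact this
  have h3 : (heckeSystem (N * q * q) ⊤ q).transfer
      (degMap (M := N) (mul_ne_zero hq.out.ne_zero hq.out.ne_zero) (by rw [mul_assoc]) φ) =
      q • degMap hq.out.ne_zero (dvd_mul_right (N * q) q) φ :=
    transfer_degMap_mul (M := N) (M' := N * q * q) hq.out.ne_zero (by rw [mul_assoc]) φ
  rw [iMap_apply, map_add, map_sub, map_nsmul, h2, h3, eq_sub_of_add_eq h1, nsmul_sub]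
  abel

omit hqN in
theorem corSq_transfer (x : H1 (N * q * q) B) :
    corSq hN ((heckeSystem (N * q * q) ⊤ q).transfer x) =
      q • corMap hN (uDown (dvd_mul_left q N) x) := by
  show corMap hN (corMap (mul_q_ne hN) _) = _
  rw [transfer_eq_degMap_uDown (dvd_mul_left q N), corMap_degMap_one,
    card_HIdx_of_dvd (dvd_mul_left q N), map_nsmul]

/-- `j U_q = 0`. -/
theorem jMap_transfer (x : H1 (N * q * q) B) :
    jMap hN ((heckeSystem (N * q * q) ⊤ q).transfer x) = 0 := by
  set U := (heckeSystem (N * q * q) ⊤ q).transfer (B := B)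
  set y := uDown (dvd_mul_left q N) x
  have hU : ∀ z : H1 (N * q * q) B, uDown (dvd_mul_left q N) (U z) =
      (heckeSystem (N * q) ⊤ q).transfer (uDown (dvd_mul_left q N) z) := fun z => by
    rw [transfer_eq_degMap_uDown (dvd_mul_left q N), uDown_degMap]
  rw [jMap_apply]
  simp only [U, corSq_transfer hN] at hU ⊢
  rw [hU, hU, corMap_transfer_transfer hN hqN]
  simp only [map_nsmul, nsmul_sub, smul_smul]
  abel

/-- **`j i = q (q - 1) ((q + 1)² - T_q²)`.** -/
theorem jMap_iMap (φ : H1 N B) :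
    jMap hN (iMap N q B φ) = ((q : ℤ) * ((q : ℤ) - 1)) • (((q : ℤ) + 1) ^ 2 • φ
      - (heckeSystem N ⊤ q).transfer ((heckeSystem N ⊤ q).transfer φ)) := by
  set T := (heckeSystem N ⊤ q).transfer (B := B) with hT
  let D₁ : H1 N B →+ H1 (N * q) B := degMap one_ne_zero (by simp)
  let Dq : H1 N B →+ H1 (N * q) B := degMap hq.out.ne_zero dvd_rfl
  have hcard := card_HIdx_of_not_dvd hqN
  have hc0 : corSq hN (degMap (M := N) (M' := N * q * q) one_ne_zero
      (by rw [mul_one, mul_assoc]; exact dvd_mul_right N _) φ) = (q * (q + 1)) • φ := by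
    have e := degMap_degMap (L := N) (M := N * q) (M' := N * q * q) one_ne_zero one_ne_zero
      (by simp) (by simp) φ
    simp only [mul_one] at e
    show corMap hN (corMap (mul_q_ne hN) _) = _
    rw [← e, corMap_degMap_one, card_HIdx_of_dvd (dvd_mul_left q N), map_nsmul, corMap_degMap_one,
      hcard, smul_smul]
  have hc1 : ∀ ψ : H1 N B, corSq hN (degMap (M := N) (M' := N * q * q) hq.out.ne_zero
      (dvd_mul_right (N * q) q) ψ) = q • T ψ := fun ψ => by
    have e := degMap_degMap (L := N) (M := N * q) (M' := N * q * q) hq.out.ne_zero one_ne_zero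
      dvd_rfl (by simp) ψ
    simp only [mul_one] at e
    show corMap hN (corMap (mul_q_ne hN) _) = _
    rw [← e, corMap_degMap_one, card_HIdx_of_dvd (dvd_mul_left q N), map_nsmul,
      corMap_degMap_q hN hqN]
  have hc2 : corSq hN (degMap (M := N) (M' := N * q * q)
      (mul_ne_zero hq.out.ne_zero hq.out.ne_zero) (by rw [mul_assoc]) φ)
      = T (T φ) - (q + 1) • φ := by
    rw [← degMap_degMap (L := N) (M := N * q) hq.out.ne_zero hq.out.ne_zero dvd_rfl dvd_rfl]
    show corMap hN (corMap (mul_q_ne hN) _) = _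
    rw [eq_sub_of_add_eq (degMap_corMap hN hqN (degMap hq.out.ne_zero dvd_rfl φ)).symm,
      map_sub, corMap_degMap_q hN hqN, alMap_degMap_q, corMap_degMap_one, hcard,
      corMap_degMap_q hN hqN]
  rw [jMap_apply, transfer_iMap_self hqN, map_zero, map_zero, map_zero, sub_zero, zero_add,
    iMap_apply, map_add, map_sub, map_nsmul, hc0, hc1, hc2]
  simp only [← natCast_zsmul]
  push_cast
  module

end Fermat.Agent.IharaH1

end
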