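import Fermat.Agent.IharaH1.LevelSq
import Fermat.Agent.IharaH1.IharaInput
import Fermat.Agent.GroupH1.HeckeMod

/-!
# `i` and `j` on the localised Hecke modules

`m` is the ideal of a residual system `a` at level `N`, `m'` that of `a` with `a q = 0` at level
`N q²`. The map `locI` is `i` after the projection to the `m`-component, `locJ` is induced by `j`.
Both commute with every `X ℓ`, `ℓ ≠ q`; `locJ ∘ locI = deltaSq`, and `locI` is injective modulo a
uniformiser as soon as `a ℓ ≠ 2` for some prime `ℓ ≡ 1` modulo `N` and `p`.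
-/

set_option autoImplicit false

noncomputable section

open IsLocalRing
open scoped MatrixGroups

namespace Fermat.Agent.IharaH1

open Fermat.Agent.GroupH1 (HeckePoly HMod toH eigIdeal LocM toLocM primeOf X_smul_toH C_smul
  toLocM_surjective toLocM_eq_zero_iff exists_smul_inv smul_locM_eq_zero heckeSystem)

section natural

variable {B C : Type*} [AddCommGroup B] [AddCommGroup C] (f : B →+ C)

/-- Degeneracy maps commute with a change of coefficients. -/
theorem comp_degMap {M M' d : ℕ} (hd : d ≠ 0) (hdvd : M * d ∣ M') (φ : H1 M B) :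
    f.comp (degMap hd hdvd φ) = degMap hd hdvd (f.comp φ) :=
  AddMonoidHom.ext fun _ => rfl

/-- Hecke operators commute with a change of coefficients. -/
theorem comp_transfer_hecke {M ℓ : ℕ} [Fact ℓ.Prime] (φ : H1 M B) :
    f.comp ((heckeSystem M ⊤ ℓ).transfer φ) = (heckeSystem M ⊤ ℓ).transfer (f.comp φ) :=
  HeckeLattice.CosetSystem.comp_transfer _ f φ

/-- `hecke2` commutes with a change of coefficients. -/
theorem comp_hecke2 {M ℓ : ℕ} [Fact ℓ.Prime] (φ : H1 M B) :
    f.comp (hecke2 M ℓ B φ) = hecke2 M ℓ C (f.comp φ) := by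
  rw [hecke2_apply, hecke2_apply, ← comp_transfer_hecke]
  ext g
  simp

theorem comp_iMap {N q : ℕ} [Fact q.Prime] (φ : H1 N B) :
    f.comp (iMap N q B φ) = iMap N q C (f.comp φ) := by
  rw [iMap_apply, iMap_apply, ← comp_transfer_hecke, ← comp_degMap, ← comp_degMap, ← comp_degMap]
  ext g
  simp

/-- Corestriction commutes with a change of coefficients. -/
theorem comp_corMap {M q : ℕ} [Fact q.Prime] (hM : M ≠ 0) (φ : H1 (M * q) B) :
    f.comp (corMap hM φ) = corMap hM (f.comp φ) :=
  GroupH1.DoubleSystem.comp_transfer _ f φ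

/-- `j` commutes with a change of coefficients. -/
theorem comp_jMap {N q : ℕ} [Fact q.Prime] (hN : N ≠ 0) (x : H1 (N * q * q) B) :
    f.comp (jMap hN x) = jMap hN (f.comp x) := by
  have hc : ∀ y : H1 (N * q * q) B, f.comp (corSq hN y) = corSq hN (f.comp y) := fun y => by
    show f.comp (corMap hN (corMap (mul_q_ne hN) y)) = _
    rw [comp_corMap, comp_corMap]
    rfl
  rw [jMap_apply, jMap_apply]
  simp only [← comp_transfer_hecke, ← hc]
  ext g
  simp

end natural

variable (N q : ℕ) [hq : Fact q.Prime] [NeZero N] (O : Type) [CommRing O]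

/-- `i` on Hecke modules. -/
def iLin : HMod N ⊤ O →ₗ[O] HMod (N * q * q) ⊤ O where
  toFun x := toH (iMap N q O (toH.symm x))
  map_add' x y := by simp
  map_smul' r x := by
    rw [map_smul, RingHom.id_apply, ← map_smul toH]
    exact congrArg toH (comp_iMap (DistribSMul.toAddMonoidHom O r) (toH.symm x)).symm

/-- `j` on Hecke modules. -/
def jLin : HMod (N * q * q) ⊤ O →ₗ[O] HMod N ⊤ O where
  toFun x := toH (jMap (NeZero.ne N) (toH.symm x))
  map_add' x y := by simp
  map_smul' r x := by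
    rw [map_smul, RingHom.id_apply, ← map_smul toH]
    exact congrArg toH
      (comp_jMap (DistribSMul.toAddMonoidHom O r) (NeZero.ne N) (toH.symm x)).symm

/-- Set the variable of `q` to zero. -/
def subQ : HeckePoly O →ₐ[O] HeckePoly O :=
  MvPolynomial.bind₁ fun r => if r = primeOf q then 0 else MvPolynomial.X r

/-- `j i` as a Hecke polynomial. -/
def deltaSq : HeckePoly O :=
  MvPolynomial.C ((q : O) * ((q : O) - 1)) *
    (MvPolynomial.C (((q : O) + 1) ^ 2) - MvPolynomial.X (primeOf q) * MvPolynomial.X (primeOf q))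

variable {N q O}

theorem subQ_X (r : Nat.Primes) :
    subQ q O (MvPolynomial.X r) = if r = primeOf q then 0 else MvPolynomial.X r :=
  MvPolynomial.bind₁_X_right _ _

omit [NeZero N] in
theorem X_iLin {r : Nat.Primes} (hr : r ≠ primeOf q) (x : HMod N ⊤ O) :
    (MvPolynomial.X r : HeckePoly O) • iLin N q O x =
      iLin N q O ((MvPolynomial.X r : HeckePoly O) • x) := by
  obtain ⟨φ, rfl⟩ := toH.surjective x
  obtain ⟨ℓ, hl⟩ := r
  have : Fact ℓ.Prime := ⟨hl⟩
  show (MvPolynomial.X (primeOf ℓ) : HeckePoly O) • toH (iMap N q O φ) =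
    iLin N q O ((MvPolynomial.X (primeOf ℓ) : HeckePoly O) • toH φ)
  rw [X_smul_toH, X_smul_toH, transfer_iMap fun h => hr (Subtype.ext h)]
  rfl

omit [NeZero N] in
theorem Xq_iLin (hqN : ¬ q ∣ N) (x : HMod N ⊤ O) :
    (MvPolynomial.X (primeOf q) : HeckePoly O) • iLin N q O x = 0 := by
  obtain ⟨φ, rfl⟩ := toH.surjective x
  show (MvPolynomial.X (primeOf q) : HeckePoly O) • toH (iMap N q O φ) = 0
  rw [X_smul_toH, transfer_iMap_self hqN, map_zero]

theorem X_jLin {r : Nat.Primes} (hr : r ≠ primeOf q) (x : HMod (N * q * q) ⊤ O) :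
    (MvPolynomial.X r : HeckePoly O) • jLin N q O x =
      jLin N q O ((MvPolynomial.X r : HeckePoly O) • x) := by
  obtain ⟨φ, rfl⟩ := toH.surjective x
  obtain ⟨ℓ, hl⟩ := r
  have : Fact ℓ.Prime := ⟨hl⟩
  show (MvPolynomial.X (primeOf ℓ) : HeckePoly O) • toH (jMap (NeZero.ne N) φ) =
    jLin N q O ((MvPolynomial.X (primeOf ℓ) : HeckePoly O) • toH φ)
  rw [X_smul_toH, X_smul_toH, transfer_jMap _ fun h => hr (Subtype.ext h)]
  rfl

theorem jLin_Xq (hqN : ¬ q ∣ N) (x : HMod (N * q * q) ⊤ O) :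
    jLin N q O ((MvPolynomial.X (primeOf q) : HeckePoly O) • x) = 0 := by
  obtain ⟨φ, rfl⟩ := toH.surjective x
  rw [X_smul_toH]
  show toH (M := N) (H := ⊤) (O := O) (jMap (NeZero.ne N) (toH.symm
    (toH ((heckeSystem (N * q * q) ⊤ q).transfer φ)))) = 0
  rw [LinearEquiv.symm_apply_apply, jMap_transfer _ hqN, map_zero]

omit [NeZero N] in
theorem smul_iLin (hqN : ¬ q ∣ N) (u : HeckePoly O) (x : HMod N ⊤ O) :
    u • iLin N q O x = iLin N q O (subQ q O u • x) := by
  induction u using MvPolynomial.induction_on generalizing x with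
  | C r => rw [subQ, MvPolynomial.bind₁_C_right, C_smul, C_smul, map_smul]
  | add a b ha hb => rw [map_add, add_smul, add_smul, map_add, ha, hb]
  | mul_X a r ha =>
    rw [map_mul, subQ_X, mul_smul, mul_smul]
    by_cases hr : r = primeOf q
    · rw [if_pos hr, hr, Xq_iLin hqN, smul_zero, zero_smul, smul_zero, map_zero]
    · rw [if_neg hr, X_iLin hr, ha]

theorem jLin_smul (hqN : ¬ q ∣ N) (u : HeckePoly O) (x : HMod (N * q * q) ⊤ O) :
    jLin N q O (u • x) = subQ q O u • jLin N q O x := by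
  induction u using MvPolynomial.induction_on generalizing x with
  | C r => rw [subQ, MvPolynomial.bind₁_C_right, C_smul, C_smul, map_smul]
  | add a b ha hb => rw [map_add, add_smul, map_add, add_smul, ha, hb]
  | mul_X a r ha =>
    rw [map_mul, subQ_X, mul_smul, mul_smul, ha]
    by_cases hr : r = primeOf q
    · rw [if_pos hr, hr, jLin_Xq hqN, zero_smul]
    · rw [if_neg hr, X_jLin hr]

theorem jLin_iLin (hqN : ¬ q ∣ N) (x : HMod N ⊤ O) :
    jLin N q O (iLin N q O x) = deltaSq q O • x := by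
  obtain ⟨φ, rfl⟩ := toH.surjective x
  rw [deltaSq, mul_smul, sub_smul, mul_smul, C_smul, C_smul, X_smul_toH, X_smul_toH]
  show toH (jMap (NeZero.ne N) (iMap N q O φ)) = _
  rw [jMap_iMap _ hqN, ← map_smul, ← map_sub, ← map_smul,
    ← Int.cast_smul_eq_zsmul O, ← Int.cast_smul_eq_zsmul O]
  push_cast
  rfl

/-! ### Localisation -/

variable [IsLocalRing O] {a : Nat.Primes → ResidueField O}

theorem eval_subQ (u : HeckePoly O) :
    MvPolynomial.eval₂Hom (residue O) a (subQ q O u) =
      MvPolynomial.eval₂Hom (residue O) (Function.update a (primeOf q) 0) u := by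
  rw [subQ, MvPolynomial.eval₂Hom_bind₁]
  refine congrArg (fun f => MvPolynomial.eval₂Hom (residue O) f u) (funext fun r => ?_)
  by_cases hr : r = primeOf q
  · rw [if_pos hr, map_zero, hr, Function.update_self]
  · rw [if_neg hr, MvPolynomial.eval₂Hom_X', Function.update_of_ne hr]

theorem subQ_not_mem {u : HeckePoly O}
    (hu : u ∉ eigIdeal (Function.update a (primeOf q) 0)) : subQ q O u ∉ eigIdeal a := fun h => by
  rw [GroupH1.mem_eigIdeal, eval_subQ] at h
  exact hu h

variable [IsNoetherianRing O] [IsAdicComplete (maximalIdeal O) O]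

theorem exists_proj (a : Nat.Primes → ResidueField O) :
    ∃ e : HeckePoly O, ∀ v : HMod N ⊤ O,
      toLocM (eigIdeal a) (e • v) = toLocM (eigIdeal a) v ∧
      (toLocM (eigIdeal a) v = 0 → e • v = 0) := by
  classical
  set m := eigIdeal a
  have : IsNoetherian O (HMod N ⊤ O) := isNoetherian_of_isNoetherianRing_of_finite O _
  obtain ⟨s, hs⟩ := IsNoetherian.noetherian
    (LinearMap.ker ((toLocM m : HMod N ⊤ O →ₗ[HeckePoly O] _).restrictScalars O))
  have hs' : ∀ v ∈ s, toLocM m v = 0 := fun v hv => by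
    have : v ∈ Submodule.span O (s : Set (HMod N ⊤ O)) := Submodule.subset_span hv
    rwa [hs] at this
  choose u hu hu' using fun v : {v // v ∈ s} => (toLocM_eq_zero_iff m).mp (hs' v.1 v.2)
  set U := ∏ v, u v
  have hU : U ∉ m := fun h => by
    obtain ⟨v, -, hv⟩ := (Ideal.IsPrime.prod_mem_iff (p := m)).mp h
    exact hu v hv
  obtain ⟨t, u₁, hu₁, h₁⟩ := exists_smul_inv O (V := HMod N ⊤ O) m hU
  refine ⟨t * U, fun v => ⟨?_, fun hv => ?_⟩⟩
  · exact (GroupH1.toLocM_eq_iff m).mpr ⟨u₁, hu₁, h₁ v⟩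
  · have hmem : v ∈ Submodule.span O (s : Set (HMod N ⊤ O)) := hs ▸ hv
    induction hmem using Submodule.span_induction with
    | mem x hx =>
      obtain ⟨c, hc⟩ : u ⟨x, hx⟩ ∣ U := Finset.dvd_prod_of_mem _ (Finset.mem_univ _)
      rw [hc, mul_smul, mul_comm, mul_smul, hu' ⟨x, hx⟩, smul_zero, smul_zero]
    | zero => rw [smul_zero]
    | add x y hx hy hx' hy' =>
      have e : ∀ z, z ∈ Submodule.span O (s : Set (HMod N ⊤ O)) → toLocM m z = 0 := fun z hz => by
        rwa [hs] at hz
      rw [smul_add, hx' (e x hx), hy' (e y hy), add_zero]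
    | smul r x hx hx' =>
      have e : toLocM m x = 0 := by rwa [hs] at hx
      rw [smul_comm, hx' e, smul_zero]

/-- The `m`-component of a class in the localisation. -/
def locLift (a : Nat.Primes → ResidueField O) :
    LocM (eigIdeal a) (HMod N ⊤ O) →ₗ[HeckePoly O] HMod N ⊤ O where
  toFun x := (exists_proj a).choose • (toLocM_surjective O (eigIdeal a) x).choose
  map_add' x y := by
    rw [← smul_add, ← sub_eq_zero, ← smul_sub]
    refine ((exists_proj a).choose_spec _).2 ?_
    rw [map_sub, map_add, (toLocM_surjective O (eigIdeal a) x).choose_spec,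
      (toLocM_surjective O (eigIdeal a) y).choose_spec,
      (toLocM_surjective O (eigIdeal a) (x + y)).choose_spec, sub_self]
  map_smul' u x := by
    rw [RingHom.id_apply, smul_comm u, ← sub_eq_zero, ← smul_sub]
    refine ((exists_proj a).choose_spec _).2 ?_
    rw [map_sub, map_smul, (toLocM_surjective O (eigIdeal a) x).choose_spec,
      (toLocM_surjective O (eigIdeal a) (u • x)).choose_spec, sub_self]

/-- `locLift` is a section of `toLocM`. -/
theorem toLocM_locLift (x : LocM (eigIdeal a) (HMod N ⊤ O)) :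
    toLocM (eigIdeal a) (locLift a x) = x :=
  (((exists_proj a).choose_spec _).1).trans (toLocM_surjective O (eigIdeal a) x).choose_spec

/-- **`i` on the localisations.** -/
def locI (N q : ℕ) [Fact q.Prime] [NeZero N] (a : Nat.Primes → ResidueField O) :
    LocM (eigIdeal a) (HMod N ⊤ O) →ₗ[O]
      LocM (eigIdeal (Function.update a (primeOf q) 0)) (HMod (N * q * q) ⊤ O) :=
  ((toLocM _).restrictScalars O).comp ((iLin N q O).comp ((locLift a).restrictScalars O))

theorem locI_apply (x : LocM (eigIdeal a) (HMod N ⊤ O)) :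
    locI N q a x =
      toLocM (eigIdeal (Function.update a (primeOf q) 0)) (iLin N q O (locLift a x)) := rfl

/-- `locI` commutes with the Hecke operators away from `q`. -/
theorem X_locI {r : Nat.Primes} (hr : r ≠ primeOf q) (x : LocM (eigIdeal a) (HMod N ⊤ O)) :
    (MvPolynomial.X r : HeckePoly O) • locI N q a x =
      locI N q a ((MvPolynomial.X r : HeckePoly O) • x) := by
  rw [locI_apply, locI_apply, ← map_smul, X_iLin hr, map_smul (locLift a)]

omit [IsNoetherianRing O] [IsAdicComplete (maximalIdeal O) O] in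
theorem toLocM_jLin_eq (hqN : ¬ q ∣ N) (a : Nat.Primes → ResidueField O)
    {v w : HMod (N * q * q) ⊤ O}
    (h : toLocM (eigIdeal (Function.update a (primeOf q) 0)) v =
      toLocM (eigIdeal (Function.update a (primeOf q) 0)) w) :
    toLocM (eigIdeal a) (jLin N q O v) = toLocM (eigIdeal a) (jLin N q O w) := by
  obtain ⟨u, hu, huv⟩ := (GroupH1.toLocM_eq_iff _).mp h
  exact (GroupH1.toLocM_eq_iff _).mpr
    ⟨subQ q O u, subQ_not_mem hu, by rw [← jLin_smul hqN, ← jLin_smul hqN, huv]⟩

/-- **`j` on the localisations.** -/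
def locJ (hqN : ¬ q ∣ N) (a : Nat.Primes → ResidueField O) :
    LocM (eigIdeal (Function.update a (primeOf q) 0)) (HMod (N * q * q) ⊤ O) →ₗ[O]
      LocM (eigIdeal a) (HMod N ⊤ O) where
  toFun x := toLocM (eigIdeal a) (jLin N q O (toLocM_surjective O _ x).choose)
  map_add' x y := by
    rw [← map_add, ← map_add]
    refine toLocM_jLin_eq hqN a ?_
    rw [map_add, (toLocM_surjective O _ (x + y)).choose_spec,
      (toLocM_surjective O _ x).choose_spec, (toLocM_surjective O _ y).choose_spec]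
  map_smul' r x := by
    rw [RingHom.id_apply, ← LinearMap.map_smul_of_tower (toLocM (eigIdeal a)), ← map_smul]
    refine toLocM_jLin_eq hqN a ?_
    rw [LinearMap.map_smul_of_tower, (toLocM_surjective O _ (r • x)).choose_spec,
      (toLocM_surjective O _ x).choose_spec]

/-- `locJ` is induced by `jLin`. -/
theorem locJ_toLocM (hqN : ¬ q ∣ N) (v : HMod (N * q * q) ⊤ O) :
    locJ hqN a (toLocM (eigIdeal (Function.update a (primeOf q) 0)) v) =
      toLocM (eigIdeal a) (jLin N q O v) :=
  toLocM_jLin_eq hqN a (toLocM_surjective O _ _).choose_spec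

/-- `locJ` commutes with the Hecke operators away from `q`. -/
theorem X_locJ (hqN : ¬ q ∣ N) {r : Nat.Primes} (hr : r ≠ primeOf q)
    (x : LocM (eigIdeal (Function.update a (primeOf q) 0)) (HMod (N * q * q) ⊤ O)) :
    (MvPolynomial.X r : HeckePoly O) • locJ hqN a x =
      locJ hqN a ((MvPolynomial.X r : HeckePoly O) • x) := by
  obtain ⟨v, rfl⟩ := toLocM_surjective O _ x
  rw [locJ_toLocM, ← map_smul (toLocM (eigIdeal a)),
    ← map_smul (toLocM (eigIdeal (Function.update a (primeOf q) 0))), locJ_toLocM, X_jLin hr]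

/-- **`j i = δ`.** -/
theorem locJ_locI (hqN : ¬ q ∣ N) (x : LocM (eigIdeal a) (HMod N ⊤ O)) :
    locJ hqN a (locI N q a x) = deltaSq q O • x := by
  rw [locI_apply, locJ_toLocM, jLin_iLin hqN, map_smul, toLocM_locLift]

/-- **`i` is injective modulo a uniformiser.** -/
theorem locI_mem_smul [IsDomain O] {ϖ : O} (hϖ : maximalIdeal O = Ideal.span {ϖ}) (hϖ0 : ϖ ≠ 0)
    {p : ℕ} [hp : Fact p.Prime] (hp2 : p ≠ 2) (hpO : (p : O) ∈ maximalIdeal O) (hpq : p ≠ q)
    (hqN : ¬ q ∣ N) {ℓ : ℕ} [hℓ : Fact ℓ.Prime] (hN1 : (ℓ : ZMod N) = 1) (h1 : (ℓ : ZMod p) = 1)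
    (hℓq : ℓ ≠ q) (ha : a (primeOf ℓ) ≠ 2) (x : LocM (eigIdeal a) (HMod N ⊤ O))
    (h : ∃ y, locI N q a x = ϖ • y) : ∃ x', x = ϖ • x' := by
  obtain ⟨y, hy⟩ := h
  obtain ⟨w, rfl⟩ := toLocM_surjective O _ y
  rw [locI_apply, ← LinearMap.map_smul_of_tower, GroupH1.toLocM_eq_iff] at hy
  obtain ⟨u, hu, huv⟩ := hy
  set φ : H1 N O := toH.symm (subQ q O u • locLift a x)
  have hi : iMap N q O φ = ϖ • toH.symm (u • w) := by
    apply toH.injective
    rw [map_smul, LinearEquiv.apply_symm_apply]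
    exact ((smul_iLin hqN u _).symm.trans (huv.trans (smul_comm u ϖ w)) :)
  let π : O →+ ResidueField O := (residue O).toAddMonoidHom
  have hk : ∀ b : ResidueField O, p • b = 0 := fun b => by
    rw [nsmul_eq_mul, ← map_natCast (residue O), (residue_eq_zero_iff _).mpr hpO, zero_mul]
  have h0 : iMap N q (ResidueField O) (π.comp φ) = 0 := by
    rw [← comp_iMap, hi]
    refine AddMonoidHom.ext fun g => ?_
    show residue O (ϖ * _) = 0
    rw [map_mul, (residue_eq_zero_iff _).mpr (hϖ ▸ Ideal.mem_span_singleton_self ϖ), zero_mul]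
  have h3 := hecke2_cube_eq_zero_of_iMap (iharaProp hp2 (NeZero.ne N) hqN hk) hp2 hpq hqN hN1 hℓq
    hk h1 h0
  rw [← comp_hecke2, ← comp_hecke2, ← comp_hecke2] at h3
  set φ' := hecke2 N ℓ O (hecke2 N ℓ O (hecke2 N ℓ O φ))
  have hdiv : ∀ g, ∃ c, φ' g = ϖ * c := fun g => by
    have h4 : residue O (φ' g) = 0 := DFunLike.congr_fun h3 g
    rw [residue_eq_zero_iff, hϖ, Ideal.mem_span_singleton] at h4
    exact h4
  choose c hc using hdiv
  let ψ : H1 N O := AddMonoidHom.mk' c fun g g' => mul_left_cancel₀ hϖ0 (by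
    rw [mul_add, ← hc, ← hc, ← hc, map_add])
  set P : HeckePoly O := MvPolynomial.X (primeOf ℓ) - 2
  have hP : ∀ f : H1 N O, toH (hecke2 N ℓ O f) = P • toH f := fun f => by
    rw [hecke2_apply, map_sub, map_nsmul, sub_smul, X_smul_toH, two_nsmul, two_smul]
  have hnot : (P * (P * P)) * subQ q O u ∉ eigIdeal a := by
    have hPm : P ∉ eigIdeal a := fun hm => ha (by
      rw [GroupH1.mem_eigIdeal, map_sub, MvPolynomial.eval₂Hom_X', map_ofNat, sub_eq_zero] at hm
      exact hm)
    have hprime : (eigIdeal a).IsPrime := Ideal.IsMaximal.isPrime inferInstance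
    exact fun hm => ((hprime.mem_or_mem hm).elim (fun h' => (hprime.mem_or_mem h').elim hPm
      fun h'' => (hprime.mem_or_mem h'').elim hPm hPm) (subQ_not_mem hu))
  have hV : ((P * (P * P)) * subQ q O u) • locLift a x = ϖ • toH ψ := by
    have e : toH φ' = ϖ • toH ψ := by
      rw [← map_smul]
      exact congrArg toH (AddMonoidHom.ext fun g => hc g)
    rw [← e, hP, hP, hP, mul_smul, mul_smul, mul_smul, LinearEquiv.apply_symm_apply]
  refine ⟨LocalizedModule.mk (toH ψ) ⟨_, hnot⟩, sub_eq_zero.mp (smul_locM_eq_zero _ hnot ?_)⟩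
  have hmk : ((P * (P * P)) * subQ q O u) • LocalizedModule.mk (toH ψ)
      (⟨_, hnot⟩ : (eigIdeal a).primeCompl) = toLocM (eigIdeal a) (toH ψ) := by
    rw [LocalizedModule.smul'_mk]
    exact LocalizedModule.mk_eq.mpr ⟨1, by simp [Submonoid.smul_def]⟩
  rw [smul_sub, smul_comm _ ϖ, hmk, ← LinearMap.map_smul_of_tower, ← hV, map_smul,
    toLocM_locLift, sub_self]

end Fermat.Agent.IharaH1

end
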