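import Fermat.Agent.IharaH1.PGroupCyclic
import Mathlib.Algebra.Field.ZMod
import Mathlib.GroupTheory.Transfer
import Mathlib.GroupTheory.SpecificGroups.Cyclic
import Mathlib.NumberTheory.ModularForms.CongruenceSubgroups

/-!
# Extending invariant homomorphisms from the kernel of a map to `SL₂(𝔽_q)`

Let `π : G →* SL₂(𝔽_q)` be such that `G` is generated by `π.ker` and elements whose `q`-th
power lies in `π.ker`, and let `p ≠ q` be an odd prime.

* `exists_transfer_to_ker`: if `π.ker` is central, the transfer to the preimage of a Sylow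
  `p`-subgroup maps `G` into `π.ker` and is a power prime to `p` on `π.ker`.
* `exists_extend_of_invariant`: a conjugation invariant homomorphism on `π.ker` with values in a
  group killed by `p` extends to `G`.
-/

set_option autoImplicit false

open Matrix
open scoped MatrixGroups

namespace Fermat.Agent.IharaH1

variable {p q : ℕ} [hp : Fact p.Prime] [hq : Fact q.Prime] {G : Type*} [Group G]
  (π : G →* SL(2, ZMod q)) {s : Set G}

/-- The transfer of a central extension of a subgroup of `SL₂(𝔽_q)` to the preimage of a Sylow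
`p`-subgroup: its values lie in the kernel, as the Sylow subgroup is cyclic and receives no
nontrivial element of order `q`, and on the kernel it is the power by the index. -/
theorem exists_transfer_to_ker (hp2 : p ≠ 2) (hpq : p ≠ q) (hcentral : π.ker ≤ Subgroup.center G)
    (hs : ∀ g ∈ s, g ^ q ∈ π.ker) (hgen : ∀ g, g ∈ Subgroup.closure s ⊔ π.ker) :
    ∃ (m : ℕ) (V : G →* G), ¬ p ∣ m ∧ (∀ g, V g ∈ π.ker) ∧ ∀ k ∈ π.ker, V k = k ^ m := by
  classical
  obtain ⟨P⟩ : Nonempty (Sylow p π.range) := inferInstance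
  let P' : Subgroup G := (P : Subgroup π.range).comap π.rangeRestrict
  have hPndvd : ¬ p ∣ P'.index :=
    (Subgroup.index_comap_of_surjective _ π.rangeRestrict_surjective) ▸ P.not_dvd_index
  have : P'.FiniteIndex := ⟨fun h => hPndvd (h ▸ dvd_zero p)⟩
  have hPcyc : IsCyclic (P : Subgroup π.range) := by
    refine isCyclic_of_isPGroup_SL2 (F := ZMod q) hp2 ?_ P.isPGroup'
      (π.range.subtype.comp (P : Subgroup π.range).subtype)
      (Subtype.val_injective.comp Subtype.val_injective)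
    rw [Ne, ZMod.natCast_eq_zero_iff]
    exact fun h => hpq ((Nat.prime_dvd_prime_iff_eq hq.out hp.out).mp h).symm
  let πP : P' →* (P : Subgroup π.range) := π.rangeRestrict.subgroupComap (P : Subgroup π.range)
  have hcomm : ∀ a b : P', a * b = b * a := by
    intro a b
    refine (MonoidHom.isMulCommutative_of_isCyclic_of_ker_le_center πP ?_).is_comm.comm a b
    intro x hx
    refine Subgroup.mem_center_iff.mpr fun y => Subtype.ext ?_
    exact Subgroup.mem_center_iff.mp (hcentral (MonoidHom.mem_ker.mpr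
      (congrArg (fun z : (P : Subgroup π.range) => ((z : π.range) : SL(2, ZMod q)))
        (MonoidHom.mem_ker.mp hx)))) y.1
  let : CommGroup P' := { (inferInstance : Group P') with mul_comm := hcomm }
  let V : G →* P' := MonoidHom.transfer (MonoidHom.id P')
  have hVker : ∀ x ∈ π.ker, ((V x : P') : G) = x ^ P'.index := by
    intro x hx
    have key : ∀ (k : ℕ) (g₀ : G), g₀⁻¹ * x ^ k * g₀ ∈ P' → g₀⁻¹ * x ^ k * g₀ = x ^ k := by
      intro k g₀ _
      rw [mul_assoc, ← Subgroup.mem_center_iff.mp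
        ((Subgroup.center G).pow_mem (hcentral hx) k) g₀, inv_mul_cancel_left]
    show ((MonoidHom.transfer (MonoidHom.id P') x : P') : G) = _
    rw [MonoidHom.transfer_eq_pow _ x key]
    rfl
  refine ⟨P'.index, P'.subtype.comp V, hPndvd, fun g => ?_, hVker⟩
  -- the image in the Sylow subgroup has `p`-power order and kills the generators
  have hle : π.ker ≤ (πP.comp V).ker := fun k hk => MonoidHom.mem_ker.mpr <| Subtype.ext <|
    Subtype.ext <| show π ((V k : P') : G) = 1 by
      rw [hVker k hk, map_pow, MonoidHom.mem_ker.mp hk, one_pow]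
  have hq' : ∀ x ∈ s, x ∈ (πP.comp V).ker := by
    intro x hx
    have h1 : (πP.comp V) x ^ q = 1 := by
      rw [← map_pow]; exact MonoidHom.mem_ker.mp (hle (hs x hx))
    obtain ⟨j, hj⟩ := P.isPGroup' ((πP.comp V) x)
    have h2 : orderOf ((πP.comp V) x) ∣ Nat.gcd q (p ^ j) :=
      Nat.dvd_gcd (orderOf_dvd_of_pow_eq_one h1) (orderOf_dvd_of_pow_eq_one hj)
    rw [((Nat.coprime_primes hq.out hp.out).mpr hpq.symm).pow_right j] at h2
    exact MonoidHom.mem_ker.mpr (orderOf_eq_one_iff.mp (Nat.dvd_one.mp h2))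
  exact MonoidHom.mem_ker.mpr
    (congrArg (fun z : (P : Subgroup π.range) => ((z : π.range) : SL(2, ZMod q)))
      (MonoidHom.mem_ker.mp ((sup_le ((Subgroup.closure_le _).mpr hq') hle) (hgen g))))

/-- A conjugation invariant homomorphism on `π.ker` with values in a group killed by `p` extends
to `G`. -/
theorem exists_extend_of_invariant {B : Type*} [AddCommGroup B] (hp2 : p ≠ 2) (hpq : p ≠ q)
    (hB : ∀ b : B, p • b = 0) (hs : ∀ g ∈ s, g ^ q ∈ π.ker)
    (hgen : ∀ g, g ∈ Subgroup.closure s ⊔ π.ker) (ψ : G → B)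
    (hmul : ∀ k ∈ π.ker, ∀ k' ∈ π.ker, ψ (k * k') = ψ k + ψ k')
    (hinv : ∀ g, ∀ k ∈ π.ker, ψ (g * k * g⁻¹) = ψ k) :
    ∃ Φ : Additive G →+ B, ∀ k ∈ π.ker, Φ (Additive.ofMul k) = ψ k := by
  have h1 : ψ 1 = 0 := by simpa using hmul 1 π.ker.one_mem 1 π.ker.one_mem
  -- modulo the kernel of `ψ` the extension is central
  let N₀ : Subgroup G :=
    { carrier := {k | k ∈ π.ker ∧ ψ k = 0}
      one_mem' := ⟨π.ker.one_mem, h1⟩
      mul_mem' := fun {a b} ha hb => ⟨π.ker.mul_mem ha.1 hb.1, by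
        rw [hmul _ ha.1 _ hb.1, ha.2, hb.2, add_zero]⟩
      inv_mem' := fun {a} ha => ⟨π.ker.inv_mem ha.1, by
        have := hmul _ (π.ker.inv_mem ha.1) a ha.1
        rw [inv_mul_cancel, h1, ha.2, add_zero] at this
        exact this.symm⟩ }
  have : N₀.Normal := ⟨fun k hk g =>
    ⟨Subgroup.Normal.conj_mem inferInstance k hk.1 g, by rw [hinv g k hk.1]; exact hk.2⟩⟩
  let mk : G →* G ⧸ N₀ := QuotientGroup.mk' N₀
  have hmk : Function.Surjective mk := QuotientGroup.mk'_surjective N₀
  let π' : G ⧸ N₀ →* SL(2, ZMod q) := QuotientGroup.lift N₀ π fun k hk => hk.1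
  have hcentral : π'.ker ≤ Subgroup.center (G ⧸ N₀) := by
    intro x hx
    obtain ⟨k, rfl⟩ := hmk x
    have hk : k ∈ π.ker := MonoidHom.mem_ker.mp hx
    rw [Subgroup.mem_center_iff]
    intro y
    obtain ⟨g, rfl⟩ := hmk y
    rw [← map_mul, ← map_mul]
    refine (QuotientGroup.eq (s := N₀)).mpr ⟨?_, ?_⟩
    · rw [MonoidHom.mem_ker, map_mul, map_inv, map_mul, map_mul, MonoidHom.mem_ker.mp hk]; group
    · have e : (g * k)⁻¹ * (k * g) = k⁻¹ * (g⁻¹ * k * g⁻¹⁻¹) := by group
      rw [e, hmul _ (π.ker.inv_mem hk) _ (Subgroup.Normal.conj_mem inferInstance k hk _),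
        hinv _ _ hk, ← hmul _ (π.ker.inv_mem hk) _ hk, inv_mul_cancel, h1]
  have hgen' : ∀ x, x ∈ Subgroup.closure (mk '' s) ⊔ π'.ker := fun x => by
    obtain ⟨g, rfl⟩ := hmk x
    refine (sup_le ((Subgroup.closure_le _).mpr fun y hy => ?_) fun y hy => ?_ :
      _ ≤ (Subgroup.closure (mk '' s) ⊔ π'.ker).comap mk) (hgen g)
    · exact Subgroup.mem_sup_left (Subgroup.subset_closure ⟨y, hy, rfl⟩)
    · exact Subgroup.mem_sup_right (MonoidHom.mem_ker.mpr hy)
  obtain ⟨m, V, hm, hVmem, hVker⟩ := exists_transfer_to_ker π' hp2 hpq hcentral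
    (s := mk '' s) (by
      rintro _ ⟨g, hg, rfl⟩
      rw [← map_pow]; exact hs g hg) hgen'
  -- lift the values to `π.ker` and divide by `m`
  choose κ hκ' using fun g => hmk (V (mk g))
  have hκ : ∀ g, κ g ∈ π.ker := fun g => by
    have := hVmem (mk g); rw [← hκ' g] at this; exact this
  have hψmk : ∀ k k' : G, k ∈ π.ker → mk k = mk k' → ψ k = ψ k' := by
    intro k k' hk h
    have h2 : k⁻¹ * k' ∈ N₀ := (QuotientGroup.eq (s := N₀)).mp h
    have h3 := hmul k hk (k⁻¹ * k') h2.1
    rw [mul_inv_cancel_left, h2.2, add_zero] at h3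
    exact h3.symm
  obtain ⟨e, he⟩ : ∃ e : ℕ, ∀ b : B, e • (m • b) = b := by
    refine ⟨((m : ZMod p)⁻¹).val, fun b => ?_⟩
    have h2 : ((((m : ZMod p)⁻¹).val * m : ℕ) : ZMod p) = ((1 : ℕ) : ZMod p) := by
      push_cast
      rw [ZMod.natCast_zmod_val]
      exact inv_mul_cancel₀ fun h => hm ((ZMod.natCast_eq_zero_iff _ _).mp h)
    have h3 := (ZMod.natCast_eq_natCast_iff' _ _ _).mp h2
    rw [Nat.one_mod_eq_one.mpr hp.out.ne_one] at h3
    rw [smul_smul, ← Nat.mod_add_div (((m : ZMod p)⁻¹).val * m) p, h3, add_smul, one_smul,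
      mul_smul, hB, add_zero]
  refine ⟨AddMonoidHom.mk' (fun g => e • ψ (κ (Additive.toMul g))) (fun g h => ?_), fun k hk => ?_⟩
  · rw [← smul_add, ← hmul _ (hκ _) _ (hκ _)]
    congr 1
    refine hψmk _ _ (hκ _) ?_
    rw [map_mul, hκ', hκ', hκ', toMul_add, map_mul, map_mul]
  · have hpow : ∀ n : ℕ, ψ (k ^ n) = n • ψ k := fun n => by
      induction n with
      | zero => simpa using h1
      | succ n ih => rw [pow_succ, hmul _ (π.ker.pow_mem hk n) _ hk, ih, succ_nsmul]
    show e • ψ (κ k) = ψ k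
    rw [hψmk (κ k) (k ^ m) (hκ k) (by rw [hκ', hVker _ hk, map_pow]), hpow, he]

end Fermat.Agent.IharaH1
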