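import Fermat.Agent.IharaH1.Edge
import Fermat.Agent.IharaH1.SL2Extension
import Mathlib.NumberTheory.ModularForms.CongruenceSubgroups

/-!
# The exact sequence `Hom(Γ₀(N)) → Hom(Γ₀(Nq))² → Hom(Γ₀(Nq²))`, up to characters

For an odd prime `p ≠ q`, `q ∤ N`, and homomorphisms `ξ, ξ'` on `Γ₀(Nq)` with values in a group
killed by `p` with `ξ' (ω η ω⁻¹) = ξ η` on `Γ₀(Nq²)`, there are a homomorphism `Φ` on `Γ₀(N)` and
a character `χ` of `(ℤ/q)ˣ` with `ξ' η = Φ η + χ(a)` and `ξ η = Φ (ω η ω⁻¹) + χ(a)`.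
`ξ'` restricted to `Γ₀(N) ∩ Γ(q)` is invariant under `Γ₀(N)` (`val_conj_of_mem_ker`), so it
extends to some `Φ` (`exists_extend_of_invariant`). On matrices of `Γ₀(Nq)` with upper left entry
`≡ 1 (mod q)` both defects `ξ' - Φ` and `ξ - Φ ∘ upM` vanish (`val_eq_of_upperLeft_one`,
`val_eq_upM_of_upperLeft_one`), so both only depend on that entry, and they agree on a common set
of witnesses (`exists_witness`).
-/

set_option autoImplicit false

open Matrix CongruenceSubgroup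
open scoped MatrixGroups

namespace Fermat.Agent.IharaH1

/-- Conjugation by `diag(q, 1)`. -/
def upM (q : ℕ) (m : M2) : M2 := !![m 0 0, (q : ℤ) * m 0 1; m 1 0 / (q : ℤ), m 1 1]

/-- Conjugation by `omega q` of a matrix with lower left entry divisible by `q`. -/
theorem omega_mul_eq_upM_mul {q : ℕ} {m : M2} (h : (q : ℤ) ∣ m 1 0) :
    omega q * m = upM q m * omega q := by
  ext i j
  fin_cases i <;> fin_cases j <;> simp [omega, upM, mul_apply, Fin.sum_univ_two, mul_comm]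
  exact (Int.mul_ediv_cancel' h).symm

/-- `upM q` preserves the determinant. -/
theorem det_upM {q : ℕ} {m : M2} (h : (q : ℤ) ∣ m 1 0) : (upM q m).det = m.det := by
  rw [upM, det_fin_two_of, det_fin_two]
  linear_combination -(m 0 1) * Int.mul_ediv_cancel' h

theorem upM_mul {q : ℕ} [hq : Fact q.Prime] {m n : M2} (hm : (q : ℤ) ∣ m 1 0)
    (hn : (q : ℤ) ∣ n 1 0) : upM q (m * n) = upM q m * upM q n := by
  have hmn : (q : ℤ) ∣ (m * n) 1 0 := by
    rw [mul_apply, Fin.sum_univ_two]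
    exact dvd_add (dvd_mul_of_dvd_left hm _) (dvd_mul_of_dvd_right hn _)
  have h1 : upM q (m * n) * omega q = upM q m * upM q n * omega q := by
    rw [← omega_mul_eq_upM_mul hmn, mul_assoc, ← omega_mul_eq_upM_mul hn, ← mul_assoc,
      ← mul_assoc, omega_mul_eq_upM_mul hm]
  have h2 := congrArg (fun Z => Z * (omega q).adjugate) h1
  simp only [mul_assoc, Matrix.mul_adjugate, det_omega, Matrix.mul_smul, mul_one] at h2
  exact smul_right_injective _ (Int.natCast_ne_zero.2 hq.out.ne_zero) h2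

theorem adm0_upM {N q : ℕ} {m : M2} (hd : m.det = 1) (hc : (((N * q : ℕ) : ℤ)) ∣ m 1 0) :
    Adm0 N (upM q m) ∧ (upM q m).det = 1 := by
  have hq : (q : ℤ) ∣ m 1 0 := dvd_trans ⟨N, by push_cast; ring⟩ hc
  refine ⟨adm0_of_det_one (by rw [det_upM hq, hd]) ?_, by rw [det_upM hq, hd]⟩
  rw [ZMod.intCast_zmod_eq_zero_iff_dvd]
  obtain ⟨t, ht⟩ := hc
  rcases eq_or_ne q 0 with rfl | hq0
  · simp [upM]
  · refine ⟨t, ?_⟩
    simp only [upM, of_apply, cons_val', cons_val_zero, cons_val_one, empty_val']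
    rw [ht]; push_cast
    rw [show (N : ℤ) * q * t = q * (N * t) by ring,
      Int.mul_ediv_cancel_left _ (Int.natCast_ne_zero.2 hq0)]

variable {N q p : ℕ} [hq : Fact q.Prime] [hp : Fact p.Prime] {B : Type*} [AddCommGroup B]

omit hp in
/-- For `q ∤ N` divisibility by `N` and by `q` gives divisibility by `N q`. -/
theorem dvd_Nq (hqN : ¬ q ∣ N) {x : ℤ} (hN : (N : ℤ) ∣ x) (hq' : (q : ℤ) ∣ x) :
    ((N * q : ℕ) : ℤ) ∣ x := by
  push_cast
  exact (Int.isCoprime_iff_gcd_eq_one.mpr (by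
    rw [Int.gcd_natCast_natCast]
    exact (hq.out.coprime_iff_not_dvd.mpr hqN).symm)).mul_dvd hN hq'

/-- Multiplication by `q` is injective on a group killed by the prime `p ≠ q`. -/
theorem eq_zero_of_nsmul_eq_zero (hpq : p ≠ q) (hB : ∀ b : B, p • b = 0) {b : B} (h : q • b = 0) :
    b = 0 := by
  have h1 : addOrderOf b ∣ 1 := by
    rw [← (Nat.coprime_primes hp.out hq.out).mpr hpq]
    exact Nat.dvd_gcd (addOrderOf_dvd_of_nsmul_eq_zero (hB b))
      (addOrderOf_dvd_of_nsmul_eq_zero h)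
  exact AddMonoid.addOrderOf_eq_one_iff.mp (Nat.dvd_one.mp h1)

omit hq in
theorem dvd_lower_of_adm0 {m : M2} (h : Adm0 (N * q) m) : (q : ℤ) ∣ m 1 0 :=
  dvd_trans ⟨N, by push_cast; ring⟩ ((ZMod.intCast_zmod_eq_zero_iff_dvd _ _).mp h.1)

omit hq in
theorem adm0_of_adm0_mul {m : M2} (hm : m.det = 1) (h : Adm0 (N * q) m) : Adm0 N m :=
  adm0_of_det_one hm (by
    rw [ZMod.intCast_zmod_eq_zero_iff_dvd]
    exact dvd_trans ⟨q, by push_cast; ring⟩ ((ZMod.intCast_zmod_eq_zero_iff_dvd _ _).mp h.1))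

/-- `val f` of a power. -/
theorem val_pow {M : ℕ} (f : Additive (Gamma0 M) →+ B) {m : M2} (hm : m.det = 1)
    (hm' : Adm0 M m) (n : ℕ) :
    (m ^ n).det = 1 ∧ Adm0 M (m ^ n) ∧ val f (m ^ n) = n • val f m := by
  induction n with
  | zero => exact ⟨by simp, by simpa using GroupH1.adm_one, by simpa using val_one f⟩
  | succ n ih =>
    obtain ⟨i1, i2, i3⟩ := ih
    rw [pow_succ]
    exact ⟨by rw [det_mul, i1, hm, one_mul], i2.mul hm',
      by rw [val_mul f i1 i2 hm hm', i3, succ_nsmul]⟩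

/-- `upM` of a power. -/
theorem upM_pow {m : M2} (hm : (q : ℤ) ∣ m 1 0) (n : ℕ) :
    (q : ℤ) ∣ (m ^ n) 1 0 ∧ upM q (m ^ n) = upM q m ^ n := by
  induction n with
  | zero => exact ⟨by simp, by ext i j; fin_cases i <;> fin_cases j <;> simp [upM]⟩
  | succ n ih =>
    obtain ⟨i1, i2⟩ := ih
    rw [pow_succ, pow_succ]
    refine ⟨?_, by rw [upM_mul i1 hm, i2]⟩
    rw [mul_apply, Fin.sum_univ_two]
    exact dvd_add (dvd_mul_of_dvd_left i1 _) (dvd_mul_of_dvd_right hm _)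

/-- `upM` is injective on matrices with lower left entry divisible by `q`. -/
theorem eq_of_upM_eq {m n : M2} (hm : (q : ℤ) ∣ m 1 0) (hn : (q : ℤ) ∣ n 1 0)
    (h : upM q m = upM q n) : m = n := by
  have h2 := congrArg (fun Z => (omega q).adjugate * (Z * omega q)) h
  simp only [← omega_mul_eq_upM_mul hm, ← omega_mul_eq_upM_mul hn] at h2
  simp only [← mul_assoc, Matrix.adjugate_mul, det_omega, Matrix.smul_mul, one_mul] at h2
  exact smul_right_injective _ (Int.natCast_ne_zero.2 hq.out.ne_zero) h2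

/-! ### Reduction of `Γ₀(N)` modulo `q` -/

/-- Reduction modulo `q` on `Γ₀(N)`; its kernel is `Γ₀(N) ∩ Γ(q)`. -/
def redModQ (N q : ℕ) : Gamma0 N →* SL(2, ZMod q) :=
  (Matrix.SpecialLinearGroup.map (Int.castRingHom (ZMod q))).comp (Gamma0 N).subtype

theorem redModQ_apply (g : Gamma0 N) (i j : Fin 2) :
    redModQ N q g i j = ((g : SL(2, ℤ)) i j : ZMod q) := rfl

/-- The congruences on the entries of an element of the kernel. -/
theorem entries_of_mem_ker {g : Gamma0 N} (hg : g ∈ (redModQ N q).ker) :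
    (((g : SL(2, ℤ)) 0 0 : ℤ) : ZMod q) = 1 ∧ (((g : SL(2, ℤ)) 0 1 : ℤ) : ZMod q) = 0 ∧
      (((g : SL(2, ℤ)) 1 0 : ℤ) : ZMod q) = 0 := by
  rw [MonoidHom.mem_ker] at hg
  refine ⟨?_, ?_, ?_⟩ <;> rw [← redModQ_apply, hg] <;> rfl

/-- An element of `Γ₀(N)` with lower left entry `≡ 0 (mod q)` lies in `Γ₀(Nq)`. -/
theorem adm0_mul_of_lower (hqN : ¬ q ∣ N) (g : Gamma0 N)
    (hg : (((g : SL(2, ℤ)) 1 0 : ℤ) : ZMod q) = 0) : Adm0 (N * q) (g : SL(2, ℤ)).1 :=
  adm0_of_det_one (g : SL(2, ℤ)).2 (by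
    rw [ZMod.intCast_zmod_eq_zero_iff_dvd]
    exact dvd_Nq hqN ((ZMod.intCast_zmod_eq_zero_iff_dvd _ _).mp (Gamma0_mem.mp g.2))
      ((ZMod.intCast_zmod_eq_zero_iff_dvd _ _).mp hg))

/-- The translation `(1, 1; 0, 1)`. -/
def upperGen (N : ℕ) : Gamma0 N := toG !![1, 1; 0, 1] (by simp [det_fin_two_of])
  (adm0_of_det_one (by simp [det_fin_two_of]) (by simp))

/-- The matrix `(1, 0; N, 1)`. -/
def lowerGen (N : ℕ) : Gamma0 N := toG !![1, 0; (N : ℤ), 1] (by simp [det_fin_two_of])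
  (adm0_of_det_one (by simp [det_fin_two_of]) (by simp))

theorem coe_upperGen_pow (n : ℕ) :
    ((upperGen N ^ n : Gamma0 N) : SL(2, ℤ)).1 = !![1, (n : ℤ); 0, 1] := by
  induction n with
  | zero => ext i j; fin_cases i <;> fin_cases j <;> simp
  | succ n ih =>
    rw [pow_succ, Subgroup.coe_mul, Matrix.SpecialLinearGroup.coe_mul, ih]
    ext i j; fin_cases i <;> fin_cases j <;>
      simp [upperGen, toG, Matrix.mul_apply, Fin.sum_univ_two, add_comm]

theorem coe_lowerGen_pow (n : ℕ) :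
    ((lowerGen N ^ n : Gamma0 N) : SL(2, ℤ)).1 = !![1, 0; (n : ℤ) * N, 1] := by
  induction n with
  | zero => ext i j; fin_cases i <;> fin_cases j <;> simp
  | succ n ih =>
    rw [pow_succ, Subgroup.coe_mul, Matrix.SpecialLinearGroup.coe_mul, ih]
    ext i j; fin_cases i <;> fin_cases j <;>
      simp [lowerGen, toG, Matrix.mul_apply, Fin.sum_univ_two, add_mul, add_comm]

theorem upperGen_pow_mem_ker : upperGen N ^ q ∈ (redModQ N q).ker := by
  rw [MonoidHom.mem_ker]; ext i j; rw [redModQ_apply, coe_upperGen_pow]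
  fin_cases i <;> fin_cases j <;> simp

theorem lowerGen_pow_mem_ker : lowerGen N ^ q ∈ (redModQ N q).ker := by
  rw [MonoidHom.mem_ker]; ext i j; rw [redModQ_apply, coe_lowerGen_pow]
  fin_cases i <;> fin_cases j <;> simp

/-- `Γ₀(N)` is generated by the two unipotent elements and the kernel of the reduction. -/
theorem mem_closure_gens_sup_ker (hqN : ¬ q ∣ N) (g : Gamma0 N) :
    g ∈ Subgroup.closure ({upperGen N, lowerGen N} : Set (Gamma0 N)) ⊔ (redModQ N q).ker := by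
  have hN0 : (N : ZMod q) ≠ 0 := fun h => hqN ((ZMod.natCast_eq_zero_iff _ _).mp h)
  revert g
  suffices h : ∀ g : Gamma0 N, (((g : SL(2, ℤ)) 1 0 : ℤ) : ZMod q) ≠ 0 →
      g ∈ Subgroup.closure ({upperGen N, lowerGen N} : Set (Gamma0 N)) ⊔ (redModQ N q).ker by
    intro g
    by_cases hc : (((g : SL(2, ℤ)) 1 0 : ℤ) : ZMod q) = 0
    · have hl' : lowerGen N ∈ Subgroup.closure ({upperGen N, lowerGen N} : Set (Gamma0 N)) ⊔
          (redModQ N q).ker :=
        Subgroup.mem_sup_left (Subgroup.subset_closure (by simp))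
      have h2 := h (lowerGen N * g) (by
        rw [show ((lowerGen N * g : Gamma0 N) : SL(2, ℤ)) 1 0 =
          (N : ℤ) * (g : SL(2, ℤ)) 0 0 + (g : SL(2, ℤ)) 1 0 by
            rw [Subgroup.coe_mul, Matrix.SpecialLinearGroup.coe_mul, Matrix.mul_apply,
              Fin.sum_univ_two]
            simp [lowerGen, toG]]
        push_cast
        rw [hc, add_zero]
        refine mul_ne_zero hN0 fun ha => ?_
        have hd := congrArg (Int.cast : ℤ → ZMod q) (g : SL(2, ℤ)).2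
        rw [det_fin_two] at hd
        push_cast at hd
        rw [ha, hc] at hd
        simp at hd)
      have := Subgroup.mul_mem _ (Subgroup.inv_mem _ hl') h2
      rwa [inv_mul_cancel_left] at this
    · exact h g hc
  intro g hc
  set a : ZMod q := Int.cast ((g : SL(2, ℤ)) 0 0)
  set b : ZMod q := Int.cast ((g : SL(2, ℤ)) 0 1)
  set c : ZMod q := Int.cast ((g : SL(2, ℤ)) 1 0)
  set d : ZMod q := Int.cast ((g : SL(2, ℤ)) 1 1)
  have hd : a * d - b * c = 1 := by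
    have hd := congrArg (Int.cast : ℤ → ZMod q) (g : SL(2, ℤ)).2
    rw [det_fin_two] at hd
    push_cast at hd
    exact hd
  set w := upperGen N ^ ((a - 1) / c).val * lowerGen N ^ (c / N).val *
    upperGen N ^ ((d - 1) / c).val
  have hw : redModQ N q w = redModQ N q g := by
    ext i j
    rw [redModQ_apply, redModQ_apply]
    simp only [w, Subgroup.coe_mul, Matrix.SpecialLinearGroup.coe_mul, coe_upperGen_pow,
      coe_lowerGen_pow]
    have e1 : (((a - 1) / c).val : ZMod q) = (a - 1) / c := ZMod.natCast_zmod_val _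
    have e2 : ((c / N).val : ZMod q) = c / N := ZMod.natCast_zmod_val _
    have e3 : (((d - 1) / c).val : ZMod q) = (d - 1) / c := ZMod.natCast_zmod_val _
    fin_cases i <;> fin_cases j <;>
      simp [Matrix.mul_apply, Fin.sum_univ_two, -ZMod.natCast_val, e1, e2, e3] <;>
      (try field_simp) <;>
      first
        | linear_combination (0 : ZMod q) * hd
        | linear_combination -hd
        | linear_combination hd
  have hk : w⁻¹ * g ∈ (redModQ N q).ker := by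
    rw [MonoidHom.mem_ker, map_mul, map_inv, hw, inv_mul_cancel]
  have hwmem : w ∈ Subgroup.closure ({upperGen N, lowerGen N} : Set (Gamma0 N)) := by
    refine Subgroup.mul_mem _ (Subgroup.mul_mem _ ?_ ?_) ?_ <;>
      exact Subgroup.pow_mem _ (Subgroup.subset_closure (by simp)) _
  have := Subgroup.mul_mem _ (Subgroup.mem_sup_left (T := (redModQ N q).ker) hwmem)
    (Subgroup.mem_sup_right
      (S := Subgroup.closure ({upperGen N, lowerGen N} : Set (Gamma0 N))) hk)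
  rwa [mul_inv_cancel_left] at this

/-- An element of `Γ₀(N)` with upper right entry `≡ 0 (mod q)` is `upM q` of an element of
`Γ₀(Nq)` with the same upper left entry. -/
theorem exists_upM_eq (k : Gamma0 N) (hb : (((k : SL(2, ℤ)) 0 1 : ℤ) : ZMod q) = 0) :
    ∃ η : M2, η.det = 1 ∧ Adm0 (N * q) η ∧ upM q η = (k : SL(2, ℤ)).1 ∧
      η 0 0 = (k : SL(2, ℤ)) 0 0 := by
  obtain ⟨b', hb'⟩ := (ZMod.intCast_zmod_eq_zero_iff_dvd _ _).mp hb
  obtain ⟨c', hc'⟩ := (ZMod.intCast_zmod_eq_zero_iff_dvd _ _).mp (Gamma0_mem.mp k.2)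
  have hd := (k : SL(2, ℤ)).2
  rw [det_fin_two] at hd
  have hdet : (!![(k : SL(2, ℤ)) 0 0, b'; (q : ℤ) * (k : SL(2, ℤ)) 1 0,
      (k : SL(2, ℤ)) 1 1] : M2).det = 1 := by
    rw [det_fin_two_of]; linear_combination hd + (k : SL(2, ℤ)) 1 0 * hb'
  refine ⟨_, hdet, adm0_of_det_one hdet ?_, ?_, rfl⟩
  · rw [ZMod.intCast_zmod_eq_zero_iff_dvd]
    exact ⟨c', by simp [hc']; ring⟩
  · ext i j; fin_cases i <;> fin_cases j <;> simp [upM, hb', hq.out.ne_zero]

/-! ### The extension and its defects -/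

section compat

variable {ξ ξ' : Additive (Gamma0 (N * q)) →+ B}

/-- Compatibility, read at an element of `Γ₀(N)` lying in both conjugates of `Γ₀(Nq)`. -/
theorem val_eq_of_upM (hqN : ¬ q ∣ N) (hcompat : Compat (N * q) q ξ ξ') {k : Gamma0 N}
    (hc : (((k : SL(2, ℤ)) 1 0 : ℤ) : ZMod q) = 0) {η : M2} (hη : η.det = 1)
    (hηa : Adm0 (N * q) η) (hup : upM q η = (k : SL(2, ℤ)).1) :
    val ξ' (k : SL(2, ℤ)).1 = val ξ η :=
  hcompat η _ hη hηa (k : SL(2, ℤ)).2 (adm0_mul_of_lower hqN k hc)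
    (by rw [← hup, omega_mul_eq_upM_mul (dvd_lower_of_adm0 hηa)])

/-- `ξ'` on the kernel of the reduction is invariant under conjugation by `Γ₀(N)`: for the upper
generator since it lies in `Γ₀(Nq)`, for the lower one by compatibility. -/
theorem val_conj_of_mem_ker (hqN : ¬ q ∣ N) (hcompat : Compat (N * q) q ξ ξ') (g : Gamma0 N)
    {k : Gamma0 N} (hk : k ∈ (redModQ N q).ker) :
    val ξ' ((g * k * g⁻¹ : Gamma0 N) : SL(2, ℤ)).1 = val ξ' (k : SL(2, ℤ)).1 := by
  revert g k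
  let ψ : Gamma0 N → B := fun g => val ξ' (g : SL(2, ℤ)).1
  have hadm : ∀ k ∈ (redModQ N q).ker, Adm0 (N * q) (k : SL(2, ℤ)).1 := fun k hk =>
    adm0_mul_of_lower hqN k (entries_of_mem_ker hk).2.2
  let S : Subgroup (Gamma0 N) :=
    { carrier := {g | ∀ k ∈ (redModQ N q).ker, ψ (g * k * g⁻¹) = ψ k}
      one_mem' := fun k _ => by simp
      mul_mem' := fun {g g'} hg hg' k hk => by
        have := hg (g' * k * g'⁻¹) (Subgroup.Normal.conj_mem inferInstance k hk g')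
        rw [hg' k hk] at this
        rw [← this]; congr 1; group
      inv_mem' := fun {g} hg k hk => by
        have := hg (g⁻¹ * k * g⁻¹⁻¹) (Subgroup.Normal.conj_mem inferInstance k hk g⁻¹)
        rw [show g * (g⁻¹ * k * g⁻¹⁻¹) * g⁻¹ = k by group] at this
        exact this.symm }
  suffices hS : Subgroup.closure ({upperGen N, lowerGen N} : Set (Gamma0 N)) ⊔
      (redModQ N q).ker ≤ S from fun g k hk => hS (mem_closure_gens_sup_ker hqN g) k hk
  have hlow : ∀ (g : Gamma0 N), (((g : SL(2, ℤ)) 1 0 : ℤ) : ZMod q) = 0 → g ∈ S := by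
    intro g hg k hk
    have hk' := hadm k hk
    have hg' := adm0_mul_of_lower hqN g hg
    show val ξ' ((g : SL(2, ℤ)).1 * (k : SL(2, ℤ)).1 * (g : SL(2, ℤ)).1.adjugate) = _
    rw [val_mul ξ' (by rw [det_mul, (g : SL(2, ℤ)).2, (k : SL(2, ℤ)).2, one_mul]) (hg'.mul hk')
        (det_adjugate_one (g : SL(2, ℤ)).2) (adm0_adjugate_one (g : SL(2, ℤ)).2 hg'),
      val_mul ξ' (g : SL(2, ℤ)).2 hg' (k : SL(2, ℤ)).2 hk',
      val_adjugate ξ' (g : SL(2, ℤ)).2 hg']
    show _ = val ξ' (k : SL(2, ℤ)).1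
    abel
  refine sup_le ((Subgroup.closure_le S).mpr ?_) fun g hg => hlow g (entries_of_mem_ker hg).2.2
  have hupp : ∀ (g : Gamma0 N), (((g : SL(2, ℤ)) 0 1 : ℤ) : ZMod q) = 0 → g ∈ S := by
    intro g hg k hk
    obtain ⟨η, hη, hηa, hup, -⟩ := exists_upM_eq (q := q) k (entries_of_mem_ker hk).2.1
    obtain ⟨η₁, hη₁, hη₁a, hup₁, -⟩ := exists_upM_eq (q := q) g hg
    have hη₁a' := adm0_adjugate_one hη₁ hη₁a
    have hadj : upM q η₁.adjugate = (g : SL(2, ℤ)).1.adjugate := by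
      rw [← hup₁]
      ext i j; fin_cases i <;> fin_cases j <;>
        simp [upM, adjugate_fin_two, Int.neg_ediv_of_dvd (dvd_lower_of_adm0 hη₁a)]
    have e := val_eq_of_upM hqN hcompat
      (k := g * k * g⁻¹)
      (entries_of_mem_ker (Subgroup.Normal.conj_mem inferInstance k hk g)).2.2
      (η := η₁ * η * η₁.adjugate)
      (by rw [det_mul, det_mul, hη₁, hη, det_adjugate_one hη₁, one_mul, one_mul])
      ((hη₁a.mul hηa).mul hη₁a')
      (by rw [upM_mul (dvd_lower_of_adm0 (hη₁a.mul hηa)) (dvd_lower_of_adm0 hη₁a'),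
        upM_mul (dvd_lower_of_adm0 hη₁a) (dvd_lower_of_adm0 hηa), hadj, hup₁, hup]; rfl)
    show val ξ' _ = val ξ' _
    rw [e, val_eq_of_upM hqN hcompat (entries_of_mem_ker hk).2.2 hη hηa hup,
      val_mul ξ (by rw [det_mul, hη₁, hη, one_mul]) (hη₁a.mul hηa) (det_adjugate_one hη₁) hη₁a',
      val_mul ξ hη₁ hη₁a hη hηa, val_adjugate ξ hη₁ hη₁a]
    abel
  intro g hg
  rcases hg with rfl | hg
  · exact hlow _ (by simp [upperGen, toG])
  · rw [Set.mem_singleton_iff] at hg; subst hg; exact hupp _ (by simp [lowerGen, toG])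

/-- `ξ'` extends from the kernel of the reduction to a homomorphism on `Γ₀(N)`. -/
theorem exists_hom_eq_on_ker (hp2 : p ≠ 2) (hpq : p ≠ q) (hqN : ¬ q ∣ N)
    (hB : ∀ b : B, p • b = 0) (hcompat : Compat (N * q) q ξ ξ') :
    ∃ Φ : Additive (Gamma0 N) →+ B,
      ∀ k ∈ (redModQ N q).ker, Φ (Additive.ofMul k) = val ξ' (k : SL(2, ℤ)).1 := by
  refine exists_extend_of_invariant (redModQ N q) hp2 hpq hB
    (s := {upperGen N, lowerGen N}) ?_ (mem_closure_gens_sup_ker hqN) _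
    (fun k hk k' hk' => val_mul ξ' (k : SL(2, ℤ)).2
      (adm0_mul_of_lower hqN k (entries_of_mem_ker hk).2.2) (k' : SL(2, ℤ)).2
      (adm0_mul_of_lower hqN k' (entries_of_mem_ker hk').2.2))
    fun g _ hk => val_conj_of_mem_ker hqN hcompat g hk
  rintro g (rfl | rfl)
  · exact upperGen_pow_mem_ker
  · exact lowerGen_pow_mem_ker

/-- An extension agrees with `ξ'` on matrices of `Γ₀(Nq)` with upper left entry `≡ 1 (mod q)`. -/
theorem val_eq_of_upperLeft_one (hpq : p ≠ q) (hqN : ¬ q ∣ N) (hB : ∀ b : B, p • b = 0)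
    {Φ : Additive (Gamma0 N) →+ B}
    (hΦ : ∀ k ∈ (redModQ N q).ker, Φ (Additive.ofMul k) = val ξ' (k : SL(2, ℤ)).1)
    {m : M2} (hm : m.det = 1) (hma : Adm0 (N * q) m) (ha : ((m 0 0 : ℤ) : ZMod q) = 1) :
    val ξ' m = val Φ m := by
  have hua : Adm0 (N * q) (upperGen N : SL(2, ℤ)).1 :=
    adm0_mul_of_lower hqN _ (by simp [upperGen, toG])
  have hpow : ∀ n : ℕ, ((upperGen N ^ n : Gamma0 N) : SL(2, ℤ)).1 =
      (upperGen N : SL(2, ℤ)).1 ^ n := fun n => by
    rw [SubmonoidClass.coe_pow, Matrix.SpecialLinearGroup.coe_pow]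
  have hu : Φ (Additive.ofMul (upperGen N)) = val ξ' (upperGen N : SL(2, ℤ)).1 := by
    refine sub_eq_zero.mp (eq_zero_of_nsmul_eq_zero hpq hB ?_)
    rw [nsmul_sub, ← map_nsmul, ← ofMul_pow, hΦ _ upperGen_pow_mem_ker, hpow,
      (val_pow ξ' (upperGen N : SL(2, ℤ)).2 hua q).2.2, sub_self]
  set g : Gamma0 N := toG m hm (adm0_of_adm0_mul hm hma)
  have hc : ((m 1 0 : ℤ) : ZMod q) = 0 :=
    (ZMod.intCast_zmod_eq_zero_iff_dvd _ _).mpr (dvd_lower_of_adm0 hma)
  set j := (((m 0 1 : ℤ)) : ZMod q).val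
  have hk : (upperGen N ^ j)⁻¹ * g ∈ (redModQ N q).ker := by
    rw [MonoidHom.mem_ker, map_mul, map_inv, inv_mul_eq_one]
    ext i k
    rw [redModQ_apply, redModQ_apply, coe_upperGen_pow]
    have hd' := congrArg (Int.cast : ℤ → ZMod q) hm
    rw [det_fin_two] at hd'
    push_cast at hd'
    rw [ha, hc, one_mul, mul_zero, sub_zero] at hd'
    fin_cases i <;> fin_cases k <;> simp [g, toG, j, ha, hc, hd']
  obtain ⟨k, hk, hgk⟩ : ∃ k ∈ (redModQ N q).ker, g = upperGen N ^ j * k :=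
    ⟨_, hk, (mul_inv_cancel_left _ _).symm⟩
  obtain ⟨h1, h2, h3⟩ := val_pow ξ' (upperGen N : SL(2, ℤ)).2 hua j
  calc val ξ' m = val ξ' ((upperGen N : SL(2, ℤ)).1 ^ j * (k : SL(2, ℤ)).1) := by
        rw [← hpow, ← Matrix.SpecialLinearGroup.coe_mul, ← Subgroup.coe_mul, ← hgk]; rfl
    _ = j • Φ (Additive.ofMul (upperGen N)) + Φ (Additive.ofMul k) := by
        rw [val_mul ξ' h1 h2 (k : SL(2, ℤ)).2
          (adm0_mul_of_lower hqN k (entries_of_mem_ker hk).2.2), h3, hu, hΦ k hk]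
    _ = val Φ m := by
        rw [show m = (g : SL(2, ℤ)).1 from rfl, val_coe, hgk, ofMul_mul, ofMul_pow, map_add,
          map_nsmul]

/-- An extension, conjugated by `upM`, agrees with `ξ` on matrices of `Γ₀(Nq)` with upper left
entry `≡ 1 (mod q)`. -/
theorem val_eq_upM_of_upperLeft_one (hpq : p ≠ q) (hqN : ¬ q ∣ N) (hB : ∀ b : B, p • b = 0)
    (hcompat : Compat (N * q) q ξ ξ') {Φ : Additive (Gamma0 N) →+ B}
    (hΦ : ∀ k ∈ (redModQ N q).ker, Φ (Additive.ofMul k) = val ξ' (k : SL(2, ℤ)).1)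
    {m : M2} (hm : m.det = 1) (hma : Adm0 (N * q) m) (ha : ((m 0 0 : ℤ) : ZMod q) = 1) :
    val ξ m = val Φ (upM q m) := by
  obtain ⟨ηl, hηl, hηla, hηlup, -⟩ :=
    exists_upM_eq (q := q) (lowerGen N) (by simp [lowerGen, toG])
  have hpow : ∀ n : ℕ, upM q (ηl ^ n) = ((lowerGen N ^ n : Gamma0 N) : SL(2, ℤ)).1 := fun n => by
    rw [(upM_pow (dvd_lower_of_adm0 hηla) n).2, hηlup, SubmonoidClass.coe_pow,
      Matrix.SpecialLinearGroup.coe_pow]
  have hl : Φ (Additive.ofMul (lowerGen N)) = val ξ ηl := by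
    refine sub_eq_zero.mp (eq_zero_of_nsmul_eq_zero hpq hB ?_)
    obtain ⟨h1, h2, h3⟩ := val_pow ξ hηl hηla q
    rw [nsmul_sub, ← map_nsmul, ← ofMul_pow, hΦ _ lowerGen_pow_mem_ker, sub_eq_zero, ← h3]
    exact val_eq_of_upM hqN hcompat (entries_of_mem_ker lowerGen_pow_mem_ker).2.2 h1 h2 (hpow q)
  obtain ⟨hga, hgd⟩ := adm0_upM hm ((ZMod.intCast_zmod_eq_zero_iff_dvd _ _).mp hma.1)
  set g : Gamma0 N := toG (upM q m) hgd hga
  have hN0 : (N : ZMod q) ≠ 0 := fun h => hqN ((ZMod.natCast_eq_zero_iff _ _).mp h)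
  set j := (((upM q m) 1 0 : ℤ) / (N : ZMod q) : ZMod q).val
  have hd' : ((m 1 1 : ℤ) : ZMod q) = 1 := by
    have hd' := congrArg (Int.cast : ℤ → ZMod q) hm
    rw [det_fin_two] at hd'
    push_cast at hd'
    rw [ha, (ZMod.intCast_zmod_eq_zero_iff_dvd _ _).mpr (dvd_lower_of_adm0 hma), one_mul,
      mul_zero, sub_zero] at hd'
    exact hd'
  have hk : (lowerGen N ^ j)⁻¹ * g ∈ (redModQ N q).ker := by
    rw [MonoidHom.mem_ker, map_mul, map_inv, inv_mul_eq_one]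
    ext i k
    rw [redModQ_apply, redModQ_apply, coe_lowerGen_pow]
    fin_cases i <;> fin_cases k <;>
      simp [g, toG, j, upM, ha, hd', ZMod.natCast_zmod_val, div_mul_cancel₀ _ hN0,
        -ZMod.natCast_val]
  obtain ⟨k, hk, hgk⟩ : ∃ k ∈ (redModQ N q).ker, g = lowerGen N ^ j * k :=
    ⟨_, hk, (mul_inv_cancel_left _ _).symm⟩
  obtain ⟨η, hη, hηa, hup, -⟩ := exists_upM_eq (q := q) k (entries_of_mem_ker hk).2.1
  obtain ⟨h1, h2, h3⟩ := val_pow ξ hηl hηla j
  have heq : m = ηl ^ j * η := eq_of_upM_eq (dvd_lower_of_adm0 hma)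
    (dvd_lower_of_adm0 (h2.mul hηa)) (by
      rw [upM_mul (dvd_lower_of_adm0 h2) (dvd_lower_of_adm0 hηa), hpow, hup,
        ← Matrix.SpecialLinearGroup.coe_mul, ← Subgroup.coe_mul, ← hgk]
      rfl)
  calc val ξ m = j • Φ (Additive.ofMul (lowerGen N)) + Φ (Additive.ofMul k) := by
        rw [heq, val_mul ξ h1 h2 hη hηa, h3, hl, hΦ k hk,
          val_eq_of_upM hqN hcompat (entries_of_mem_ker hk).2.2 hη hηa hup]
    _ = val Φ (upM q m) := by
        rw [show upM q m = (g : SL(2, ℤ)).1 from rfl, val_coe, hgk, ofMul_mul, ofMul_pow,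
          map_add, map_nsmul]

end compat

omit hp in
/-- An additive function on `Γ₀(Nq)` which vanishes on matrices with upper left entry `≡ 1`
only depends on the upper left entry modulo `q`. -/
theorem eq_of_upperLeft_eq (D : M2 → B)
    (hD : ∀ m n : M2, m.det = 1 → Adm0 (N * q) m → n.det = 1 → Adm0 (N * q) n →
      D (m * n) = D m + D n)
    (hD1 : ∀ m : M2, m.det = 1 → Adm0 (N * q) m → ((m 0 0 : ℤ) : ZMod q) = 1 → D m = 0)
    {m n : M2} (hm : m.det = 1) (hma : Adm0 (N * q) m) (hn : n.det = 1) (hna : Adm0 (N * q) n)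
    (hmn : ((m 0 0 : ℤ) : ZMod q) = (n 0 0 : ℤ)) : D m = D n := by
  have hn' := adm0_adjugate_one hn hna
  have hd : (n.adjugate * m).det = 1 := by rw [det_mul, det_adjugate_one hn, hm, one_mul]
  have h0 : ((((n.adjugate * m) 0 0 : ℤ)) : ZMod q) = 1 := by
    have hd' := congrArg (Int.cast : ℤ → ZMod q) hn
    rw [det_fin_two] at hd'
    push_cast at hd'
    rw [adjugate_fin_two, mul_apply, Fin.sum_univ_two]
    simp only [of_apply, cons_val', cons_val_zero, cons_val_one, empty_val']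
    push_cast
    rw [hmn, (ZMod.intCast_zmod_eq_zero_iff_dvd _ _).mpr (dvd_lower_of_adm0 hma), mul_zero,
      add_zero]
    rw [(ZMod.intCast_zmod_eq_zero_iff_dvd _ _).mpr (dvd_lower_of_adm0 hna), mul_zero,
      sub_zero] at hd'
    rw [mul_comm, hd']
  have := hD n (n.adjugate * m) hn hna hd (hn'.mul hma)
  rwa [← mul_assoc, mul_adjugate_one hn, one_mul, hD1 _ hd (hn'.mul hma) h0, add_zero] at this

omit hp in
/-- Every nonzero residue is the upper left entry of an element of `Γ₀(Nq)` whose upper right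
entry is divisible by `q`. -/
theorem exists_witness (hqN : ¬ q ∣ N) {x : ZMod q} (hx : x ≠ 0) :
    ∃ k : Gamma0 N, Adm0 (N * q) (k : SL(2, ℤ)).1 ∧
      (((k : SL(2, ℤ)) 0 1 : ℤ) : ZMod q) = 0 ∧ (((k : SL(2, ℤ)) 0 0 : ℤ) : ZMod q) = x := by
  have hco : Nat.Coprime N q := (hq.out.coprime_iff_not_dvd.mpr hqN).symm
  obtain ⟨a, ha1, ha2⟩ := Nat.chineseRemainder hco 1 x.val
  have haq : (a : ZMod q) = x := by
    rw [(ZMod.natCast_eq_natCast_iff _ _ _).mpr ha2, ZMod.natCast_zmod_val]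
  have hacop : Nat.Coprime a (N * q) := by
    refine Nat.Coprime.mul_right ?_ ?_
    · rw [Nat.coprime_iff_gcd_eq_one, ha1.gcd_eq, Nat.gcd_one_left]
    · refine (hq.out.coprime_iff_not_dvd.mpr fun h => hx ?_).symm
      rw [← haq, (ZMod.natCast_eq_zero_iff _ _).mpr h]
  obtain ⟨d, hd⟩ : ∃ d : ℤ, ((N * q : ℕ) : ℤ) ∣ (a : ℤ) * d - 1 := by
    obtain ⟨d, hd⟩ := ZMod.intCast_surjective ((a : ZMod (N * q))⁻¹)
    refine ⟨d, (ZMod.intCast_zmod_eq_zero_iff_dvd _ _).mp ?_⟩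
    push_cast
    rw [hd, ZMod.coe_mul_inv_eq_one a hacop, sub_self]
  set h : M2 := !![(a : ℤ), 1; (a : ℤ) * d - 1, d] with hh
  have hhd : h.det = 1 := by rw [hh, det_fin_two_of]; ring
  have hha : Adm0 (N * q) h := adm0_of_det_one hhd
    ((ZMod.intCast_zmod_eq_zero_iff_dvd _ _).mpr hd)
  set j := (-(1 / x)).val
  set k : Gamma0 N := toG h hhd (adm0_of_adm0_mul hhd hha) * upperGen N ^ j
  refine ⟨k, hha.mul (adm0_mul_of_lower hqN _ (by rw [coe_upperGen_pow]; simp)), ?_, ?_⟩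
  · have : ((k : SL(2, ℤ)) 0 1 : ℤ) = (a : ℤ) * j + 1 := by
      simp only [k, Subgroup.coe_mul, Matrix.SpecialLinearGroup.coe_mul, coe_upperGen_pow]
      simp [toG, hh, Matrix.mul_apply, Fin.sum_univ_two]
    rw [this]; push_cast
    simp only [j, ZMod.natCast_zmod_val, haq]
    field_simp; ring
  · have : ((k : SL(2, ℤ)) 0 0 : ℤ) = (a : ℤ) := by
      simp only [k, Subgroup.coe_mul, Matrix.SpecialLinearGroup.coe_mul, coe_upperGen_pow]
      simp [toG, hh, Matrix.mul_apply, Fin.sum_univ_two]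
    rw [this]; push_cast; exact haq

omit hp in
theorem upperLeft_ne_zero {m : M2} (hm : m.det = 1) (hma : Adm0 (N * q) m) :
    ((m 0 0 : ℤ) : ZMod q) ≠ 0 := by
  intro h0
  have hd' := congrArg (Int.cast : ℤ → ZMod q) hm
  rw [det_fin_two] at hd'
  push_cast at hd'
  rw [h0, (ZMod.intCast_zmod_eq_zero_iff_dvd _ _).mpr (dvd_lower_of_adm0 hma)] at hd'
  simp at hd'

/-- **The one-step exact sequence.** -/
theorem exists_of_compat_level (hp2 : p ≠ 2) (hpq : p ≠ q) (hqN : ¬ q ∣ N)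
    (hB : ∀ b : B, p • b = 0) {ξ ξ' : Additive (Gamma0 (N * q)) →+ B}
    (hcompat : Compat (N * q) q ξ ξ') :
    ∃ (Φ : Additive (Gamma0 N) →+ B) (χ : ZMod q → B),
      (∀ x y : ZMod q, x ≠ 0 → y ≠ 0 → χ (x * y) = χ x + χ y) ∧
      ∀ η : Gamma0 (N * q),
        ξ' (Additive.ofMul η) = val Φ (η : SL(2, ℤ)).1 + χ ((η : SL(2, ℤ)) 0 0) ∧
        ξ (Additive.ofMul η) = val Φ (upM q (η : SL(2, ℤ)).1) + χ ((η : SL(2, ℤ)) 0 0) := by
  classical
  obtain ⟨Φ, hΦ⟩ := exists_hom_eq_on_ker hp2 hpq hqN hB hcompat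
  -- the two defects
  let δ' : M2 → B := fun η => val ξ' η - val Φ η
  let δ : M2 → B := fun η => val ξ η - val Φ (upM q η)
  have hδ'mul : ∀ m n : M2, m.det = 1 → Adm0 (N * q) m → n.det = 1 → Adm0 (N * q) n →
      δ' (m * n) = δ' m + δ' n := fun m n hm hma hn hna => by
    simp only [δ', val_mul ξ' hm hma hn hna,
      val_mul Φ hm (adm0_of_adm0_mul hm hma) hn (adm0_of_adm0_mul hn hna)]
    abel
  have hδmul : ∀ m n : M2, m.det = 1 → Adm0 (N * q) m → n.det = 1 → Adm0 (N * q) n →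
      δ (m * n) = δ m + δ n := fun m n hm hma hn hna => by
    have hm' := adm0_upM hm ((ZMod.intCast_zmod_eq_zero_iff_dvd _ _).mp hma.1)
    have hn' := adm0_upM hn ((ZMod.intCast_zmod_eq_zero_iff_dvd _ _).mp hna.1)
    simp only [δ, val_mul ξ hm hma hn hna,
      upM_mul (dvd_lower_of_adm0 hma) (dvd_lower_of_adm0 hna), val_mul Φ hm'.2 hm'.1 hn'.2 hn'.1]
    abel
  have hδ'1 : ∀ m : M2, m.det = 1 → Adm0 (N * q) m → ((m 0 0 : ℤ) : ZMod q) = 1 → δ' m = 0 :=
    fun m hm hma ha => sub_eq_zero.mpr (val_eq_of_upperLeft_one hpq hqN hB hΦ hm hma ha)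
  have hδ1 : ∀ m : M2, m.det = 1 → Adm0 (N * q) m → ((m 0 0 : ℤ) : ZMod q) = 1 → δ m = 0 :=
    fun m hm hma ha =>
      sub_eq_zero.mpr (val_eq_upM_of_upperLeft_one hpq hqN hB hcompat hΦ hm hma ha)
  -- both are the same character of the upper left entry
  let χ : ZMod q → B := fun x =>
    if hx : x ≠ 0 then δ' ((exists_witness hqN hx).choose : SL(2, ℤ)).1 else 0
  have hχ' : ∀ m : M2, m.det = 1 → Adm0 (N * q) m → δ' m = χ (m 0 0 : ℤ) := by
    intro m hm hma
    have hne := upperLeft_ne_zero hm hma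
    simp only [χ, dif_pos hne]
    obtain ⟨h1, -, h3⟩ := (exists_witness hqN hne).choose_spec
    exact eq_of_upperLeft_eq δ' hδ'mul hδ'1 hm hma
      ((exists_witness hqN hne).choose : SL(2, ℤ)).2 h1 h3.symm
  have hχ : ∀ m : M2, m.det = 1 → Adm0 (N * q) m → δ m = χ (m 0 0 : ℤ) := by
    intro m hm hma
    have hne := upperLeft_ne_zero hm hma
    obtain ⟨h1, h2, h3⟩ := (exists_witness hqN hne).choose_spec
    simp only [χ, dif_pos hne]
    generalize (exists_witness hqN hne).choose = k at h1 h2 h3 ⊢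
    obtain ⟨η, hη, hηa, hup, hη0⟩ := exists_upM_eq k h2
    rw [eq_of_upperLeft_eq δ hδmul hδ1 hm hma hη hηa (by rw [hη0, h3])]
    simp only [δ, δ', hup]
    rw [val_eq_of_upM hqN hcompat
      ((ZMod.intCast_zmod_eq_zero_iff_dvd _ _).mpr (dvd_lower_of_adm0 h1)) hη hηa hup]
  refine ⟨Φ, χ, fun x y hx hy => ?_, fun η => ⟨?_, ?_⟩⟩
  · obtain ⟨k, hk, -, hkx⟩ := exists_witness hqN hx
    obtain ⟨k', hk', -, hky⟩ := exists_witness hqN hy
    have h1 := hδ'mul _ _ (k : SL(2, ℤ)).2 hk (k' : SL(2, ℤ)).2 hk'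
    rw [hχ' _ (by rw [det_mul, (k : SL(2, ℤ)).2, (k' : SL(2, ℤ)).2, one_mul]) (hk.mul hk'),
      hχ' _ (k : SL(2, ℤ)).2 hk, hχ' _ (k' : SL(2, ℤ)).2 hk', mul_apply, Fin.sum_univ_two] at h1
    push_cast at h1
    rw [(ZMod.intCast_zmod_eq_zero_iff_dvd _ _).mpr (dvd_lower_of_adm0 hk'), mul_zero, add_zero,
      hkx, hky] at h1
    exact h1
  · have := hχ' _ (η : SL(2, ℤ)).2 (adm0_of_mem η)
    simp only [δ', val_coe] at this
    rw [← this]; abel
  · have := hχ _ (η : SL(2, ℤ)).2 (adm0_of_mem η)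
    simp only [δ, val_coe] at this
    rw [← this]; abel

end Fermat.Agent.IharaH1
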