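import Mathlib.LinearAlgebra.Matrix.SpecialLinearGroup
import Mathlib.LinearAlgebra.Matrix.Determinant.Misc
import Mathlib.LinearAlgebra.Matrix.ToLinearEquiv
import Mathlib.FieldTheory.IsAlgClosed.AlgebraicClosure
import Mathlib.GroupTheory.PGroup
import Mathlib.RingTheory.IntegralDomain
import Mathlib.Data.ZMod.Basic
import Mathlib.Tactic.LinearCombination

/-!
# Finite `p`-subgroups of `SL₂` of a field

`isCyclic_of_isPGroup_SL2`: for an odd prime `p` different from the characteristic, a finite
`p`-subgroup of `SL₂` of a field is cyclic.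
-/

set_option autoImplicit false

open Matrix

namespace Fermat.Agent.IharaH1

variable {F : Type*} [Field F]

/-- A finite `p`-group inside `SL₂(F)`, `p` odd and invertible in `F`, is cyclic. -/
theorem isCyclic_of_isPGroup_SL2 {G : Type*} [Group G] [Finite G] {p : ℕ} [hp : Fact p.Prime]
    (hp2 : p ≠ 2) (hpF : (p : F) ≠ 0) (hG : IsPGroup p G)
    (ρ : G →* Matrix.SpecialLinearGroup (Fin 2) F) (hρ : Function.Injective ρ) : IsCyclic G := by
  rcases subsingleton_or_nontrivial G with h | h
  · exact isCyclic_of_subsingleton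
  let K := AlgebraicClosure F
  let R : G →* Matrix.SpecialLinearGroup (Fin 2) K :=
    (Matrix.SpecialLinearGroup.map (algebraMap F K)).comp ρ
  have hR : Function.Injective R := fun a b hab => hρ (by
    ext i j
    have := congrArg (fun s : Matrix.SpecialLinearGroup (Fin 2) K => s i j) hab
    exact (algebraMap F K).injective this)
  have hpK : (p : K) ≠ 0 := by
    rw [← map_natCast (algebraMap F K)]; exact (map_ne_zero _).mpr hpF
  -- an element of `R G` of trace two is the identity
  have hunip : ∀ g : G, (R g).1 0 0 + (R g).1 1 1 = 2 → g = 1 := by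
    intro g hg
    obtain ⟨k, hk⟩ := hG g
    set n : Matrix (Fin 2) (Fin 2) K := (R g).1 - 1 with hn
    have hn2 : n * n = 0 := by
      have hd := (R g).2
      rw [det_fin_two] at hd
      ext i j
      rw [hn]
      fin_cases i <;> fin_cases j <;>
        simp [Matrix.mul_apply, Fin.sum_univ_two]
      · linear_combination (R g).1 0 0 * hg - hd
      · linear_combination (R g).1 0 1 * hg
      · linear_combination (R g).1 1 0 * hg
      · linear_combination (R g).1 1 1 * hg - hd
    have hpow : ∀ m : ℕ, (R g).1 ^ m = 1 + (m : K) • n := by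
      intro m
      induction m with
      | zero => simp
      | succ m ih =>
        rw [pow_succ, ih, show (R g).1 = 1 + n by rw [hn]; abel, add_mul, one_mul, mul_add, mul_one,
          Matrix.smul_mul, hn2, smul_zero, add_zero, Nat.cast_succ, add_smul, one_smul]
        abel
    have h1 : (R g).1 ^ p ^ k = 1 := by
      rw [← Matrix.SpecialLinearGroup.coe_pow, ← map_pow, hk, map_one]; rfl
    rw [hpow, add_eq_left, smul_eq_zero, Nat.cast_pow, pow_eq_zero_iff'] at h1
    refine hR ?_
    rw [map_one]
    refine Subtype.ext ?_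
    rcases h1 with h1 | h1
    · exact absurd h1.1 hpK
    · rw [hn, sub_eq_zero] at h1; exact h1
  -- a central element different from one
  have := hG.center_nontrivial
  obtain ⟨⟨z, hz⟩, hz1⟩ := exists_ne (1 : Subgroup.center G)
  have hz1' : z ≠ 1 := fun h => hz1 (Subtype.ext h)
  set Z := (R z).1 with hZ
  obtain ⟨μ, hμ⟩ : ∃ μ : K, (Z - μ • 1).det = 0 := by
    obtain ⟨μ, hμ⟩ := IsAlgClosed.exists_root Z.charpoly (by
      rw [Matrix.charpoly_degree_eq_dim]; simp)
    refine ⟨μ, ?_⟩
    rw [Polynomial.IsRoot, Matrix.eval_charpoly] at hμ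
    have : Z - μ • 1 = -(Matrix.scalar (Fin 2) μ - Z) := by
      rw [neg_sub, Matrix.smul_one_eq_diagonal]; rfl
    rw [this, Matrix.det_neg, hμ, mul_zero]
  obtain ⟨v, hv0, hv⟩ := Matrix.exists_mulVec_eq_zero_iff.mpr hμ
  rw [Matrix.sub_mulVec, Matrix.smul_mulVec, Matrix.one_mulVec, sub_eq_zero] at hv
  -- every element preserves the eigenline
  have hline : ∀ g : G, ∃ c : K, (R g).1 *ᵥ v = c • v := by
    intro g
    set w := (R g).1 *ᵥ v with hw
    have hw' : Z *ᵥ w = μ • w := by
      rw [hw, Matrix.mulVec_mulVec, hZ, ← Matrix.SpecialLinearGroup.coe_mul, ← map_mul,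
        ← (Subgroup.mem_center_iff.mp hz g), map_mul, Matrix.SpecialLinearGroup.coe_mul,
        ← Matrix.mulVec_mulVec, ← hZ, hv, Matrix.mulVec_smul]
    by_cases hd : v 0 * w 1 - v 1 * w 0 = 0
    · by_cases hv00 : v 0 = 0
      · have hv1 : v 1 ≠ 0 := fun h1 => hv0 (by ext i; fin_cases i <;> assumption)
        refine ⟨w 1 / v 1, ?_⟩
        ext i; fin_cases i
        · simp [hv00]
          rw [hv00] at hd
          simpa [hv1] using hd
        · simp [div_mul_cancel₀ _ hv1]
      · refine ⟨w 0 / v 0, ?_⟩
        ext i; fin_cases i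
        · simp [div_mul_cancel₀ _ hv00]
        · simp
          rw [div_mul_eq_mul_div, eq_div_iff hv00]
          linear_combination hd
    · exfalso
      have e : ∀ i j : Fin 2, Z i j = (μ • (1 : Matrix (Fin 2) (Fin 2) K)) i j := by
        have a0 := congrFun hv 0
        have a1 := congrFun hv 1
        have b0 := congrFun hw' 0
        have b1 := congrFun hw' 1
        simp [Matrix.mulVec, dotProduct, Fin.sum_univ_two] at a0 a1 b0 b1
        have c00 : (Z 0 0 - μ) * (v 0 * w 1 - v 1 * w 0) = 0 := by
          linear_combination w 1 * a0 - v 1 * b0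
        have c01 : Z 0 1 * (v 0 * w 1 - v 1 * w 0) = 0 := by
          linear_combination v 0 * b0 - w 0 * a0
        have c10 : Z 1 0 * (v 0 * w 1 - v 1 * w 0) = 0 := by
          linear_combination w 1 * a1 - v 1 * b1
        have c11 : (Z 1 1 - μ) * (v 0 * w 1 - v 1 * w 0) = 0 := by
          linear_combination v 0 * b1 - w 0 * a1
        intro i j
        fin_cases i <;> fin_cases j <;> simp
        · exact sub_eq_zero.mp ((mul_eq_zero.mp c00).resolve_right hd)
        · exact (mul_eq_zero.mp c01).resolve_right hd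
        · exact (mul_eq_zero.mp c10).resolve_right hd
        · exact sub_eq_zero.mp ((mul_eq_zero.mp c11).resolve_right hd)
      have e00 := e 0 0; have e01 := e 0 1; have e10 := e 1 0; have e11 := e 1 1
      simp at e00 e01 e10 e11
      have hdz := (R z).2
      rw [det_fin_two, ← hZ, e00, e01, e10, e11] at hdz
      have hμ1 : (μ - 1) * (μ + 1) = 0 := by linear_combination hdz
      have hsq : z * z = 1 := by
        refine hunip _ ?_
        rw [map_mul, Matrix.SpecialLinearGroup.coe_mul]
        simp only [Matrix.mul_apply, Fin.sum_univ_two, ← hZ, e00, e01, e10, e11]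
        linear_combination 2 * hμ1
      obtain ⟨k, hk⟩ := hG z
      have hodd : Odd (p ^ k) := (hp.out.odd_of_ne_two hp2).pow
      obtain ⟨j, hj⟩ := hodd
      rw [hj, pow_succ, pow_mul, pow_two, hsq, one_pow, one_mul] at hk
      exact hz1' hk
  choose c hc using hline
  have huniq : ∀ a b : K, a • v = b • v → a = b := fun a b h => smul_left_injective K hv0 h
  let χ : G →* K :=
    { toFun := c
      map_one' := huniq _ _ (by rw [← hc, map_one, one_smul]; exact Matrix.one_mulVec v)
      map_mul' := fun a b => huniq _ _ (by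
        rw [← hc, map_mul, Matrix.SpecialLinearGroup.coe_mul, ← Matrix.mulVec_mulVec, hc b,
          Matrix.mulVec_smul, hc a, smul_smul, mul_comm]) }
  refine isCyclic_of_injective_ringHom χ fun a b hab => ?_
  have h1 : χ (a⁻¹ * b) = 1 := by rw [map_mul, ← hab, ← map_mul, inv_mul_cancel, map_one]
  have h2 : (R (a⁻¹ * b)).1 *ᵥ v = v := by
    rw [hc]; show χ (a⁻¹ * b) • v = v; rw [h1, one_smul]
  refine (inv_mul_eq_one.mp (hunip _ ?_))
  set M := (R (a⁻¹ * b)).1 with hM
  have hdet : (M - 1).det = 0 := Matrix.exists_mulVec_eq_zero_iff.mp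
    ⟨v, hv0, by rw [Matrix.sub_mulVec, h2, Matrix.one_mulVec, sub_self]⟩
  have hdM := (R (a⁻¹ * b)).2
  rw [det_fin_two] at hdet hdM
  simp at hdet
  linear_combination -hdet + hdM

end Fermat.Agent.IharaH1
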