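import Fermat.Agent.IharaH1.Edge
import Mathlib.Algebra.Group.Nat.Even

/-!
# Gluing a compatible pair: the potential on matrices of `q`-power determinant

A compatible pair `f₀, f₁` on `Γ₀(N)` gives `potential k m` on admissible matrices of determinant
`q ^ k`, which is `f₀` for `k = 0`, equivariant on the right, invariant under multiplication by `q`
and multiplicative. This is the elementary form of `SL₂(ℤ[1/q]) = SL₂(ℤ) * SL₂(ℤ)`.
-/

set_option autoImplicit false

open Matrix CongruenceSubgroup
open scoped MatrixGroups OnePoint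

namespace Fermat.Agent.IharaH1

variable {N q : ℕ} {A : Type*} [AddCommGroup A]

/-- The parity of `k`, the type of a vertex at distance `k` from the base. -/
def parity (k : ℕ) : Bool := decide (Odd k)

theorem parity_zero : parity 0 = false := by simp [parity]

theorem parity_succ (k : ℕ) : parity (k + 1) = !parity k := by
  unfold parity
  by_cases h : Odd k
  · simp [h, Nat.odd_add_one]
  · simp [h, Nat.odd_add_one]

theorem parity_add_two (k : ℕ) : parity (k + 2) = parity k := by
  rw [parity_succ (k + 1), parity_succ, Bool.not_not]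

theorem parity_two_mul_add (n k : ℕ) : parity (2 * n + k) = parity k := by
  induction n with
  | zero => simp
  | succ n ih => rw [show 2 * (n + 1) + k = 2 * n + k + 2 by ring, parity_add_two, ih]

variable (N q)

open Classical in
/-- One step: strip a representative from the right. -/
noncomputable def stepDown (P : M2 → A) (E : M2 → A) (m : M2) : A :=
  if h : ∃ (x : GroupH1.HIdx N q) (n : M2),
    m = n * GroupH1.repInt N q x.1 ∧ Adm0 N n then
      P h.choose_spec.choose + E (GroupH1.repInt N q h.choose.1) else 0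

open Classical in
/-- The potential. -/
noncomputable def potential (f₀ : Additive (Gamma0 N) →+ A) (E : Bool → M2 → A) : ℕ → M2 → A
  | 0 => val f₀
  | 1 => stepDown N q (val f₀) (E false)
  | k + 2 => fun m => if ∀ i j, (q : ℤ) ∣ m i j then potential f₀ E k (m.map (fun a => a / (q : ℤ)))
      else stepDown N q (potential f₀ E (k + 1)) (E (parity (k + 1))) m

variable {N q}

variable [hq : Fact q.Prime]

/-- The factorisation of a `q`-primitive matrix through a representative is unique. -/
theorem rep_unique {n n' : M2} {x x' : GroupH1.HIdx N q}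
    (hm : ¬ ∀ i j, (q : ℤ) ∣ (n * GroupH1.repInt N q x.1) i j)
    (h : n * GroupH1.repInt N q x.1 = n' * GroupH1.repInt N q x'.1) : x = x' ∧ n = n' := by
  have hx : x = x' := by
    by_contra hne
    apply hm
    obtain ⟨x, hxx⟩ := x
    obtain ⟨x', hxx'⟩ := x'
    have hz : ∀ i k : Fin 2, (((n * GroupH1.repInt N q x) i k : ℤ) : ZMod q)
        = ((n' * GroupH1.repInt N q x') i k : ℤ) := fun i k => by rw [h]
    have col : ∀ (a : M2) (y : OnePoint (ZMod q)) (i : Fin 2),
        (y = ∞ → ((a * GroupH1.repInt N q y) i 0 : ℤ) = (0 : ZMod q)) ∧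
        (∀ j : ZMod q, y = j → ((a * GroupH1.repInt N q y) i 1 : ℤ) =
          j * (((a * GroupH1.repInt N q y) i 0 : ℤ) : ZMod q)) := by
      intro a y i
      refine ⟨fun hy => ?_, fun j hy => ?_⟩ <;> subst hy
      · simp [GroupH1.repInt_infty, mul_apply, Fin.sum_univ_two]
      · simp [GroupH1.repInt_coe, mul_apply, Fin.sum_univ_two, mul_comm]
    have zero : ∀ i : Fin 2, (((n * GroupH1.repInt N q x) i 0 : ℤ) : ZMod q) = 0 ∧
        (((n * GroupH1.repInt N q x) i 1 : ℤ) : ZMod q) = 0 := by
      intro i
      cases x using OnePoint.rec with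
      | infty =>
        cases x' using OnePoint.rec with
        | infty => exact absurd rfl hne
        | coe j =>
          have h0 := (col n ∞ i).1 rfl
          exact ⟨h0, by rw [hz, (col n' _ i).2 j rfl, ← hz, h0, mul_zero]⟩
      | coe j =>
        cases x' using OnePoint.rec with
        | infty =>
          have h0 := (col n' ∞ i).1 rfl
          rw [← hz] at h0
          exact ⟨h0, by rw [(col n _ i).2 j rfl, h0, mul_zero]⟩
        | coe j' =>
          have hjj : j ≠ j' := fun e => hne (by subst e; rfl)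
          have e1 := (col n _ i).2 j rfl
          have e2 := (col n' _ i).2 j' rfl
          rw [← hz, ← hz, e1] at e2
          have h0 := (mul_eq_mul_right_iff.mp e2).resolve_left hjj
          exact ⟨h0, by rw [e1, h0, mul_zero]⟩
    intro i k
    rw [← ZMod.intCast_zmod_eq_zero_iff_dvd]
    fin_cases k
    · exact (zero i).1
    · exact (zero i).2
  refine ⟨hx, ?_⟩
  subst hx
  have h2 := congrArg (fun Z => Z * (GroupH1.repInt N q x.1).adjugate) h
  simp only [mul_assoc, Matrix.mul_adjugate, GroupH1.det_repInt, Matrix.mul_smul, mul_one] at h2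
  exact smul_right_injective _ (Int.natCast_ne_zero.2 hq.out.ne_zero) h2

theorem stepDown_eq (P E : M2 → A) {m n : M2} {x : GroupH1.HIdx N q}
    (hm : ¬ ∀ i j, (q : ℤ) ∣ m i j) (h : m = n * GroupH1.repInt N q x.1) (hn : Adm0 N n) :
    stepDown N q P E m = P n + E (GroupH1.repInt N q x.1) := by
  classical
  have he : ∃ (x : GroupH1.HIdx N q) (n : M2), m = n * GroupH1.repInt N q x.1 ∧ Adm0 N n :=
    ⟨x, n, h, hn⟩
  rw [stepDown, dif_pos he]
  obtain ⟨h1, -⟩ := he.choose_spec.choose_spec
  obtain ⟨e1, e2⟩ := rep_unique (by rw [← h]; exact hm) (h.symm.trans h1)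
  rw [← e2, ← e1]

variable (hqN : ¬ q ∣ N) {f₀ f₁ : Additive (Gamma0 N) →+ A} (E : Bool → M2 → A)

include hqN

omit hqN in
/-- The potential does not change under scaling by `q`. -/
theorem potential_q_smul (k : ℕ) (m : M2) :
    potential N q f₀ E (k + 2) ((q : ℤ) • m) = potential N q f₀ E k m := by
  rw [potential]; simp only
  rw [if_pos (fun i j => ⟨m i j, by rw [Matrix.smul_apply, smul_eq_mul]⟩)]
  congr 1
  ext i j
  rw [Matrix.map_apply, Matrix.smul_apply, smul_eq_mul,
    Int.mul_ediv_cancel_left _ (Int.natCast_ne_zero.2 hq.out.ne_zero)]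

theorem adm0_of_smul {m : M2} (h : Adm0 N ((q : ℤ) • m)) : Adm0 N m := by
  rw [adm0_iff] at h ⊢
  simp only [Matrix.smul_apply, smul_eq_mul, Int.cast_mul, Int.cast_natCast] at h
  exact ⟨(isUnit_q hqN).mul_right_eq_zero.mp h.1, isUnit_of_mul_isUnit_right h.2⟩

theorem exists_smul_of_dvd {m : M2} {k : ℕ} (hd : m.det = (q : ℤ) ^ k) (ha : Adm0 N m)
    (hall : ∀ i j, (q : ℤ) ∣ m i j) :
    ∃ (j : ℕ) (m' : M2), k = j + 2 ∧ m = (q : ℤ) • m' ∧ m'.det = (q : ℤ) ^ j ∧ Adm0 N m' := by
  choose f hf using hall
  have hm : m = (q : ℤ) • Matrix.of f := by ext i j; simpa using hf i j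
  have hdet : (q : ℤ) ^ 2 * (Matrix.of f).det = (q : ℤ) ^ k := by
    rw [← hd, hm, Matrix.det_smul]; rfl
  have hk : 2 ≤ k := by
    by_contra hk
    obtain rfl | rfl : k = 0 ∨ k = 1 := by omega
    · rw [pow_zero] at hdet
      exact (Nat.prime_iff_prime_int.mp hq.out).not_isUnit
        (isUnit_of_dvd_one ⟨(q : ℤ) * (Matrix.of f).det, by linear_combination -hdet⟩)
    · have := mul_left_cancel₀ (Int.natCast_ne_zero.2 hq.out.ne_zero)
        (show (q : ℤ) * ((q : ℤ) * (Matrix.of f).det) = (q : ℤ) * 1 by linear_combination hdet)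
      exact (Nat.prime_iff_prime_int.mp hq.out).not_isUnit (isUnit_of_dvd_one ⟨_, this.symm⟩)
  obtain ⟨j, rfl⟩ : ∃ j, k = j + 2 := ⟨k - 2, by omega⟩
  refine ⟨j, _, rfl, hm, ?_, adm0_of_smul hqN (hm ▸ ha)⟩
  exact mul_left_cancel₀ (pow_ne_zero 2 (Int.natCast_ne_zero.2 hq.out.ne_zero))
    (hdet.trans (by ring))

omit hqN in
theorem potential_of_not_dvd {k : ℕ} {m n : M2} {x : GroupH1.HIdx N q}
    (hm : ¬ ∀ i j, (q : ℤ) ∣ m i j) (h : m = n * GroupH1.repInt N q x.1) (hn : Adm0 N n) :
    potential N q f₀ E (k + 1) m =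
      potential N q f₀ E k n + E (parity k) (GroupH1.repInt N q x.1) := by
  cases k with
  | zero =>
    show stepDown N q (val f₀) (E false) m = _
    rw [stepDown_eq _ _ hm h hn, parity_zero]; rfl
  | succ k => rw [potential]; simp only; rw [if_neg hm, stepDown_eq _ _ hm h hn]

variable (hE : ∀ s : Bool,
      (∀ α y β : M2, α.det = 1 → Adm0 N α → y.det = q → Adm0 N y → β.det = 1 → Adm0 N β →
        E s (α * y * β) = val (cond s f₁ f₀) α + E s y + val (cond s f₀ f₁) β) ∧
      (∀ y : M2, y.det = q → Adm0 N y → E s y + E (!s) y.adjugate = 0))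

include hE

/-- Right equivariance and compatibility with the edge functions. -/
theorem potential_aux : ∀ k : ℕ, ∀ m : M2, m.det = (q : ℤ) ^ k → Adm0 N m →
    (∀ γ : M2, γ.det = 1 → Adm0 N γ → potential N q f₀ E k (m * γ) =
      potential N q f₀ E k m + val (cond (parity k) f₁ f₀) γ) ∧
    (∀ y : M2, y.det = q → Adm0 N y → potential N q f₀ E (k + 1) (m * y) =
      potential N q f₀ E k m + E (parity k) y) := by
  intro k
  induction k using Nat.strong_induction_on with
  | _ k IH => ?_
  intro m hd ha
  have hR : ∀ m : M2, m.det = (q : ℤ) ^ k → Adm0 N m → ∀ γ : M2, γ.det = 1 → Adm0 N γ →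
      potential N q f₀ E k (m * γ) =
        potential N q f₀ E k m + val (cond (parity k) f₁ f₀) γ := by
    intro m hd ha γ hγ hγ'
    cases k with
    | zero =>
      rw [pow_zero] at hd
      rw [potential, parity_zero, cond_false, val_mul f₀ hd ha hγ hγ']
    | succ k =>
      by_cases hall : ∀ i j, (q : ℤ) ∣ m i j
      · obtain ⟨j, m', hj, rfl, hd', ha'⟩ := exists_smul_of_dvd hqN hd ha hall
        rw [hj, Matrix.smul_mul, potential_q_smul E, potential_q_smul E, parity_add_two]
        exact (IH j (by omega) m' hd' ha').1 γ hγ hγ'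
      · obtain ⟨x, n, hn, hn'⟩ := GroupH1.exists_eq_mul_repInt (ℓ := q) ha
          (by rw [hd, pow_succ]; exact dvd_mul_left _ _)
        have hnd : n.det = (q : ℤ) ^ k := by
          rw [hn, det_mul, GroupH1.det_repInt, pow_succ] at hd
          exact mul_right_cancel₀ (Int.natCast_ne_zero.2 hq.out.ne_zero) hd
        obtain ⟨hEeq, -⟩ := hE (parity k)
        obtain ⟨x', c, hc, hc'⟩ := GroupH1.exists_eq_mul_repInt (ℓ := q)
          ((GroupH1.adm_repInt (H := ⊤) x).mul hγ')
          (by rw [det_mul, GroupH1.det_repInt, hγ, mul_one])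
        have hcd : c.det = 1 := by
          have := congrArg Matrix.det hc
          rw [det_mul, det_mul, GroupH1.det_repInt, GroupH1.det_repInt, hγ, mul_one] at this
          exact mul_right_cancel₀ (Int.natCast_ne_zero.2 hq.out.ne_zero)
            (this.symm.trans (one_mul _).symm)
        have hprim : ¬ ∀ i j, (q : ℤ) ∣ (m * γ) i j := fun hh => hall fun i j => by
          have : m = (m * γ) * γ.adjugate := by rw [mul_assoc, mul_adjugate_one hγ, mul_one]
          rw [this, mul_apply]
          exact Finset.dvd_sum fun l _ => dvd_mul_of_dvd_left (hh i l) _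
        rw [potential_of_not_dvd E (n := n * c) (x := x') hprim
            (by rw [hn, mul_assoc, hc, ← mul_assoc]) (hn'.mul hc'),
          potential_of_not_dvd E hall hn hn', (IH k (by omega) n hnd hn').1 c hcd hc',
          parity_succ]
        have h1 := hEeq c (GroupH1.repInt N q x'.1) 1 hcd hc' (GroupH1.det_repInt x')
          (GroupH1.adm_repInt x') (by simp) GroupH1.adm_one
        have h2 := hEeq 1 (GroupH1.repInt N q x.1) γ (by simp) GroupH1.adm_one
          (GroupH1.det_repInt x) (GroupH1.adm_repInt x) hγ hγ'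
        rw [mul_one, val_one, add_zero] at h1
        rw [one_mul, val_one, zero_add, hc, h1] at h2
        rw [show cond (!parity k) f₁ f₀ = cond (parity k) f₀ f₁ by cases parity k <;> rfl,
          add_assoc, add_assoc, h2]
  refine ⟨hR m hd ha, fun y hy hy' => ?_⟩
  by_cases hall : ∀ i j, (q : ℤ) ∣ (m * y) i j
  · obtain ⟨j, m', hj, hm', hd', ha'⟩ := exists_smul_of_dvd hqN (k := k + 1)
      (by rw [det_mul, hd, hy, pow_succ]) (ha.mul hy') hall
    obtain rfl : k = j + 1 := by omega
    have hm : m = m' * y.adjugate := by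
      refine smul_right_injective M2 (Int.natCast_ne_zero.2 hq.out.ne_zero) ?_
      show (q : ℤ) • m = (q : ℤ) • (m' * y.adjugate)
      rw [← Matrix.smul_mul, ← hm', mul_assoc, Matrix.mul_adjugate, hy, Matrix.mul_smul, mul_one]
    rw [hm', potential_q_smul E, hm,
      (IH j (by omega) m' hd' ha').2 y.adjugate (by rw [det_adjugate, hy]; simp)
        (adm0_adjugate (by simpa [hy] using isUnit_q hqN) hy'), parity_succ]
    have := (hE (parity j)).2 y.adjugate (by rw [det_adjugate, hy]; simp)
      (adm0_adjugate (by simpa [hy] using isUnit_q hqN) hy')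
    rw [adjugate_adjugate _ (by simp), show y.det ^ (Fintype.card (Fin 2) - 2) = 1 by simp,
      one_smul] at this
    rw [add_assoc, this, add_zero]
  · obtain ⟨x, c, hc, hc'⟩ := GroupH1.exists_eq_mul_repInt (ℓ := q) hy' (by rw [hy])
    have hcd : c.det = 1 := by
      rw [hc, det_mul, GroupH1.det_repInt] at hy
      exact mul_right_cancel₀ (Int.natCast_ne_zero.2 hq.out.ne_zero) (by rw [hy, one_mul])
    rw [potential_of_not_dvd E (n := m * c) (x := x) hall (by rw [hc, mul_assoc]) (ha.mul hc'),
      hR m hd ha c hcd hc']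
    have h1 := (hE (parity k)).1 c (GroupH1.repInt N q x.1) 1 hcd hc' (GroupH1.det_repInt x)
      (GroupH1.adm_repInt x) (by simp) GroupH1.adm_one
    rw [mul_one, val_one, add_zero, ← hc] at h1
    rw [h1, add_assoc]

/-- Multiplicativity. -/
theorem potential_mul (a : ℕ) {m : M2} (hm : m.det = (q : ℤ) ^ (2 * a)) (hma : Adm0 N m) :
    ∀ k : ℕ, ∀ n : M2, n.det = (q : ℤ) ^ k → Adm0 N n →
      potential N q f₀ E (2 * a + k) (m * n) =
        potential N q f₀ E (2 * a) m + potential N q f₀ E k n := by
  intro k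
  induction k using Nat.strong_induction_on with
  | _ k IH => ?_
  intro n hd ha
  cases k with
  | zero =>
    rw [pow_zero] at hd
    rw [add_zero, (potential_aux hqN E hE _ m hm hma).1 n hd ha]
    have : parity (2 * a) = false := by simpa [parity_zero] using parity_two_mul_add a 0
    rw [this, cond_false, potential]
  | succ k =>
    by_cases hall : ∀ i j, (q : ℤ) ∣ n i j
    · obtain ⟨j, n', hj, rfl, hd', ha'⟩ := exists_smul_of_dvd hqN hd ha hall
      rw [hj, Matrix.mul_smul, ← add_assoc, potential_q_smul E, potential_q_smul E]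
      exact IH j (by omega) n' hd' ha'
    · obtain ⟨x, c, hc, hc'⟩ := GroupH1.exists_eq_mul_repInt (ℓ := q) ha
        (by rw [hd, pow_succ]; exact dvd_mul_left _ _)
      have hcd : c.det = (q : ℤ) ^ k := by
        rw [hc, det_mul, GroupH1.det_repInt, pow_succ] at hd
        exact mul_right_cancel₀ (Int.natCast_ne_zero.2 hq.out.ne_zero) hd
      rw [potential_of_not_dvd E hall hc hc', hc, ← mul_assoc, ← add_assoc,
        (potential_aux hqN E hE _ (m * c) (by rw [det_mul, hm, hcd, ← pow_add]) (hma.mul hc')).2 _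
          (GroupH1.det_repInt x) (GroupH1.adm_repInt x), IH k (by omega) c hcd hc',
        parity_two_mul_add, add_assoc]

end Fermat.Agent.IharaH1
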