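import Fermat.Agent.GroupH1.HeckeMod
import Fermat.Prelude.Thm_IsAdicComplete_of_module_finite
import Mathlib.RingTheory.OrzechProperty
import Mathlib.RingTheory.Nakayama

/-!
# The unit root of `X² - T X + c` on a finite module over a complete local ring

`T` is bijective and `c` in the maximal ideal; the small root is a limit of polynomials in `T`.
-/

set_option autoImplicit false

noncomputable section

open IsLocalRing

namespace Fermat.Agent.IharaH1

variable {O : Type} [CommRing O] [IsLocalRing O] [IsNoetherianRing O]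
  {V : Type} [AddCommGroup V] [Module O V] [Module.Finite O V]

variable [IsAdicComplete (maximalIdeal O) O]

/-- **The small root.** It lies in every submodule containing the approximations. -/
theorem exists_smallRoot {T t : Module.End O V} (hTt : T * t = 1) {c : O}
    (hc : c ∈ maximalIdeal O) :
    ∃ b : Module.End O V, (∀ x, T (b x) = b (b x) + c • x) ∧
      (∀ x, b x ∈ maximalIdeal O • (⊤ : Submodule O V)) ∧
      ∀ W : Submodule O (Module.End O V), (∀ g ∈ W, t * (g * g + c • 1) ∈ W) → b ∈ W := by
  classical
  have : IsNoetherian O (Module.End O V) := isNoetherian_of_isNoetherianRing_of_finite O _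
  have : Module.Finite O (Module.End O V) := ⟨IsNoetherian.noetherian ⊤⟩
  have hcomp : IsAdicComplete (maximalIdeal O) (Module.End O V) :=
    IsAdicComplete.of_module_finite _ _
  set I := maximalIdeal O
  -- the recursion
  let s : ℕ → (Module.End O V) := fun n =>
    Nat.rec (0 : (Module.End O V)) (fun _ b => t * (b * b + c • 1)) n
  have hs0 : s 0 = 0 := rfl
  have hsS : ∀ n, s (n + 1) = t * (s n * s n + c • 1) := fun n => rfl
  have mulL : ∀ (k : ℕ) (g x : (Module.End O V)), x ∈ (I ^ k • ⊤ : Submodule O (Module.End O V)) →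
      g * x ∈ (I ^ k • ⊤ : Submodule O (Module.End O V)) := fun k g x hx => by
    have h1 : g * x ∈ (I ^ k • ⊤ : Submodule O (Module.End O V)).map (LinearMap.mulLeft O g) :=
      ⟨x, hx, rfl⟩
    rw [Submodule.map_smul''] at h1
    exact Submodule.smul_mono le_rfl le_top h1
  have mulR : ∀ (k : ℕ) (g x : (Module.End O V)), x ∈ (I ^ k • ⊤ : Submodule O (Module.End O V)) →
      x * g ∈ (I ^ k • ⊤ : Submodule O (Module.End O V)) := fun k g x hx => by
    have h1 : x * g ∈ (I ^ k • ⊤ : Submodule O (Module.End O V)).map (LinearMap.mulRight O g) :=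
      ⟨x, hx, rfl⟩
    rw [Submodule.map_smul''] at h1
    exact Submodule.smul_mono le_rfl le_top h1
  have mulI : ∀ (j k : ℕ) (x y : (Module.End O V)), x ∈ (I ^ j • ⊤ : Submodule O (Module.End O V)) →
      y ∈ (I ^ k • ⊤ : Submodule O (Module.End O V)) →
        x * y ∈ (I ^ (j + k) • ⊤ : Submodule O (Module.End O V)) := by
    intro j k x y hx hy
    refine Submodule.smul_induction_on hx (fun r hr z _ => ?_) fun a b ha hb => ?_
    · rw [pow_add, Submodule.mul_smul, smul_mul_assoc]
      exact Submodule.smul_mem_smul hr (mulL k z y hy)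
    · rw [add_mul]; exact add_mem ha hb
  have hsmall : ∀ n, s n ∈ (I ^ 1 • ⊤ : Submodule O (Module.End O V)) := by
    intro n
    induction n with
    | zero => rw [hs0]; exact zero_mem _
    | succ n ih =>
      rw [hsS]
      refine mulL _ _ _ (add_mem (mulL _ _ _ ih) ?_)
      rw [pow_one]
      exact Submodule.smul_mem_smul hc trivial
  have hdiff : ∀ n, s (n + 1) - s n ∈ (I ^ (n + 1) • ⊤ : Submodule O (Module.End O V)) := by
    intro n
    induction n with
    | zero => rw [hs0, sub_zero]; exact hsmall 1
    | succ n ih =>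
      have e : s (n + 1 + 1) - s (n + 1) =
          t * (s (n + 1) * (s (n + 1) - s n) + (s (n + 1) - s n) * s n) := by
        conv_lhs => rw [hsS (n + 1)]
        conv_lhs => arg 2; rw [hsS n]
        noncomm_ring
      rw [e]
      refine mulL _ _ _ (add_mem ?_ (mulI _ _ _ _ ih (hsmall n)))
      rw [add_comm (n + 1) 1]
      exact mulI 1 (n + 1) _ _ (hsmall (n + 1)) ih
  have hcauchy : ∀ {m n : ℕ},
      m ≤ n → s m ≡ s n [SMOD (I ^ m • ⊤ : Submodule O (Module.End O V))] := by
    intro m n hmn
    induction n, hmn using Nat.le_induction with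
    | base => exact SModEq.rfl
    | succ n hmn ih =>
      refine ih.trans (SModEq.sub_mem.mpr ?_)
      rw [← neg_sub]
      exact neg_mem (Submodule.smul_mono_left (Ideal.pow_le_pow_right (by omega)) (hdiff n))
  obtain ⟨b, hb⟩ := IsPrecomplete.prec (inferInstance : IsPrecomplete I (Module.End O V)) hcauchy
  have hlim : ∀ m, b - s m ∈ (I ^ m • ⊤ : Submodule O (Module.End O V)) := fun m => by
    rw [← neg_sub]; exact neg_mem (SModEq.sub_mem.mp (hb m))
  have hzero : ∀ x : (Module.End O V), (∀ m, x ∈ (I ^ m • ⊤ : Submodule O (Module.End O V))) →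
      x = 0 := fun x hx =>
    IsHausdorff.haus (inferInstance : IsHausdorff I (Module.End O V)) x fun m =>
      SModEq.zero.mpr (hx m)
  have heq : T * b = b * b + c • 1 := by
    refine sub_eq_zero.mp (hzero _ fun m => ?_)
    have e : T * s (m + 1) = s m * s m + c • 1 := by rw [hsS, ← mul_assoc, hTt, one_mul]
    rw [show T * b - (b * b + c • 1) =
        T * (b - s (m + 1)) - (b * (b - s m) + (b - s m) * s m) by
      rw [mul_sub, e]; noncomm_ring]
    refine sub_mem (mulL _ _ _ ?_) (add_mem (mulL _ _ _ (hlim m)) (mulR _ _ _ (hlim m)))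
    exact Submodule.smul_mono_left (Ideal.pow_le_pow_right (by omega)) (hlim (m + 1))
  refine ⟨b, fun x => ?_, fun x => ?_, fun W hW => ?_⟩
  · exact LinearMap.congr_fun heq x
  · have h1 : b ∈ (I ^ 1 • ⊤ : Submodule O (Module.End O V)) := by
      have := add_mem (hlim 1) (hsmall 1)
      rwa [sub_add_cancel] at this
    have h2 : b x ∈ (I ^ 1 • ⊤ : Submodule O (Module.End O V)).map (LinearMap.applyₗ x) :=
      ⟨b, h1, rfl⟩
    rw [Submodule.map_smul'', pow_one] at h2
    exact Submodule.smul_mono le_rfl le_top h2
  · -- submodules are closed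
    have hsW : ∀ n, s n ∈ W := fun n => by
      induction n with
      | zero => exact zero_mem _
      | succ n ih => exact hW _ ih
    have : IsHausdorff I (Module.End O V ⧸ W) :=
      IsHausdorff.of_le_jacobson I _ (IsLocalRing.maximalIdeal_le_jacobson _)
    refine (Submodule.Quotient.mk_eq_zero W).mp
      (IsHausdorff.haus this _ fun m => SModEq.zero.mpr ?_)
    have h3 : W.mkQ b ∈ (I ^ m • ⊤ : Submodule O (Module.End O V)).map W.mkQ := by
      refine ⟨b - s m, hlim m, ?_⟩
      rw [map_sub, Submodule.mkQ_apply W (s m), (Submodule.Quotient.mk_eq_zero W).mpr (hsW m),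
        sub_zero]
    rw [Submodule.map_smul''] at h3
    exact Submodule.smul_mono le_rfl le_top h3

end Fermat.Agent.IharaH1

end
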