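import Fermat.Agent.IharaH1.StepPair
import Fermat.Agent.IharaH1.UnitRoot

/-!
# The step `N → N p` on localised Hecke modules

For `p ∤ N` and a residual system `a` with `a p ≠ 0`, a polynomial `α` with `α ≡ X p` modulo the
ideal of `a` is a root of `X² - T_p X + p` on the localised module. `locIP = α r₀ - r₁` carries
`U_p` to `α`; `locJP` goes back with `locJP ∘ locIP = α² - 1`, is surjective, and `locIP` is
injective modulo a uniformiser.
-/

set_option autoImplicit false

noncomputable section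

open IsLocalRing
open scoped MatrixGroups

namespace Fermat.Agent.IharaH1

open Fermat.Agent.GroupH1 (HeckePoly HMod toH eigIdeal LocM toLocM primeOf X_smul_toH C_smul
  toLocM_surjective exists_smul_inv smul_locM_eq_zero heckeSystem)

variable (N p : ℕ) [hp : Fact p.Prime] [NeZero N] (O : Type) [CommRing O]

/-- A degeneracy map on Hecke modules. -/
def degLin {d : ℕ} (hd : d ≠ 0) (hdvd : N * d ∣ N * p) :
    HMod N ⊤ O →ₗ[O] HMod (N * p) ⊤ O where
  toFun x := toH (degMap hd hdvd (toH.symm x))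
  map_add' x y := by simp
  map_smul' r x := by
    rw [map_smul, RingHom.id_apply, ← map_smul toH]
    exact congrArg toH (comp_degMap (DistribSMul.toAddMonoidHom O r) hd hdvd (toH.symm x)).symm

/-- Corestriction on Hecke modules. -/
def corLin : HMod (N * p) ⊤ O →ₗ[O] HMod N ⊤ O where
  toFun x := toH (corMap (NeZero.ne N) (toH.symm x))
  map_add' x y := by simp
  map_smul' r x := by
    rw [map_smul, RingHom.id_apply, ← map_smul toH]
    exact congrArg toH
      (comp_corMap (DistribSMul.toAddMonoidHom O r) (NeZero.ne N) (toH.symm x)).symm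

variable {N p O}

theorem comp_alMap {B C : Type*} [AddCommGroup B] [AddCommGroup C] (f : B →+ C) {M q : ℕ}
    [Fact q.Prime] (hqM : ¬ q ∣ M) (φ : H1 (M * q) B) :
    f.comp (alMap hqM φ) = alMap hqM (f.comp φ) :=
  GroupH1.DoubleSystem.comp_transfer _ f φ

/-- Corestriction after the Atkin-Lehner map on Hecke modules. -/
def corALin (hpN : ¬ p ∣ N) : HMod (N * p) ⊤ O →ₗ[O] HMod N ⊤ O where
  toFun x := toH (corMap (NeZero.ne N) (alMap hpN (toH.symm x)))
  map_add' x y := by simp
  map_smul' r x := by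
    rw [map_smul, RingHom.id_apply, ← map_smul toH]
    refine congrArg toH (Eq.trans ?_
      (comp_corMap (DistribSMul.toAddMonoidHom O r) (NeZero.ne N) _).symm)
    exact congrArg (corMap (NeZero.ne N))
      (comp_alMap (DistribSMul.toAddMonoidHom O r) hpN (toH.symm x)).symm

/-- `r₀ α - r₁` on Hecke modules. -/
def stepLin (α : HeckePoly O) : HMod N ⊤ O →ₗ[O] HMod (N * p) ⊤ O :=
  (degLin N p O (d := 1) one_ne_zero (by simp)).comp (Algebra.lsmul O O (HMod N ⊤ O) α) -
    degLin N p O hp.out.ne_zero dvd_rfl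

omit [NeZero N] in
theorem stepLin_apply (α : HeckePoly O) (x : HMod N ⊤ O) :
    stepLin (p := p) α x = degLin N p O (d := 1) one_ne_zero (by simp) (α • x) -
      degLin N p O hp.out.ne_zero dvd_rfl x := rfl

omit [NeZero N] in
/-- Degeneracy maps commute with the Hecke operators away from `p`. -/
theorem X_degLin {d : ℕ} (hd : d ≠ 0) (hdvd : N * d ∣ N * p) {r : Nat.Primes}
    (hr : r ≠ primeOf p) (hrd : ¬ (r : ℕ) ∣ d) (x : HMod N ⊤ O) :
    (MvPolynomial.X r : HeckePoly O) • degLin N p O hd hdvd x =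
      degLin N p O hd hdvd ((MvPolynomial.X r : HeckePoly O) • x) := by
  obtain ⟨φ, rfl⟩ := toH.surjective x
  obtain ⟨ℓ, hl⟩ := r
  have : Fact ℓ.Prime := ⟨hl⟩
  show (MvPolynomial.X (primeOf ℓ) : HeckePoly O) • toH (degMap hd hdvd φ) =
    degLin N p O hd hdvd ((MvPolynomial.X (primeOf ℓ) : HeckePoly O) • toH φ)
  rw [X_smul_toH, X_smul_toH, transfer_degMap_of_iff hd hdvd hrd]
  · rfl
  · refine ⟨fun h => ((Nat.Prime.dvd_mul hl).mp h).resolve_right fun h' => hr (Subtype.ext ?_),
      fun h => dvd_mul_of_dvd_left h p⟩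
    exact (Nat.prime_dvd_prime_iff_eq hl hp.out).mp h'

theorem not_dvd_of_ne {r : Nat.Primes} (hr : r ≠ primeOf p) : ¬ (r : ℕ) ∣ p := fun h =>
  hr (Subtype.ext ((Nat.prime_dvd_prime_iff_eq r.2 hp.out).mp h))

omit [NeZero N] in
theorem X_stepLin (α : HeckePoly O) {r : Nat.Primes} (hr : r ≠ primeOf p) (x : HMod N ⊤ O) :
    (MvPolynomial.X r : HeckePoly O) • stepLin (p := p) α x =
      stepLin α ((MvPolynomial.X r : HeckePoly O) • x) := by
  rw [stepLin_apply, stepLin_apply, smul_sub, X_degLin _ _ hr r.2.not_dvd_one,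
    X_degLin _ _ hr (not_dvd_of_ne hr), smul_comm α]

/-- The quadratic polynomial of `U_p`. -/
def rootRel (p : ℕ) [Fact p.Prime] (α : HeckePoly O) : HeckePoly O :=
  α * α - MvPolynomial.X (primeOf p) * α + MvPolynomial.C (p : O)

omit [NeZero N] in
theorem Xp_stepLin (hpN : ¬ p ∣ N) {α : HeckePoly O} {x : HMod N ⊤ O}
    (hx : rootRel p α • x = 0) :
    (MvPolynomial.X (primeOf p) : HeckePoly O) • stepLin (p := p) α x = stepLin α (α • x) := by
  set Xp : HeckePoly O := MvPolynomial.X (primeOf p)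
  have h1 : ∀ v : HMod N ⊤ O, Xp • degLin N p O (d := 1) one_ne_zero (by simp) v =
      degLin N p O (d := 1) one_ne_zero (by simp) (Xp • v) -
        degLin N p O hp.out.ne_zero dvd_rfl v := fun v => by
    obtain ⟨φ, rfl⟩ := toH.surjective v
    show Xp • toH (degMap _ _ φ) = degLin N p O one_ne_zero _ (Xp • toH φ) - toH (degMap _ _ φ)
    rw [X_smul_toH, X_smul_toH, eq_sub_iff_add_eq, ← map_add,
      transfer_degMap_one_add hpN (by simp) dvd_rfl]
    rfl
  have h2 : ∀ v : HMod N ⊤ O, Xp • degLin N p O hp.out.ne_zero dvd_rfl v =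
      (p : O) • degLin N p O (d := 1) one_ne_zero (by simp) v := fun v => by
    obtain ⟨φ, rfl⟩ := toH.surjective v
    show Xp • toH (degMap _ _ φ) = (p : O) • toH (degMap _ _ φ)
    rw [X_smul_toH, ← map_smul, Nat.cast_smul_eq_nsmul]
    have h := transfer_degMap_mul (q := p) (M := N) (M' := N * p) one_ne_zero (by simp) φ
    simp only [mul_one] at h
    exact congrArg toH h
  have e : Xp • (α • x) = α • (α • x) + (p : O) • x := by
    rw [rootRel, add_smul, sub_smul, mul_smul, mul_smul, C_smul, sub_add_eq_add_sub,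
      sub_eq_zero] at hx
    exact hx.symm
  rw [stepLin_apply, stepLin_apply, smul_sub, h1, h2, e, map_add,
    map_smul (degLin N p O (d := 1) one_ne_zero (by simp)) (p : O) x]
  abel

/-- Substitute `α` for the variable of `p`. -/
def subP (p : ℕ) [Fact p.Prime] (α : HeckePoly O) : HeckePoly O →ₐ[O] HeckePoly O :=
  MvPolynomial.bind₁ fun r => if r = primeOf p then α else MvPolynomial.X r

theorem subP_X (α : HeckePoly O) (r : Nat.Primes) :
    subP p α (MvPolynomial.X r) = if r = primeOf p then α else MvPolynomial.X r :=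
  MvPolynomial.bind₁_X_right _ _

omit [NeZero N] in
theorem smul_stepLin (hpN : ¬ p ∣ N) {α : HeckePoly O} (u : HeckePoly O) {x : HMod N ⊤ O}
    (hx : rootRel p α • x = 0) :
    u • stepLin (p := p) α x = stepLin α (subP p α u • x) := by
  induction u using MvPolynomial.induction_on generalizing x with
  | C r => rw [subP, MvPolynomial.bind₁_C_right, C_smul, C_smul, map_smul]
  | add a b ha hb => rw [map_add, add_smul, add_smul, map_add, ha hx, hb hx]
  | mul_X a r ha =>
    rw [map_mul, subP_X, mul_smul, mul_smul]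
    by_cases hr : r = primeOf p
    · rw [if_pos hr, hr, Xp_stepLin hpN hx, ha (by rw [smul_comm, hx, smul_zero])]
    · rw [if_neg hr, X_stepLin α hr, ha (by rw [smul_comm, hx, smul_zero])]

theorem X_corLin {r : Nat.Primes} (hr : r ≠ primeOf p) (x : HMod (N * p) ⊤ O) :
    (MvPolynomial.X r : HeckePoly O) • corLin N p O x =
      corLin N p O ((MvPolynomial.X r : HeckePoly O) • x) := by
  obtain ⟨φ, rfl⟩ := toH.surjective x
  obtain ⟨ℓ, hl⟩ := r
  have : Fact ℓ.Prime := ⟨hl⟩
  show (MvPolynomial.X (primeOf ℓ) : HeckePoly O) • toH (corMap (NeZero.ne N) φ) =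
    corLin N p O ((MvPolynomial.X (primeOf ℓ) : HeckePoly O) • toH φ)
  rw [X_smul_toH, X_smul_toH, transfer_corMap (NeZero.ne N) fun h => hr (Subtype.ext h)]
  rfl

theorem corLin_Xp (hpN : ¬ p ∣ N) (x : HMod (N * p) ⊤ O) :
    corLin N p O ((MvPolynomial.X (primeOf p) : HeckePoly O) • x) = (p : O) • corALin hpN x := by
  obtain ⟨φ, rfl⟩ := toH.surjective x
  rw [X_smul_toH]
  show toH (corMap (NeZero.ne N) ((heckeSystem (N * p) ⊤ p).transfer φ)) =
    (p : O) • toH (corMap (NeZero.ne N) (alMap hpN φ))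
  rw [← map_smul, corMap_transfer (NeZero.ne N) hpN, Nat.cast_smul_eq_nsmul]

theorem corALin_Xp (hpN : ¬ p ∣ N) (x : HMod (N * p) ⊤ O) :
    corALin hpN ((MvPolynomial.X (primeOf p) : HeckePoly O) • x) =
      (MvPolynomial.X (primeOf p) : HeckePoly O) • corALin hpN x - corLin N p O x := by
  obtain ⟨φ, rfl⟩ := toH.surjective x
  rw [X_smul_toH]
  show toH (corMap (NeZero.ne N) (alMap hpN ((heckeSystem (N * p) ⊤ p).transfer φ))) =
    _ • toH (corMap (NeZero.ne N) (alMap hpN φ)) - toH (corMap (NeZero.ne N) φ)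
  rw [X_smul_toH, ← map_sub, corMap_alMap_transfer (NeZero.ne N) hpN]

theorem X_corALin [IsDomain O] [CharZero O] (hpN : ¬ p ∣ N) {r : Nat.Primes} (hr : r ≠ primeOf p)
    (x : HMod (N * p) ⊤ O) :
    (MvPolynomial.X r : HeckePoly O) • corALin hpN x =
      corALin hpN ((MvPolynomial.X r : HeckePoly O) • x) := by
  refine sub_eq_zero.mp (GroupH1.smul_eq_zero_hMod (Nat.cast_ne_zero.2 hp.out.ne_zero) _ ?_)
  rw [smul_sub, ← smul_comm (MvPolynomial.X r : HeckePoly O), ← corLin_Xp, ← corLin_Xp,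
    X_corLin hr, smul_comm, sub_self]

theorem corLin_stepLin (hpN : ¬ p ∣ N) (α : HeckePoly O) (x : HMod N ⊤ O) :
    corLin N p O (stepLin α x) =
      ((p : O) + 1) • (α • x) - (MvPolynomial.X (primeOf p) : HeckePoly O) • x := by
  obtain ⟨φ, rfl⟩ := toH.surjective x
  obtain ⟨χ, hχ⟩ := toH.surjective (α • toH φ)
  rw [stepLin_apply, map_sub, ← hχ, X_smul_toH]
  show toH (corMap (NeZero.ne N) (degMap _ _ χ)) - toH (corMap (NeZero.ne N) (degMap _ _ φ)) = _
  rw [corMap_degMap_one, corMap_degMap_q (NeZero.ne N) hpN, card_HIdx_of_not_dvd hpN,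
    ← Nat.cast_smul_eq_nsmul O, map_smul, Nat.cast_succ]

theorem corALin_stepLin (hpN : ¬ p ∣ N) (α : HeckePoly O) (x : HMod N ⊤ O) :
    corALin hpN (stepLin α x) =
      (MvPolynomial.X (primeOf p) : HeckePoly O) • (α • x) - ((p : O) + 1) • x := by
  obtain ⟨φ, rfl⟩ := toH.surjective x
  obtain ⟨χ, hχ⟩ := toH.surjective (α • toH φ)
  rw [stepLin_apply, map_sub, ← hχ, X_smul_toH]
  show toH (corMap (NeZero.ne N) (alMap hpN (degMap _ _ χ))) -
    toH (corMap (NeZero.ne N) (alMap hpN (degMap _ _ φ))) = _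
  rw [alMap_degMap_one, alMap_degMap_q, corMap_degMap_one, corMap_degMap_q (NeZero.ne N) hpN,
    card_HIdx_of_not_dvd hpN, ← Nat.cast_smul_eq_nsmul O, map_smul, Nat.cast_succ]

/-! ### Localisation -/

variable [IsLocalRing O] {a : Nat.Primes → ResidueField O} {α : HeckePoly O}

theorem eval_subP (hαm : α - MvPolynomial.X (primeOf p) ∈ eigIdeal a) (u : HeckePoly O) :
    MvPolynomial.eval₂Hom (residue O) a (subP p α u) = MvPolynomial.eval₂Hom (residue O) a u := by
  rw [subP, MvPolynomial.eval₂Hom_bind₁]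
  refine congrArg (fun f => MvPolynomial.eval₂Hom (residue O) f u) (funext fun r => ?_)
  by_cases hr : r = primeOf p
  · rw [GroupH1.mem_eigIdeal, map_sub, MvPolynomial.eval₂Hom_X', sub_eq_zero] at hαm
    rw [if_pos hr, hr, hαm]
  · rw [if_neg hr, MvPolynomial.eval₂Hom_X']

theorem subP_not_mem (hαm : α - MvPolynomial.X (primeOf p) ∈ eigIdeal a) {u : HeckePoly O}
    (hu : u ∉ eigIdeal a) : subP p α u ∉ eigIdeal a := fun h => by
  rw [GroupH1.mem_eigIdeal, eval_subP hαm] at h
  exact hu h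

variable [IsNoetherianRing O] [IsAdicComplete (maximalIdeal O) O]

/-- Elements outside the ideal are invertible on the localisation. -/
theorem exists_inv_locM {M : ℕ} [NeZero M] {u : HeckePoly O} (hu : u ∉ eigIdeal a) :
    ∃ t : HeckePoly O, ∀ x : LocM (eigIdeal a) (HMod M ⊤ O), (t * u) • x = x := by
  obtain ⟨t, u', hu', h⟩ := exists_smul_inv O (V := HMod M ⊤ O) (eigIdeal a) hu
  refine ⟨t, fun x => ?_⟩
  obtain ⟨v, rfl⟩ := toLocM_surjective O _ x
  rw [← map_smul]
  exact (GroupH1.toLocM_eq_iff _).mpr ⟨u', hu', h v⟩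

omit [IsNoetherianRing O] [IsAdicComplete (maximalIdeal O) O] in
/-- The unit root is outside the ideal. -/
theorem rootPoly_not_mem (ha : a (primeOf p) ≠ 0)
    (hαm : α - MvPolynomial.X (primeOf p) ∈ eigIdeal a) : α ∉ eigIdeal a := fun h => ha (by
  rw [GroupH1.mem_eigIdeal] at hαm h
  rwa [map_sub, h, zero_sub, neg_eq_zero, MvPolynomial.eval₂Hom_X'] at hαm)

/-- **The unit root exists.** -/
theorem exists_rootPoly (ha : a (primeOf p) ≠ 0) (hpO : (p : O) ∈ maximalIdeal O) :
    ∃ α : HeckePoly O, α - MvPolynomial.X (primeOf p) ∈ eigIdeal a ∧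
      ∀ x : LocM (eigIdeal a) (HMod N ⊤ O), rootRel p α • x = 0 := by
  set V := LocM (eigIdeal a) (HMod N ⊤ O)
  set Xp : HeckePoly O := MvPolynomial.X (primeOf p)
  have : Module.Finite O V := GroupH1.finite_locM (O := O) (V := HMod N ⊤ O) (eigIdeal a)
  have hXp : Xp ∉ eigIdeal a := fun h => ha (by
    rwa [GroupH1.mem_eigIdeal, MvPolynomial.eval₂Hom_X'] at h)
  obtain ⟨t, ht⟩ := exists_inv_locM (M := N) hXp
  let L : HeckePoly O →ₐ[O] Module.End O V := Algebra.lsmul O O V
  have hTt : L Xp * L t = 1 := by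
    rw [← map_mul, mul_comm]
    exact LinearMap.ext ht
  obtain ⟨b, hb, -, hW⟩ := exists_smallRoot hTt hpO
  obtain ⟨β, hβ, rfl⟩ := hW (((eigIdeal a).restrictScalars O).map L.toLinearMap) (by
    rintro g ⟨P, hP, rfl⟩
    refine ⟨t * (P * P + MvPolynomial.C (p : O)), Ideal.mul_mem_left _ _
      (add_mem (Ideal.mul_mem_left _ _ hP) (GroupH1.C_mem_eigIdeal hpO)), ?_⟩
    show L _ = L t * (L P * L P + (p : O) • 1)
    rw [map_mul, map_add, map_mul, ← MvPolynomial.algebraMap_eq, AlgHom.commutes,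
      Algebra.algebraMap_eq_smul_one])
  refine ⟨Xp - β, ?_, fun x => ?_⟩
  · rw [sub_sub_cancel_left]; exact neg_mem hβ
  · have h : Xp • (β • x) = β • (β • x) + (p : O) • x := hb x
    rw [rootRel, show (Xp - β) * (Xp - β) - Xp * (Xp - β) + MvPolynomial.C (p : O) =
      β * β + MvPolynomial.C (p : O) - Xp * β by ring, sub_smul, add_smul, mul_smul, mul_smul,
      ← MvPolynomial.algebraMap_eq, algebraMap_smul, h, sub_self]

theorem rootRel_locLift (hα : ∀ x : LocM (eigIdeal a) (HMod N ⊤ O), rootRel p α • x = 0)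
    (x : LocM (eigIdeal a) (HMod N ⊤ O)) : rootRel p α • locLift a x = 0 := by
  rw [← map_smul, hα, map_zero]

/-- **`i` for the step `N → N p`.** -/
def locIP (N p : ℕ) [Fact p.Prime] [NeZero N] (a : Nat.Primes → ResidueField O)
    (α : HeckePoly O) :
    LocM (eigIdeal a) (HMod N ⊤ O) →ₗ[O] LocM (eigIdeal a) (HMod (N * p) ⊤ O) :=
  ((toLocM _).restrictScalars O).comp ((stepLin α).comp ((locLift a).restrictScalars O))

theorem locIP_apply (α : HeckePoly O) (x : LocM (eigIdeal a) (HMod N ⊤ O)) :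
    locIP N p a α x = toLocM (eigIdeal a) (stepLin α (locLift a x)) := rfl

theorem smul_locIP (hpN : ¬ p ∣ N)
    (hα : ∀ x : LocM (eigIdeal a) (HMod N ⊤ O), rootRel p α • x = 0) (u : HeckePoly O)
    (x : LocM (eigIdeal a) (HMod N ⊤ O)) :
    u • locIP N p a α x = locIP N p a α (subP p α u • x) := by
  rw [locIP_apply, locIP_apply, ← map_smul, smul_stepLin hpN u (rootRel_locLift hα x),
    map_smul (locLift a)]

/-- `locIP` commutes with the Hecke operators away from `p`. -/
theorem X_locIP {r : Nat.Primes} (hr : r ≠ primeOf p) (x : LocM (eigIdeal a) (HMod N ⊤ O)) :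
    (MvPolynomial.X r : HeckePoly O) • locIP N p a α x =
      locIP N p a α ((MvPolynomial.X r : HeckePoly O) • x) := by
  rw [locIP_apply, locIP_apply, ← map_smul, X_stepLin α hr, map_smul (locLift a)]

/-- `U_p` is `α` on the image. -/
theorem Xp_locIP (hpN : ¬ p ∣ N)
    (hα : ∀ x : LocM (eigIdeal a) (HMod N ⊤ O), rootRel p α • x = 0)
    (x : LocM (eigIdeal a) (HMod N ⊤ O)) :
    (MvPolynomial.X (primeOf p) : HeckePoly O) • locIP N p a α x = locIP N p a α (α • x) := by
  rw [smul_locIP hpN hα, subP_X, if_pos rfl]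

/-- `α cor W - cor` on the Hecke module. -/
def jStep (hpN : ¬ p ∣ N) (a : Nat.Primes → ResidueField O) (α : HeckePoly O) :
    HMod (N * p) ⊤ O →ₗ[O] LocM (eigIdeal a) (HMod N ⊤ O) :=
  (Algebra.lsmul O O (LocM (eigIdeal a) (HMod N ⊤ O)) α).comp
      (((toLocM _).restrictScalars O).comp (corALin hpN)) -
    ((toLocM _).restrictScalars O).comp (corLin N p O)

omit [IsNoetherianRing O] [IsAdicComplete (maximalIdeal O) O] in
theorem jStep_apply (hpN : ¬ p ∣ N) (α : HeckePoly O) (v : HMod (N * p) ⊤ O) :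
    jStep hpN a α v =
      α • toLocM (eigIdeal a) (corALin hpN v) - toLocM (eigIdeal a) (corLin N p O v) := rfl

variable [IsDomain O] [CharZero O]

omit [IsNoetherianRing O] [IsAdicComplete (maximalIdeal O) O] in
theorem jStep_smul (hpN : ¬ p ∣ N)
    (hα : ∀ x : LocM (eigIdeal a) (HMod N ⊤ O), rootRel p α • x = 0) (u : HeckePoly O)
    (v : HMod (N * p) ⊤ O) : jStep hpN a α (u • v) = subP p α u • jStep hpN a α v := by
  induction u using MvPolynomial.induction_on generalizing v with
  | C r =>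
    rw [subP, MvPolynomial.bind₁_C_right, C_smul, map_smul, ← MvPolynomial.algebraMap_eq,
      algebraMap_smul]
  | add p₁ p₂ h₁ h₂ => rw [map_add, add_smul, map_add, add_smul, h₁, h₂]
  | mul_X p₁ r h₁ =>
    rw [map_mul, subP_X, mul_smul, mul_smul, h₁]
    congr 1
    rw [jStep_apply, jStep_apply]
    by_cases hr : r = primeOf p
    · rw [if_pos hr, hr, corALin_Xp, corLin_Xp hpN, map_sub,
        (toLocM (eigIdeal a)).map_smul_of_tower (p : O) (corALin hpN v), map_smul, smul_sub,
        smul_sub]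
      have h := hα (toLocM (eigIdeal a) (corALin hpN v))
      rw [rootRel, add_smul, sub_smul, mul_smul, mul_smul, ← MvPolynomial.algebraMap_eq,
        algebraMap_smul, sub_add_eq_add_sub, sub_eq_zero,
        smul_comm (MvPolynomial.X (primeOf p) : HeckePoly O)] at h
      rw [← h]
      abel
    · rw [if_neg hr, ← X_corALin hpN hr, ← X_corLin hr, map_smul, map_smul, smul_sub, smul_comm α]

omit [IsNoetherianRing O] [IsAdicComplete (maximalIdeal O) O] in
theorem jStep_eq (hpN : ¬ p ∣ N) (hαm : α - MvPolynomial.X (primeOf p) ∈ eigIdeal a)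
    (hα : ∀ x : LocM (eigIdeal a) (HMod N ⊤ O), rootRel p α • x = 0)
    {v w : HMod (N * p) ⊤ O} (h : toLocM (eigIdeal a) v = toLocM (eigIdeal a) w) :
    jStep hpN a α v = jStep hpN a α w := by
  obtain ⟨u, hu, huv⟩ := (GroupH1.toLocM_eq_iff _).mp h
  refine sub_eq_zero.mp (smul_locM_eq_zero _ (subP_not_mem hαm hu) ?_)
  rw [smul_sub, ← jStep_smul hpN hα, ← jStep_smul hpN hα, huv, sub_self]

open Classical in
/-- An inverse of `2 α - T_p` on the localisation. -/
def jScale (N p : ℕ) [Fact p.Prime] [NeZero N] (a : Nat.Primes → ResidueField O)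
    (α : HeckePoly O) : HeckePoly O :=
  if h : ∃ t : HeckePoly O, ∀ x : LocM (eigIdeal a) (HMod N ⊤ O),
      (t * (2 * α - MvPolynomial.X (primeOf p))) • x = x then h.choose else 0

omit [IsDomain O] [CharZero O] in
theorem jScale_spec (ha : a (primeOf p) ≠ 0) (hαm : α - MvPolynomial.X (primeOf p) ∈ eigIdeal a)
    (x : LocM (eigIdeal a) (HMod N ⊤ O)) :
    (jScale N p a α * (2 * α - MvPolynomial.X (primeOf p))) • x = x := by
  have hnot : (2 * α - MvPolynomial.X (primeOf p) : HeckePoly O) ∉ eigIdeal a := fun h => ha (by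
    rw [GroupH1.mem_eigIdeal, map_sub, MvPolynomial.eval₂Hom_X', sub_eq_zero] at hαm
    rw [GroupH1.mem_eigIdeal, map_sub, map_mul, map_ofNat, MvPolynomial.eval₂Hom_X', hαm,
      two_mul, add_sub_cancel_right] at h
    exact h)
  rw [jScale, dif_pos (exists_inv_locM (M := N) hnot)]
  exact (exists_inv_locM (M := N) hnot).choose_spec x

/-- **`j` for the step `N → N p`.** -/
def locJP (hpN : ¬ p ∣ N) (hαm : α - MvPolynomial.X (primeOf p) ∈ eigIdeal a)
    (hα : ∀ x : LocM (eigIdeal a) (HMod N ⊤ O), rootRel p α • x = 0) :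
    LocM (eigIdeal a) (HMod (N * p) ⊤ O) →ₗ[O] LocM (eigIdeal a) (HMod N ⊤ O) :=
  (Algebra.lsmul O O (LocM (eigIdeal a) (HMod N ⊤ O)) (jScale N p a α)).comp
    { toFun := fun x => jStep hpN a α (toLocM_surjective O _ x).choose
      map_add' := fun x y => by
        rw [← map_add]
        refine jStep_eq hpN hαm hα ?_
        rw [map_add, (toLocM_surjective O _ (x + y)).choose_spec,
          (toLocM_surjective O _ x).choose_spec, (toLocM_surjective O _ y).choose_spec]
      map_smul' := fun r x => by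
        rw [RingHom.id_apply, ← map_smul]
        refine jStep_eq hpN hαm hα ?_
        rw [LinearMap.map_smul_of_tower, (toLocM_surjective O _ (r • x)).choose_spec,
          (toLocM_surjective O _ x).choose_spec] }

variable (hpN : ¬ p ∣ N) (hαm : α - MvPolynomial.X (primeOf p) ∈ eigIdeal a)
  (hα : ∀ x : LocM (eigIdeal a) (HMod N ⊤ O), rootRel p α • x = 0)

theorem locJP_toLocM (v : HMod (N * p) ⊤ O) :
    locJP hpN hαm hα (toLocM (eigIdeal a) v) = jScale N p a α • jStep hpN a α v :=
  congrArg (jScale N p a α • ·) (jStep_eq hpN hαm hα (toLocM_surjective O _ _).choose_spec)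

theorem locJP_smul (u : HeckePoly O) (x : LocM (eigIdeal a) (HMod (N * p) ⊤ O)) :
    locJP hpN hαm hα (u • x) = subP p α u • locJP hpN hαm hα x := by
  obtain ⟨v, rfl⟩ := toLocM_surjective O _ x
  rw [← map_smul, locJP_toLocM, locJP_toLocM, jStep_smul hpN hα, smul_comm]

/-- `locJP` commutes with the Hecke operators away from `p`. -/
theorem X_locJP {r : Nat.Primes} (hr : r ≠ primeOf p)
    (x : LocM (eigIdeal a) (HMod (N * p) ⊤ O)) :
    (MvPolynomial.X r : HeckePoly O) • locJP hpN hαm hα x =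
      locJP hpN hαm hα ((MvPolynomial.X r : HeckePoly O) • x) := by
  rw [locJP_smul, subP_X, if_neg hr]

/-- `locJP` carries `U_p` to `α`. -/
theorem locJP_Xp (x : LocM (eigIdeal a) (HMod (N * p) ⊤ O)) :
    locJP hpN hαm hα ((MvPolynomial.X (primeOf p) : HeckePoly O) • x) =
      α • locJP hpN hαm hα x := by
  rw [locJP_smul, subP_X, if_pos rfl]

/-- **`j i = α² - 1`.** -/
theorem locJP_locIP (ha : a (primeOf p) ≠ 0) (x : LocM (eigIdeal a) (HMod N ⊤ O)) :
    locJP hpN hαm hα (locIP N p a α x) = (α * α - 1) • x := by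
  set Xp : HeckePoly O := MvPolynomial.X (primeOf p)
  set c : HeckePoly O := MvPolynomial.C (p : O) with hc
  have e : jStep hpN a α (stepLin α (locLift a x)) =
      ((2 * α - Xp) * (α * α - 1)) • x := by
    have h1 : ((p : O) + 1) • (α • locLift a x) = ((c + 1) * α) • locLift a x := by
      rw [mul_smul, add_smul, add_smul, one_smul, one_smul, hc, C_smul]
    have h2 : ((p : O) + 1) • locLift a x = (c + 1) • locLift a x := by
      rw [add_smul, add_smul, one_smul, one_smul, hc, C_smul]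
    rw [jStep_apply, corLin_stepLin hpN, corALin_stepLin hpN, h1, h2, ← mul_smul, ← sub_smul,
      ← sub_smul, map_smul, map_smul, toLocM_locLift, ← mul_smul, ← sub_smul]
    -- the two polynomials differ by a multiple of the relation
    have h3 := congrArg ((-2 * α : HeckePoly O) • ·) (hα x)
    simp only [smul_zero, ← mul_smul] at h3
    refine sub_eq_zero.mp ((sub_smul _ _ _).symm.trans (Eq.trans ?_ h3))
    refine congrArg (· • x) ?_
    rw [rootRel]
    ring
  rw [locIP_apply, locJP_toLocM, e, ← mul_smul, ← mul_assoc, mul_smul, jScale_spec ha hαm]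

open IsLocalRing in
/-- **`j` is surjective.** -/
theorem locJP_surjective {ℓ : ℕ} [hℓ : Fact ℓ.Prime] (hp2 : p ≠ 2)
    (hpO : (p : O) ∈ maximalIdeal O) (ha : a (primeOf p) ≠ 0) (hN1 : (ℓ : ZMod N) = 1)
    (h1 : (ℓ : ZMod p) = 1) (haℓ : a (primeOf ℓ) ≠ 2) :
    Function.Surjective (locJP hpN hαm hα) := by
  have hℓp : ℓ ≠ p := fun h => by rw [h, ZMod.natCast_self] at h1; exact zero_ne_one h1
  have hN := NeZero.ne N
  set m := eigIdeal a
  set Xl : HeckePoly O := MvPolynomial.X (primeOf ℓ)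
  set P : HeckePoly O := Xl - 2
  set P' : HeckePoly O := Xl - MvPolynomial.C (1 + (ℓ : O))
  have hP : ∀ f : H1 N O, toH (hecke2 N ℓ O f) = P • toH f := fun f => by
    rw [hecke2_apply, map_sub, map_nsmul, sub_smul, X_smul_toH, two_nsmul, two_smul]
  have hPm : P ∉ m := fun hm => haℓ (by
    rw [GroupH1.mem_eigIdeal, map_sub, MvPolynomial.eval₂Hom_X', map_ofNat, sub_eq_zero] at hm
    exact hm)
  have hℓk : residue O (ℓ : O) = 1 := by
    obtain ⟨t, ht⟩ : (p : ℤ) ∣ (ℓ : ℤ) - 1 := by
      rw [← ZMod.intCast_zmod_eq_zero_iff_dvd]; push_cast; rw [h1, sub_self]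
    rw [← sub_eq_zero, ← map_one (residue O), ← map_sub, residue_eq_zero_iff]
    have : (ℓ : O) - 1 = (p : O) * (t : O) := by
      have h3 := congrArg (Int.cast : ℤ → O) ht
      push_cast at h3
      exact h3
    rw [this]
    exact Ideal.mul_mem_right _ _ hpO
  have hP'm : P' ∉ m := fun hm => haℓ (by
    rw [GroupH1.X_sub_C_mem_eigIdeal_iff, map_add, map_one, hℓk, one_add_one_eq_two] at hm
    exact hm)
  have hαnot : α ∉ m := rootPoly_not_mem ha hαm
  have hprime : m.IsPrime := Ideal.IsMaximal.isPrime inferInstance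
  set u := P * (P * P') with hu_def
  have hu : α * u ∉ m := fun hm => (hprime.mem_or_mem hm).elim hαnot fun h =>
    (hprime.mem_or_mem h).elim hPm fun h => (hprime.mem_or_mem h).elim hPm hP'm
  set t := jScale N p a α
  let R : Submodule O (LocM m (HMod N ⊤ O)) := LinearMap.range (locJP hpN hαm hα)
  have hgen : ∀ v : HMod N ⊤ O, (t * (α * u)) • toLocM m v ∈
      R ⊔ maximalIdeal O • (⊤ : Submodule O (LocM m (HMod N ⊤ O))) := by
    intro v
    obtain ⟨φ, rfl⟩ := toH.surjective v
    obtain ⟨n, c, φ₀, rfl⟩ := exists_integral_decomp O φ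
    rw [map_sum, map_sum, Finset.smul_sum]
    refine Submodule.sum_mem _ fun i _ => ?_
    obtain ⟨ψ, χ, χ', he, he'⟩ := exists_pair_mod hp2 hpN hN1 hℓp h1 (φ₀ i)
    set f : ℤ →+ O := (AddMonoidHom.mulLeft (c i)).comp (Int.castAddHom O)
    have hnat : ∀ ω : H1 N ℤ, toH (f.comp (p • ω)) = (p : O) • toH (f.comp ω) := fun ω => by
      rw [Nat.cast_smul_eq_nsmul, ← map_nsmul]
      refine congrArg toH (AddMonoidHom.ext fun g => ?_)
      simp [f]
      ring
    have h4 : u • toH (f.comp (φ₀ i)) =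
        corALin hpN (toH (f.comp ψ)) + (p : O) • toH (f.comp χ) := by
      have hP' : P' • toH (f.comp (φ₀ i)) =
          toH (f.comp ((heckeSystem N ⊤ ℓ).transfer (φ₀ i) - (1 + ℓ : ℤ) • φ₀ i)) := by
        rw [sub_smul, X_smul_toH, C_smul, ← comp_transfer_hecke, ← map_smul, ← map_sub]
        refine congrArg toH (AddMonoidHom.ext fun g => ?_)
        simp [f]
        ring
      rw [hu_def, mul_smul, mul_smul, hP', ← hP, ← hP, ← comp_hecke2, ← comp_hecke2, he,
        AddMonoidHom.comp_add, map_add, hnat, comp_corMap, comp_alMap]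
      rfl
    have h5 : corLin N p O (toH (f.comp ψ)) = (p : O) • toH (f.comp χ') := by
      show toH (corMap hN (f.comp ψ)) = _
      rw [← comp_corMap, he', hnat]
    have h6 : (t * (α * u)) • toLocM m (toH (f.comp (φ₀ i))) =
        locJP hpN hαm hα (toLocM m (toH (f.comp ψ))) +
          (p : O) • (t • (toLocM m (toH (f.comp χ')) + α • toLocM m (toH (f.comp χ)))) := by
      rw [locJP_toLocM, jStep_apply, mul_smul, mul_smul, ← map_smul, h4, h5, map_add,
        LinearMap.map_smul_of_tower, LinearMap.map_smul_of_tower, smul_comm (p : O) t,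
        ← smul_add]
      refine congrArg (t • ·) ?_
      rw [smul_add, smul_add, smul_comm α (p : O)]
      abel
    rw [h6]
    exact Submodule.add_mem _ (Submodule.mem_sup_left (LinearMap.mem_range_self _ _))
      (Submodule.mem_sup_right (Submodule.smul_mem_smul hpO trivial))
  have hle : (⊤ : Submodule O (LocM m (HMod N ⊤ O))) ≤
      R ⊔ maximalIdeal O • (⊤ : Submodule O _) := by
    intro x _
    obtain ⟨s, hs⟩ := exists_inv_locM (M := N) hu
    obtain ⟨w, hw⟩ := toLocM_surjective O m (((2 * α - MvPolynomial.X (primeOf p)) * s) • x)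
    have h7 := hgen w
    rwa [hw, ← mul_smul, show t * (α * u) * ((2 * α - MvPolynomial.X (primeOf p)) * s) =
      t * (2 * α - MvPolynomial.X (primeOf p)) * (s * (α * u)) by ring, mul_smul, hs,
      jScale_spec ha hαm] at h7
  have hfg : (⊤ : Submodule O (LocM m (HMod N ⊤ O))).FG :=
    (GroupH1.finite_locM (O := O) (V := HMod N ⊤ O) m).fg_top
  exact LinearMap.range_eq_top.mp (eq_top_iff.mpr (Submodule.le_of_le_smul_of_le_jacobson_bot
    hfg (IsLocalRing.maximalIdeal_le_jacobson _) hle))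

include hpN hαm hα in
omit [CharZero O] in
/-- **`i` is injective modulo a uniformiser.** -/
theorem locIP_mem_smul {ϖ : O} (hϖ : maximalIdeal O = Ideal.span {ϖ}) (hϖ0 : ϖ ≠ 0)
    {ℓ : ℕ} [hℓ : Fact ℓ.Prime] (hp2 : p ≠ 2) (hpO : (p : O) ∈ maximalIdeal O)
    (hN1 : (ℓ : ZMod N) = 1) (h1 : (ℓ : ZMod p) = 1) (haℓ : a (primeOf ℓ) ≠ 2)
    (x : LocM (eigIdeal a) (HMod N ⊤ O)) (h : ∃ y, locIP N p a α x = ϖ • y) :
    ∃ x', x = ϖ • x' := by
  have hℓp : ℓ ≠ p := fun h => by rw [h, ZMod.natCast_self] at h1; exact zero_ne_one h1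
  obtain ⟨y, hy⟩ := h
  obtain ⟨w, rfl⟩ := toLocM_surjective O _ y
  rw [locIP_apply, ← LinearMap.map_smul_of_tower, GroupH1.toLocM_eq_iff] at hy
  obtain ⟨u, hu, huv⟩ := hy
  set x₁ := subP p α u • x
  set φ : H1 N O := toH.symm (locLift a x₁) with hφ
  set φα : H1 N O := toH.symm (α • locLift a x₁) with hφα
  have hi : degMap one_ne_zero (by simp) φα - degMap hp.out.ne_zero dvd_rfl φ =
      ϖ • toH.symm (u • w) := by
    apply toH.injective
    rw [map_smul, LinearEquiv.apply_symm_apply, map_sub]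
    refine Eq.trans ?_ ((smul_stepLin hpN u (rootRel_locLift hα x)).symm.trans
      (huv.trans (smul_comm u ϖ w)))
    rw [stepLin_apply, hφ, hφα, map_smul (locLift a)]
    rfl
  let π : O →+ ResidueField O := (residue O).toAddMonoidHom
  have hk : ∀ b : ResidueField O, p • b = 0 := fun b => by
    rw [nsmul_eq_mul, ← map_natCast (residue O), (residue_eq_zero_iff _).mpr hpO, zero_mul]
  have h0 : degMap (M' := N * p) one_ne_zero (by simp) (π.comp φα) =
      degMap hp.out.ne_zero dvd_rfl (π.comp φ) := by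
    rw [← sub_eq_zero, ← comp_degMap, ← comp_degMap]
    refine AddMonoidHom.ext fun g => ?_
    have h' := congrArg (residue O) (DFunLike.congr_fun hi g)
    rw [AddMonoidHom.sub_apply, map_sub] at h'
    refine h'.trans ?_
    show residue O (ϖ * _) = 0
    rw [map_mul, (residue_eq_zero_iff _).mpr (hϖ ▸ Ideal.mem_span_singleton_self ϖ), zero_mul]
  have h3 := (hecke2_hecke2_eq_zero_of_pair (iharaProp hp2 (NeZero.ne N) hpN hk) hpN hN1 hℓp
    hk h1 h0).2
  rw [← comp_hecke2, ← comp_hecke2] at h3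
  set φ' := hecke2 N ℓ O (hecke2 N ℓ O φ)
  have hdiv : ∀ g, ∃ c, φ' g = ϖ * c := fun g => by
    have h4 : residue O (φ' g) = 0 := DFunLike.congr_fun h3 g
    rw [residue_eq_zero_iff, hϖ, Ideal.mem_span_singleton] at h4
    exact h4
  choose c hc using hdiv
  let ψ : H1 N O := AddMonoidHom.mk' c fun g g' => mul_left_cancel₀ hϖ0 (by
    rw [mul_add, ← hc, ← hc, ← hc, map_add])
  set P : HeckePoly O := MvPolynomial.X (primeOf ℓ) - 2
  have hP : ∀ f : H1 N O, toH (hecke2 N ℓ O f) = P • toH f := fun f => by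
    rw [hecke2_apply, map_sub, map_nsmul, sub_smul, X_smul_toH, two_nsmul, two_smul]
  have hV : (P * P * subP p α u) • x = ϖ • toLocM (eigIdeal a) (toH ψ) := by
    have e : toH φ' = ϖ • toH ψ := by
      rw [← map_smul]
      exact congrArg toH (AddMonoidHom.ext fun g => hc g)
    rw [← LinearMap.map_smul_of_tower, ← e, hP, hP, hφ, LinearEquiv.apply_symm_apply, map_smul,
      map_smul, toLocM_locLift, mul_smul, mul_smul]
  have hnot : P * P * subP p α u ∉ eigIdeal a := by
    have hPm : P ∉ eigIdeal a := fun hm => haℓ (by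
      rw [GroupH1.mem_eigIdeal, map_sub, MvPolynomial.eval₂Hom_X', map_ofNat, sub_eq_zero] at hm
      exact hm)
    have hprime : (eigIdeal a).IsPrime := Ideal.IsMaximal.isPrime inferInstance
    exact fun hm => (hprime.mem_or_mem hm).elim (fun h' => (hprime.mem_or_mem h').elim hPm hPm)
      (subP_not_mem hαm hu)
  obtain ⟨s, hs⟩ := exists_inv_locM (M := N) hnot
  exact ⟨s • toLocM (eigIdeal a) (toH ψ), by rw [← smul_comm s, ← hV, ← mul_smul, hs]⟩

end Fermat.Agent.IharaH1

end
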