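import Fermat.Agent.IharaH1.Surjective

/-!
# Surjectivity of the pair of corestrictions modulo `p`

`exists_pair_mod`: at level `N q`, where `q = p` is allowed, and for a suitable prime `ℓ`, the
pair `(cor ∘ W, cor)` takes the value `((T_ℓ - 2)² (T_ℓ - 1 - ℓ) φ, 0)` modulo `p`.
-/

set_option autoImplicit false

noncomputable section

open Matrix CongruenceSubgroup
open scoped MatrixGroups

namespace Fermat.Agent.IharaH1

open Fermat.Agent.GroupH1 (GammaH heckeSystem)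
open Fermat.Agent.LevelRaising (ModSym cycleHom psi DvdModTorsion IsCorr isCorr_W symW)

variable {B : Type*} [AddCommGroup B] {N q p ℓ : ℕ} [hq : Fact q.Prime] [hℓ : Fact ℓ.Prime]

omit hℓ in
theorem transfer_corrW (hqN : ¬ q ∣ N) (φ : H1 (N * q) B) :
    ofGamma0 ((isCorr_W hq.out hqN).transfer (toGamma0 φ)) = alMap hqN φ :=
  Sends.unique (fun _ => by rw [LevelRaising.det_wMat hq.out hqN]
                            exact Int.natCast_ne_zero.2 hq.out.ne_zero)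
    (sends_corr _ φ) (sends_alMap hqN φ)

/-- **The pair of corestrictions is surjective modulo `p` up to the Hecke operator.** -/
theorem exists_pair_mod [NeZero N] [hp : Fact p.Prime] (hp2 : p ≠ 2) (hqN : ¬ q ∣ N)
    (hN1 : (ℓ : ZMod N) = 1) (hℓq : ℓ ≠ q) (h1 : (ℓ : ZMod p) = 1) (φ : H1 N ℤ) :
    ∃ (ψ : H1 (N * q) ℤ) (χ χ' : H1 N ℤ),
      hecke2 N ℓ ℤ (hecke2 N ℓ ℤ ((heckeSystem N ⊤ ℓ).transfer φ - (1 + ℓ : ℤ) • φ)) =
        corMap (NeZero.ne N) (alMap hqN ψ) + p • χ ∧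
      corMap (NeZero.ne N) ψ = p • χ' := by
  have hN := NeZero.ne N
  have hℓN : ¬ ℓ ∣ N := HeckeCohom.not_dvd_of_cast_eq_one hN1
  let J : H1 (N * q) ℤ →+ H1 N ℤ × H1 N ℤ :=
    ((corMap hN).comp (alMap hqN)).prod (corMap hN)
  let S : AddSubgroup (H1 N ℤ × H1 N ℤ) :=
    J.range ⊔ (nsmulAddMonoidHom p : H1 N ℤ × H1 N ℤ →+ H1 N ℤ × H1 N ℤ).range
  set φ' := (heckeSystem N ⊤ ℓ).transfer φ - (1 + ℓ : ℤ) • φ with hφ'
  suffices hmem : (hecke2 N ℓ ℤ (hecke2 N ℓ ℤ φ'), (0 : H1 N ℤ)) ∈ S by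
    obtain ⟨-, ⟨ψ, rfl⟩, -, ⟨χ, rfl⟩, he⟩ := AddSubgroup.mem_sup.mp hmem
    refine ⟨ψ, χ.1, -χ.2, (congrArg Prod.fst he).symm, ?_⟩
    rw [smul_neg, eq_neg_iff_add_eq_zero]
    exact (congrArg Prod.snd he :)
  by_contra hnot
  obtain ⟨f, hfS, hf⟩ := LevelRaising.exists_functional_ne_zero S
    (fun v => AddSubgroup.mem_sup_right ⟨v, rfl⟩) hnot
  refine hf ?_
  obtain ⟨u₁, hu₁⟩ := exists_eval (f.comp (AddMonoidHom.inl _ _))
  obtain ⟨u₂, hu₂⟩ := exists_eval (f.comp (AddMonoidHom.inr _ _))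
  have hsplit : ∀ v w : H1 N ℤ, f (v, w) = (v u₁ : ZMod p) + (w u₂ : ZMod p) := fun v w => by
    rw [← hu₁, ← hu₂, AddMonoidHom.comp_apply, AddMonoidHom.comp_apply, AddMonoidHom.inl_apply,
      AddMonoidHom.inr_apply, ← map_add, Prod.mk_add_mk, add_zero, zero_add]
  set x₁ := cycleHom N ((Subgroup.inclusion GroupH1.GammaH_top.le).toAdditive u₁) with hx₁
  set x₂ := cycleHom N ((Subgroup.inclusion GroupH1.GammaH_top.le).toAdditive u₂) with hx₂
  let Tr : ModSym N →+ ModSym (N * q) := (isCorr_cor hN).push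
  let Wm : ModSym (N * q) →+ ModSym (N * q) := symW hq.out hqN
  -- the transpose of the pair kills `(x₁, x₂)` modulo `p`
  have hJ : DvdModTorsion p (Wm (Tr x₁) + Tr x₂) := fun Φ => by
    have h0 := hfS _ (AddSubgroup.mem_sup_left
      ⟨ofGamma0 (Φ.comp (cycleHom (N * q))), rfl⟩)
    have hc : ∀ Ψ : ModSym (N * q) →+ ℤ, corMap hN (ofGamma0 (Ψ.comp (cycleHom _))) =
        ofGamma0 ((Ψ.comp Tr).comp (cycleHom N)) := fun Ψ => by
      rw [← transfer_corrCor hN, toGamma0_ofGamma0, IsCorr.transfer_comp_cycleHom]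
    have hw : alMap hqN (ofGamma0 (Φ.comp (cycleHom (N * q)))) =
        ofGamma0 ((Φ.comp Wm).comp (cycleHom _)) := by
      rw [← transfer_corrW hqN, toGamma0_ofGamma0, IsCorr.transfer_comp_cycleHom]
      rfl
    change f (corMap hN (alMap hqN _), corMap hN _) = 0 at h0
    rw [hsplit, hw, hc, hc] at h0
    rw [map_add, ← ZMod.intCast_zmod_eq_zero_iff_dvd, Int.cast_add]
    exact h0
  let π : ℤ →+ ZMod p := Int.castAddHom (ZMod p)
  have hk : ∀ b : ZMod p, p • b = 0 := fun b => by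
    rw [nsmul_eq_mul, ZMod.natCast_self, zero_mul]
  set ω₁ : H1 N (ZMod p) := π.comp (ofGamma0 (psi N x₁)) with hω₁
  set ω₂ : H1 N (ZMod p) := π.comp (ofGamma0 (psi N x₂)) with hω₂
  have hTr : ∀ y, ofGamma0 (psi (N * q) (Tr y)) =
      degMap one_ne_zero (by simp) (ofGamma0 (psi N y)) := fun y => by
    show ofGamma0 (psi (N * q) ((isCorr_cor hN).push y)) = _
    rw [psi_cor hN, ← transfer_corrRes, toGamma0_ofGamma0]
  have hWp : ∀ y, ofGamma0 (psi (N * q) (Wm y)) = alMap hqN (ofGamma0 (psi (N * q) y)) :=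
    fun y => by
    show ofGamma0 (psi (N * q) (symW hq.out hqN y)) = _
    rw [LevelRaising.psi_symW, ← transfer_corrW hqN, toGamma0_ofGamma0]
  have h0 : π.comp (ofGamma0 (psi (N * q) (Wm (Tr x₁) + Tr x₂))) = 0 :=
    AddMonoidHom.ext fun γ => (ZMod.intCast_zmod_eq_zero_iff_dvd _ _).mpr
      (hJ ((AddMonoidHom.eval ((Subgroup.inclusion GroupH1.GammaH_top.le).toAdditive γ)).comp
        (psi (N * q))))
  rw [map_add, map_add, hWp, hTr, hTr, alMap_degMap_one, AddMonoidHom.comp_add, comp_degMap,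
    comp_degMap, ← hω₁, ← hω₂] at h0
  have hker := hecke2_hecke2_eq_zero_of_pair (iharaProp hp2 hN hqN hk) hqN hN1 hℓq hk h1
    (φ₀ := ω₂) (φ₁ := -ω₁) (by rw [map_neg]; exact eq_neg_of_add_eq_zero_right h0)
  have hω2 := hker.2
  rw [map_neg, map_neg, neg_eq_zero, hω₁, ← comp_hecke2, ← comp_hecke2, ← psi_eisSym hℓN,
    ← psi_eisSym hℓN] at hω2
  obtain ⟨y, c, hc, hy⟩ := LevelRaising.eq_smul_add_torsion_of_psi hp.out hp2
    (eisSym hℓN (eisSym hℓN x₁)) fun γ =>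
      (ZMod.intCast_zmod_eq_zero_iff_dvd _ _).mp
        (DFunLike.congr_fun hω2 ((Subgroup.inclusion GroupH1.GammaH_top.ge).toAdditive γ))
  obtain ⟨Φ, hΦ⟩ := LevelRaising.exists_comp_cycleHom_eq (toGamma0 φ')
    (isParabolic_transfer_sub hN1 φ)
  have hφΦ : φ' = ofGamma0 (Φ.comp (cycleHom N)) := by rw [hΦ]; exact AddMonoidHom.ext fun _ => rfl
  rw [hsplit, hφΦ, hecke2_cycleHom hℓN, hecke2_cycleHom hℓN, AddMonoidHom.zero_apply, Int.cast_zero,
    add_zero]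
  show ((Φ (eisSym hℓN (eisSym hℓN x₁)) : ℤ) : ZMod p) = 0
  rw [ZMod.intCast_zmod_eq_zero_iff_dvd]
  have h2 := congrArg Φ hy
  rw [map_zsmul, map_zero, map_sub, map_zsmul, smul_eq_zero] at h2
  exact ⟨Φ y, by rw [sub_eq_zero.mp (h2.resolve_left hc), smul_eq_mul]⟩

end Fermat.Agent.IharaH1

end
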