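import Fermat.Agent.IharaH1.LevelSq
import Fermat.Agent.LevelRaising.PsiInjective
import Fermat.Agent.LevelRaising.Hecke

/-!
# The operators on modular symbols adjoint to `j`

`jSym` is the transpose of `jMap` on closed symbols, and the crossing map carries it to
`q (r₀ - r₁ T_q + q r₂)`.
-/

set_option autoImplicit false

noncomputable section

open Matrix CongruenceSubgroup
open scoped MatrixGroups OnePoint

namespace Fermat.Agent.IharaH1

open Fermat.Agent.GroupH1 (GammaH HIdx repInt heckeSystem)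
open Fermat.Agent.LevelRaising (IsCorr ModSym mat cycleHom psi tMat uMat isCorr_T isCorr_U)

variable {B : Type*} [AddCommGroup B]

/-- `Γ₀(N)` as the admissible matrices of determinant one. -/
theorem mem_Gamma0_iff {N : ℕ} (γ : SL(2, ℤ)) : γ ∈ Gamma0 N ↔ Adm0 N γ.1 :=
  ⟨fun h => adm0_of_mem ⟨γ, h⟩, fun h => Gamma0_mem.mpr h.1⟩

/-- The transfer of a correspondence is the transfer along its family. -/
theorem sends_corr {N M : ℕ} {ι : Type*} [Fintype ι] {g : ι → M2} (hg : IsCorr N M g)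
    (φ : H1 M B) : Sends g φ (ofGamma0 (hg.transfer (toGamma0 φ))) := fun γ =>
  let γ' : Gamma0 N := Subgroup.inclusion GroupH1.GammaH_top.le γ
  ⟨Equiv.ofBijective _ (hg.σ_bijective γ'),
    fun i => Subgroup.inclusion GroupH1.GammaH_top.ge (hg.δ γ' i),
    fun i => hg.spec γ' i, rfl⟩

section T

variable {M ℓ : ℕ} [hℓ : Fact ℓ.Prime]

/-- The correspondence `T_ℓ` induces the Hecke operator. -/
theorem transfer_corrT (hℓM : ¬ ℓ ∣ M) (φ : H1 M B) :
    ofGamma0 ((isCorr_T hℓ.out hℓM).transfer (toGamma0 φ)) =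
      (heckeSystem M ⊤ ℓ).transfer φ := by
  have hg := isCorr_T (N := M) hℓ.out hℓM
  refine Sends.unique (fun i => hg.det_ne_zero i) (sends_corr hg φ) ?_
  obtain ⟨e, k, hk⟩ := exists_classes (M₁ := M) (R := fun x : HIdx M ℓ => repInt M ℓ x.1)
    (R' := tMat ℓ)
    (fun i => by
      obtain ⟨x, n, hn, hn'⟩ := GroupH1.exists_eq_mul_repInt (M := M) (ℓ := ℓ) (H := ⊤)
        (m := tMat ℓ i) (adm0_of_det (by
          rw [LevelRaising.det_tMat, Int.cast_natCast, ZMod.isUnit_iff_coprime]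
          exact hℓ.out.coprime_iff_not_dvd.mpr hℓM) (by rw [LevelRaising.tMat_10]; simp))
        ⟨1, by rw [LevelRaising.det_tMat, mul_one]⟩
      refine ⟨x, GroupH1.ofAdm n ?_ hn', hn⟩
      have h := LevelRaising.det_tMat ℓ i
      rw [hn, det_mul, GroupH1.det_repInt (hℓ := hℓ)] at h
      exact mul_right_cancel₀ (Int.natCast_ne_zero.2 hℓ.out.ne_zero) (by rw [h, one_mul]))
    (fun u i j h => (hg.inj j i (u : SL(2, ℤ)) ((mem_Gamma0_iff _).mpr u.2) h.symm).symm)
    (by simp [card_HIdx_of_not_dvd (hq := hℓ) hℓM])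
  exact (sends_transfer φ).congr e k hk

theorem transfer_corrU (hℓM : ℓ ∣ M) (φ : H1 M B) :
    ofGamma0 ((isCorr_U hℓ.out hℓM).transfer (toGamma0 φ)) =
      (heckeSystem M ⊤ ℓ).transfer φ := by
  have hg := isCorr_U (M := M) hℓ.out hℓM
  refine Sends.unique (fun i => hg.det_ne_zero i) (sends_corr hg φ) ?_
  obtain ⟨e, k, hk⟩ := exists_classes (M₁ := M) (R := fun x : HIdx M ℓ => repInt M ℓ x.1)
    (R' := uMat ℓ)
    (fun i => by
      refine ⟨⟨((i : ℕ) : ZMod ℓ), fun h => absurd h (OnePoint.coe_ne_infty _)⟩, 1, ?_⟩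
      rw [coe_one2, one_mul, GroupH1.repInt_coe, ZMod.val_natCast_of_lt i.isLt]
      rfl)
    (fun u i j h => (hg.inj j i (u : SL(2, ℤ)) ((mem_Gamma0_iff _).mpr u.2) h.symm).symm)
    (by simp [card_HIdx_of_dvd (hq := hℓ) hℓM])
  exact (sends_transfer φ).congr e k hk

end T

variable {M q : ℕ} [hq : Fact q.Prime]

/-- The coset representatives form a correspondence. -/
theorem isCorr_cor (hM : M ≠ 0) :
    IsCorr M (M * q) (fun x : HIdx M q => cosetRep M q x.1) where
  det_pos x := by rw [det_cosetRep]; exact one_pos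
  perm γ hγ x := by
    obtain ⟨y, k, hk⟩ := exists_cosetRep (q := q) (m := cosetRep M q x.1 * mat γ)
      (by rw [det_mul, det_cosetRep, LevelRaising.det_mat, one_mul])
      ((adm_cosetRep x).mul ((mem_Gamma0_iff γ).mp hγ))
    exact ⟨y, k, (mem_Gamma0_iff _).mpr k.2, hk⟩
  inj x y δ hδ h := (eq_of_mul_cosetRep ⟨δ, (mem_Gamma0_iff δ).mp hδ⟩ hM h.symm).symm

/-- The correspondence of the coset representatives induces `corMap`. -/
theorem transfer_corrCor (hM : M ≠ 0) (φ : H1 (M * q) B) :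
    ofGamma0 ((isCorr_cor hM).transfer (toGamma0 φ)) = corMap hM φ :=
  Sends.unique (fun x => by rw [det_cosetRep]; exact one_ne_zero) (sends_corr _ φ)
    (sends_corMap hM φ)

omit hq in
/-- The identity correspondence induces restriction. -/
theorem transfer_corrRes (φ : H1 M B) :
    ofGamma0 ((LevelRaising.isCorr_Res (N := M) (q := q)).transfer (toGamma0 φ)) =
      degMap one_ne_zero (by simp) φ :=
  Sends.unique (fun _ => by simp) (sends_corr _ φ)
    ((sends_degMap one_ne_zero (by simp) φ).congr (Equiv.refl _) (fun _ => 1) fun _ => by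
      rw [coe_one2, one_mul, omega_one])

/-- The crossing map turns the symbol transfer into restriction. -/
theorem psi_cor (hM : M ≠ 0) (x : ModSym M) :
    psi (M * q) ((isCorr_cor (q := q) hM).push x) =
      (LevelRaising.isCorr_Res (N := M) (q := q)).transfer (psi M x) := by
  refine LevelRaising.psi_push _ _ (fun i δ hδ => ?_) (fun _ η hη => ?_) x
  · refine ⟨(), (cosetElt i : SL(2, ℤ))⁻¹ * δ,
      mul_mem (inv_mem ((mem_Gamma0_iff _).mpr (cosetElt i).2))
        (LevelRaising.Gamma0_le_of_dvd (dvd_mul_right M q) hδ), ?_⟩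
    rw [LevelRaising.mat_mul, LevelRaising.mat_inv, Matrix.mul_one]
    rfl
  · obtain ⟨y, k, hk⟩ := exists_cosetRep (q := q) (m := mat η⁻¹)
      (LevelRaising.det_mat _) ((mem_Gamma0_iff _).mp (inv_mem hη))
    refine ⟨y, (k : SL(2, ℤ))⁻¹, inv_mem ((mem_Gamma0_iff _).mpr k.2), ?_⟩
    have h := congrArg Matrix.adjugate hk
    rw [adjugate_mul_distrib, LevelRaising.mat_inv, LevelRaising.adjugate_adjugate'] at h
    rw [LevelRaising.mat_inv, Matrix.mul_one, h]

/-- Representatives of the adjoint of `U_q`. -/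
def uStarMat (M q : ℕ) (j : Fin q) : M2 := !![(q : ℤ), 0; (M : ℤ) * (j : ℕ), 1]

theorem exists_uStar (hqM : q ∣ M) {m : M2} (hd : m.det = q) (h00 : (q : ℤ) ∣ m 0 0)
    (h10 : (M : ℤ) ∣ m 1 0) (h11 : ¬ (q : ℤ) ∣ m 1 1) :
    ∃ j, ∃ η ∈ Gamma0 M, m = mat η * uStarMat M q j := by
  obtain ⟨c, hc⟩ := h10
  obtain ⟨a, ha⟩ := h00
  obtain ⟨M', hM'⟩ := hqM
  have h11' : ((m 1 1 : ℤ) : ZMod q) ≠ 0 := fun h =>
    h11 ((ZMod.intCast_zmod_eq_zero_iff_dvd _ _).mp h)
  set j : ZMod q := (c : ZMod q) / (m 1 1 : ℤ)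
  obtain ⟨t, ht⟩ : (q : ℤ) ∣ c - j.val * m 1 1 := by
    rw [← ZMod.intCast_zmod_eq_zero_iff_dvd]
    push_cast
    rw [ZMod.natCast_zmod_val, div_mul_cancel₀ _ h11', sub_self]
  have hMq : (M : ℤ) = q * M' := by rw [hM']; push_cast; ring
  set n : M2 := !![a - M' * j.val * m 0 1, m 0 1; (M : ℤ) * t, m 1 1]
  have key : m = n * uStarMat M q ⟨j.val, ZMod.val_lt j⟩ := by
    ext i k
    fin_cases i <;> fin_cases k <;>
      simp [n, uStarMat, mul_apply, Fin.sum_univ_two, -ZMod.natCast_val]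
    · linear_combination ha - (j.val : ℤ) * m 0 1 * hMq
    · linear_combination hc + (M : ℤ) * ht
  have hn : n.det = 1 := by
    have := congrArg Matrix.det key
    rw [det_mul, hd, show (uStarMat M q ⟨j.val, ZMod.val_lt j⟩).det = (q : ℤ) by
      simp [uStarMat, det_fin_two_of]] at this
    exact mul_right_cancel₀ (Int.natCast_ne_zero.2 hq.out.ne_zero) (by rw [← this, one_mul])
  exact ⟨_, ⟨n, hn⟩, LevelRaising.mem_Gamma0.mpr ⟨t, by simp [n]⟩, key⟩

theorem not_dvd_11 (hqM : q ∣ M) {γ : SL(2, ℤ)} (hγ : γ ∈ Gamma0 M) : ¬ (q : ℤ) ∣ γ 1 1 := by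
  intro h
  have h10 : (q : ℤ) ∣ γ 1 0 :=
    (Int.natCast_dvd_natCast.mpr hqM).trans (LevelRaising.mem_Gamma0.mp hγ)
  have hd := γ.2
  rw [det_fin_two] at hd
  exact (Nat.prime_iff_prime_int.mp hq.out).not_isUnit
    (isUnit_of_dvd_one (hd ▸ dvd_sub (dvd_mul_of_dvd_right h _) (dvd_mul_of_dvd_right h10 _)))

theorem isCorr_uStar (hqM : q ∣ M) (hM : M ≠ 0) : IsCorr M M (uStarMat M q) where
  det_pos j := by
    rw [uStarMat, det_fin_two_of]; simp [hq.out.pos]
  perm γ hγ i := by
    refine exists_uStar hqM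
      (by rw [det_mul, LevelRaising.det_mat, mul_one]; simp [uStarMat, det_fin_two_of])
      ?_ ?_ ?_
    · exact ⟨γ 0 0, by simp [uStarMat, mul_apply, Fin.sum_univ_two]⟩
    · obtain ⟨c, hc⟩ := LevelRaising.mem_Gamma0.mp hγ
      exact ⟨(i : ℕ) * γ 0 0 + c, by simp [uStarMat, mul_apply, Fin.sum_univ_two, hc]; ring⟩
    · intro h
      simp [uStarMat, mul_apply, Fin.sum_univ_two] at h
      refine not_dvd_11 hqM hγ ((dvd_add_right ?_).mp h)
      exact dvd_mul_of_dvd_left (dvd_mul_of_dvd_left (Int.natCast_dvd_natCast.mpr hqM) _) _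
  inj i j δ hδ h := by
    obtain ⟨c, hc⟩ := LevelRaising.mem_Gamma0.mp hδ
    have h11 := congrFun (congrFun h 1) 1
    have h10 := congrFun (congrFun h 1) 0
    simp [uStarMat, mul_apply, Fin.sum_univ_two, mat] at h10 h11
    rw [hc, ← h11, one_mul] at h10
    have h3 : ((i : ℕ) : ℤ) = c * q + (j : ℕ) :=
      mul_left_cancel₀ (Int.natCast_ne_zero.2 hM) (by linear_combination h10)
    have h4 := congrArg (Int.cast : ℤ → ZMod q) h3
    push_cast at h4
    rw [ZMod.natCast_self, mul_zero, zero_add] at h4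
    exact Fin.ext (by
      rw [← ZMod.val_natCast_of_lt i.isLt, h4, ZMod.val_natCast_of_lt j.isLt])

/-- The crossing map turns `U_q` into its adjoint. -/
theorem psi_symU (hqM : q ∣ M) (hM : M ≠ 0) (x : ModSym M) :
    psi M ((isCorr_U hq.out hqM).push x) = (isCorr_uStar hqM hM).transfer (psi M x) := by
  refine LevelRaising.psi_push _ _ (fun i δ hδ => ?_) (fun j η hη => ?_) x
  · refine exists_uStar hqM ?_ ?_ ?_ ?_
    · rw [det_mul, LevelRaising.det_adjugate', LevelRaising.det_mat, mul_one]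
      simp [uMat, det_fin_two_of]
    · simp only [uMat, adjugate_fin_two_of, mul_apply, Fin.sum_univ_two]
      simp
      exact dvd_mul_of_dvd_right
        ((Int.natCast_dvd_natCast.mpr hqM).trans (LevelRaising.mem_Gamma0.mp hδ)) _
    · obtain ⟨c, hc⟩ := LevelRaising.mem_Gamma0.mp hδ
      exact ⟨c, by simp [uMat, adjugate_fin_two_of, mul_apply, Fin.sum_univ_two, hc]⟩
    · simpa [uMat, adjugate_fin_two_of, mul_apply, Fin.sum_univ_two] using not_dvd_11 hqM hδ
  · set n : M2 := (mat η * uStarMat M q j).adjugate with hn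
    have hnd : n.det = q := by
      rw [hn, LevelRaising.det_adjugate', det_mul, LevelRaising.det_mat, one_mul]
      simp [uStarMat, det_fin_two_of]
    have hna : Adm0 M n := by
      refine adm0_iff.mpr ⟨?_, ?_⟩
      · rw [hn, ZMod.intCast_zmod_eq_zero_iff_dvd]
        obtain ⟨c, hc⟩ := LevelRaising.mem_Gamma0.mp hη
        exact ⟨-(c * q + η 1 1 * (j : ℕ)), by
          simp [uStarMat, adjugate_fin_two, mul_apply, Fin.sum_univ_two, hc]; ring⟩
      · have h0 : n 0 0 = η 1 1 := by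
          simp [hn, uStarMat, adjugate_fin_two, mul_apply, Fin.sum_univ_two]
        rw [h0]
        have hd := congrArg (Int.cast : ℤ → ZMod M) η.2
        rw [det_fin_two] at hd
        push_cast at hd
        rw [Gamma0_mem.mp hη, mul_zero, sub_zero] at hd
        exact IsUnit.of_mul_eq_one _ (by rw [mul_comm]; exact hd)
    obtain ⟨⟨x, hx⟩, k, hk⟩ := exists_class_hecke hnd hna
    cases x using OnePoint.rec with
    | infty => exact absurd hqM (hx rfl)
    | coe b =>
      refine ⟨⟨b.val, ZMod.val_lt b⟩, (k : SL(2, ℤ))⁻¹,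
        inv_mem ((mem_Gamma0_iff _).mpr k.2), ?_⟩
      rw [GroupH1.repInt_coe] at hk
      rw [← LevelRaising.adjugate_adjugate' (mat η * uStarMat M q j), ← hn, hk,
        adjugate_mul_distrib, LevelRaising.mat_inv]
      rfl

/-- The adjoint of `U_q` on degeneracy maps. -/
theorem transfer_uStar_degMap {L d : ℕ} (hd : d ≠ 0) (hqM : q ∣ M) (hM : M ≠ 0)
    (hdvd : L * (d * q) ∣ M) (φ : H1 L B) :
    ofGamma0 ((isCorr_uStar hqM hM).transfer
        (toGamma0 (degMap hd (dvd_trans (mul_dvd_mul_left L (dvd_mul_right d q)) hdvd) φ))) =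
      q • degMap (mul_ne_zero hd hq.out.ne_zero) hdvd φ := by
  obtain ⟨t, ht⟩ := hdvd
  have hk : ∀ j : Fin q, ∃ k : GammaH L ⊤,
      (k : SL(2, ℤ)).1 = !![1, 0; (L : ℤ) * t * (j : ℕ), 1] := fun j =>
    ⟨GroupH1.ofAdm _ (by simp [det_fin_two_of])
      (adm0_of_det_one (by simp [det_fin_two_of]) (by simp)), rfl⟩
  choose k hk using hk
  have hR := (sends_const φ 1 k).comp
    (sends_degMap (M' := M) (mul_ne_zero hd hq.out.ne_zero) ⟨t, ht⟩ _)
  rw [Fintype.card_fin, map_nsmul] at hR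
  refine Sends.unique (fun x => ?_)
    ((sends_degMap hd _ φ).comp (sends_corr (isCorr_uStar hqM hM) _))
    (hR.congr (Equiv.prodComm _ _) (fun _ => 1) fun x => ?_)
  · rw [det_mul, det_omega]
    exact mul_ne_zero (Int.natCast_ne_zero.2 hd) ((isCorr_uStar hqM hM).det_ne_zero _)
  · rw [coe_one2, one_mul, one_smul]
    show omega d * uStarMat M q x.2 = (k x.2 : SL(2, ℤ)).1 * omega (d * q)
    rw [hk, uStarMat, ht]
    ext i l
    fin_cases i <;> fin_cases l <;> simp [omega, mul_apply, Fin.sum_univ_two]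
    ring

variable {N : ℕ}

/-- The transpose of `jMap` on modular symbols. -/
def jSym (hN : N ≠ 0) (hqN : ¬ q ∣ N) : ModSym N →+ ModSym (N * q * q) :=
  let U : ModSym (N * q * q) →+ ModSym (N * q * q) :=
    (isCorr_U hq.out (dvd_mul_left q (N * q))).push
  let Tr : ModSym N →+ ModSym (N * q * q) :=
    (isCorr_cor (mul_q_ne hN)).push.comp (isCorr_cor hN).push
  U.comp (U.comp Tr) - (U.comp Tr).comp (isCorr_T hq.out hqN).push + q • Tr

/-- `jSym` is the transpose of `jMap`. -/
theorem jMap_comp_cycleHom (hN : N ≠ 0) (hqN : ¬ q ∣ N) (Φ : ModSym (N * q * q) →+ B) :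
    jMap hN (ofGamma0 (Φ.comp (cycleHom (N * q * q)))) =
      ofGamma0 ((Φ.comp (jSym hN hqN)).comp (cycleHom N)) := by
  have hU : ∀ Ψ : ModSym (N * q * q) →+ B,
      (heckeSystem (N * q * q) ⊤ q).transfer (ofGamma0 (Ψ.comp (cycleHom _))) =
        ofGamma0 ((Ψ.comp (isCorr_U hq.out (dvd_mul_left q (N * q))).push).comp (cycleHom _)) :=
    fun Ψ => by rw [← transfer_corrU (dvd_mul_left q (N * q)), toGamma0_ofGamma0,
      IsCorr.transfer_comp_cycleHom]
  have hC : ∀ Ψ : ModSym (N * q * q) →+ B, corSq hN (ofGamma0 (Ψ.comp (cycleHom _))) =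
      ofGamma0 ((Ψ.comp ((isCorr_cor (mul_q_ne hN)).push.comp (isCorr_cor hN).push)).comp
        (cycleHom N)) := fun Ψ => by
    show corMap hN (corMap (mul_q_ne hN) _) = _
    rw [← transfer_corrCor (mul_q_ne hN), toGamma0_ofGamma0, IsCorr.transfer_comp_cycleHom,
      ← transfer_corrCor hN, toGamma0_ofGamma0, IsCorr.transfer_comp_cycleHom]
    rfl
  rw [jMap_apply, hU, hU, hC, hC, hC, ← transfer_corrT hqN, toGamma0_ofGamma0,
    IsCorr.transfer_comp_cycleHom, ← map_nsmul, ← map_sub, ← map_add]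
  refine congrArg ofGamma0 (AddMonoidHom.ext fun y => ?_)
  simp [jSym, map_add, map_sub, map_nsmul]

/-- The crossing map carries `jSym` to `q (r₀ - r₁ T_q + q r₂)`. -/
theorem psi_jSym (hN : N ≠ 0) (hqN : ¬ q ∣ N) (x : ModSym N) :
    ofGamma0 (psi (N * q * q) (jSym hN hqN x)) =
      q • (degMap one_ne_zero (by rw [mul_one, mul_assoc]; exact dvd_mul_right N _)
            (ofGamma0 (psi N x))
        - degMap hq.out.ne_zero (dvd_mul_right (N * q) q)
            ((heckeSystem N ⊤ q).transfer (ofGamma0 (psi N x)))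
        + q • degMap (mul_ne_zero hq.out.ne_zero hq.out.ne_zero) (by rw [mul_assoc])
            (ofGamma0 (psi N x))) := by
  have hM : N * q * q ≠ 0 := mul_q_ne (mul_q_ne hN)
  have hTr : ∀ y : ModSym N, ofGamma0 (psi (N * q * q)
      ((isCorr_cor (mul_q_ne hN)).push ((isCorr_cor (q := q) hN).push y))) =
      degMap one_ne_zero (by rw [mul_one, mul_assoc]; exact dvd_mul_right N _)
        (ofGamma0 (psi N y)) := fun y => by
    rw [psi_cor (mul_q_ne hN), psi_cor hN, ← toGamma0_ofGamma0 (IsCorr.transfer _ (psi N y)),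
      transfer_corrRes, ← toGamma0_ofGamma0 (psi N y), transfer_corrRes, toGamma0_ofGamma0,
      degMap_degMap]
  have hUs : ∀ y : ModSym (N * q * q),
      ofGamma0 (psi _ ((isCorr_U hq.out (dvd_mul_left q (N * q))).push y)) =
        ofGamma0 ((isCorr_uStar (dvd_mul_left q (N * q)) hM).transfer
          (toGamma0 (ofGamma0 (psi _ y)))) := fun y => by
    rw [psi_symU (dvd_mul_left q (N * q)) hM, toGamma0_ofGamma0]
  have h1 : ∀ φ : H1 N ℤ, ofGamma0 ((isCorr_uStar (dvd_mul_left q (N * q)) hM).transfer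
      (toGamma0 (degMap (M' := N * q * q) one_ne_zero
        (by rw [mul_one, mul_assoc]; exact dvd_mul_right N _) φ))) =
      q • degMap hq.out.ne_zero (dvd_mul_right (N * q) q) φ := fun φ => by
    have := transfer_uStar_degMap (L := N) (d := 1) one_ne_zero (dvd_mul_left q (N * q)) hM
      (by rw [one_mul]; exact dvd_mul_right (N * q) q) φ
    simp only [one_mul] at this
    exact this
  have h2 : ∀ φ : H1 N ℤ, ofGamma0 ((isCorr_uStar (dvd_mul_left q (N * q)) hM).transfer
      (toGamma0 (degMap (M' := N * q * q) hq.out.ne_zero (dvd_mul_right (N * q) q) φ))) =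
      q • degMap (mul_ne_zero hq.out.ne_zero hq.out.ne_zero) (by rw [mul_assoc]) φ := fun φ =>
    transfer_uStar_degMap (L := N) hq.out.ne_zero (dvd_mul_left q (N * q)) hM (by rw [mul_assoc]) φ
  have hT : ofGamma0 (psi N ((isCorr_T hq.out hqN).push x)) =
      (heckeSystem N ⊤ q).transfer (ofGamma0 (psi N x)) := by
    rw [show (isCorr_T hq.out hqN).push x = LevelRaising.symT N hq.out hqN x from rfl,
      LevelRaising.psi_symT, ← transfer_corrT hqN, toGamma0_ofGamma0]
  simp only [jSym, AddMonoidHom.add_apply, AddMonoidHom.sub_apply, AddMonoidHom.nsmul_apply,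
    AddMonoidHom.comp_apply, map_add, map_sub, map_nsmul, hUs, hTr, hT, h1, h2]
  simp only [smul_add, smul_sub, smul_smul]
  abel

end Fermat.Agent.IharaH1

end
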