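import Fermat.Agent.IharaH1.Module
import Fermat.Agent.IharaH1.Symbols
import Fermat.Agent.LevelRaising.Dual
import Mathlib.GroupTheory.Abelianization.Defs
import Mathlib.RingTheory.Nakayama

/-!
# Surjectivity of `j` on the localised Hecke modules

By Ihara's lemma and the crossing map, `(T_ℓ - 2)³ (T_ℓ - 1 - ℓ) φ` lies in the image of `j`
modulo `p`; the operator is invertible at a non-Eisenstein maximal ideal.
-/

set_option autoImplicit false

noncomputable section

open Matrix CongruenceSubgroup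
open scoped MatrixGroups

namespace Fermat.Agent.IharaH1

open Fermat.Agent.GroupH1 (GammaH heckeSystem HeckePoly HMod toH eigIdeal LocM toLocM primeOf
  X_smul_toH C_smul toLocM_surjective smul_locM_eq_zero)
open Fermat.Agent.LevelRaising (ModSym cycleHom psi isCorr_T DvdModTorsion)

variable {B : Type*} [AddCommGroup B] {N q p ℓ : ℕ} [hq : Fact q.Prime] [hℓ : Fact ℓ.Prime]

/-- `T_ℓ - 2` on modular symbols. -/
def eisSym (hℓN : ¬ ℓ ∣ N) : ModSym N →+ ModSym N :=
  (isCorr_T hℓ.out hℓN).push - 2 • AddMonoidHom.id _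

omit hq in
/-- `hecke2` on homomorphisms factoring through modular symbols. -/
theorem hecke2_cycleHom (hℓN : ¬ ℓ ∣ N) (Φ : ModSym N →+ B) :
    hecke2 N ℓ B (ofGamma0 (Φ.comp (cycleHom N))) =
      ofGamma0 ((Φ.comp (eisSym hℓN)).comp (cycleHom N)) := by
  rw [hecke2_apply, ← transfer_corrT hℓN, toGamma0_ofGamma0,
    LevelRaising.IsCorr.transfer_comp_cycleHom, ← map_nsmul, ← map_sub]
  refine congrArg ofGamma0 (AddMonoidHom.ext fun y => ?_)
  simp [eisSym, map_nsmul]

omit hq in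
/-- `psi` turns `eisSym` into `hecke2`. -/
theorem psi_eisSym (hℓN : ¬ ℓ ∣ N) (y : ModSym N) :
    ofGamma0 (psi N (eisSym hℓN y)) = hecke2 N ℓ ℤ (ofGamma0 (psi N y)) := by
  rw [hecke2_apply, ← transfer_corrT hℓN, toGamma0_ofGamma0, eisSym, AddMonoidHom.sub_apply,
    map_sub, map_sub]
  refine congrArg₂ (· - ·) ?_ ?_
  · exact congrArg ofGamma0 (LevelRaising.psi_symT hℓ.out hℓN y)
  · rw [AddMonoidHom.nsmul_apply, AddMonoidHom.id_apply, map_nsmul, map_nsmul]

omit hq in
/-- `T_ℓ - 1 - ℓ` produces parabolic homomorphisms with values in a torsion free group. -/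
theorem isParabolic_transfer_sub (hN1 : (ℓ : ZMod N) = 1) (φ : H1 N ℤ) :
    ModularCurve.Period.IsParabolicHom (Gamma0 N)
      (toGamma0 ((heckeSystem N ⊤ ℓ).transfer φ - (1 + ℓ : ℤ) • φ)) := by
  intro γ hγ
  set γ' : GammaH N ⊤ := Subgroup.inclusion GroupH1.GammaH_top.ge γ
  have h := HeckeCohom.two_nsmul_transfer_apply_parabolic hN1 φ γ' hγ
  show (heckeSystem N ⊤ ℓ).transfer φ (Additive.ofMul γ') - (1 + ℓ : ℤ) • φ (Additive.ofMul γ') = 0
  rw [nsmul_eq_mul, nsmul_eq_mul] at h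
  rw [sub_eq_zero]
  exact mul_left_cancel₀ (two_ne_zero) h

omit hℓ hq in
/-- A functional on integral homomorphisms modulo `p` is evaluation at an element. -/
theorem exists_eval [NeZero N] [hp : Fact p.Prime] (f : H1 N ℤ →+ ZMod p) :
    ∃ u : Additive (GammaH N ⊤), ∀ φ, f φ = (φ u : ZMod p) := by
  classical
  obtain ⟨-, S, -, hS⟩ := Group.fg_iff'.1 (inferInstance : Group.FG (GammaH N ⊤))
  let R : H1 N ℤ →+ (S → ZMod p) :=
    AddMonoidHom.mk' (fun φ s => ((φ (Additive.ofMul (s : GammaH N ⊤)) : ℤ) : ZMod p))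
      fun φ ψ => funext fun s => by simp
  have hker : ∀ φ, R φ = 0 → f φ = 0 := by
    intro φ hφ
    have hall : ∀ g : GammaH N ⊤, ∃ c, φ (Additive.ofMul g) = (p : ℤ) * c := by
      intro g
      have hmem : g ∈ Subgroup.closure (S : Set (GammaH N ⊤)) := hS ▸ trivial
      show (p : ℤ) ∣ φ (Additive.ofMul g)
      induction hmem using Subgroup.closure_induction with
      | mem x hx => exact (ZMod.intCast_zmod_eq_zero_iff_dvd _ _).mp (congrFun hφ ⟨x, hx⟩)
      | one => rw [ofMul_one, map_zero]; exact dvd_zero _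
      | mul a b _ _ ha hb => rw [ofMul_mul, map_add]; exact dvd_add ha hb
      | inv a _ ha => rw [ofMul_inv, map_neg]; exact dvd_neg.mpr ha
    choose c hc using hall
    have hp0 : (p : ℤ) ≠ 0 := Int.natCast_ne_zero.2 hp.out.ne_zero
    let ψ : H1 N ℤ := AddMonoidHom.mk' (fun g => c (Additive.toMul g)) fun g g' =>
      mul_left_cancel₀ hp0 (by rw [mul_add, ← hc, ← hc, ← hc, toMul_add, ofMul_mul, map_add])
    have he : φ = p • ψ := by
      refine AddMonoidHom.ext fun g => ?_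
      rw [AddMonoidHom.nsmul_apply, nsmul_eq_mul]
      exact hc (Additive.toMul g)
    rw [he, map_nsmul, nsmul_eq_mul, ZMod.natCast_self, zero_mul]
  let W : Submodule (ZMod p) (S → ZMod p) := AddSubgroup.toZModSubmodule p R.range
  have hW : ∀ w : W, ∃ φ, R φ = w := fun w => w.2
  choose pre hpre using hW
  have hfR : ∀ φ φ', R φ = R φ' → f φ = f φ' := fun φ φ' h =>
    sub_eq_zero.mp (by rw [← map_sub]; exact hker _ (by rw [map_sub, h, sub_self]))
  let g : W →+ ZMod p := AddMonoidHom.mk' (fun w => f (pre w)) fun w w' => by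
    rw [← map_add]
    refine hfR _ _ ?_
    rw [map_add, hpre, hpre, hpre]
    rfl
  obtain ⟨G, hG⟩ := LinearMap.exists_extend (g.toZModLinearMap p)
  refine ⟨((Finset.univ : Finset S).toList.map
    fun s => ((G (Pi.single s 1)).val : ℕ) • Additive.ofMul (s : GammaH N ⊤)).sum, fun φ => ?_⟩
  have h1 : f φ = G (R φ) := by
    have h2 := LinearMap.congr_fun hG ⟨R φ, ⟨φ, rfl⟩⟩
    rw [LinearMap.comp_apply] at h2
    refine (Eq.trans ?_ h2.symm :)
    exact hfR _ _ (hpre ⟨R φ, ⟨φ, rfl⟩⟩).symm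
  rw [h1, map_list_sum, List.map_map, Finset.sum_map_toList, Int.cast_sum]
  conv_lhs => rw [pi_eq_sum_univ' (R φ), map_sum]
  refine Finset.sum_congr rfl fun s _ => ?_
  rw [Function.comp_apply, map_smul, map_nsmul, nsmul_eq_mul, Int.cast_mul, Int.cast_natCast,
    ZMod.natCast_zmod_val, smul_eq_mul, mul_comm]
  rfl

variable [NeZero N] [hp : Fact p.Prime]

/-- **`j` is surjective modulo `p` after `(T_ℓ - 2)³ (T_ℓ - 1 - ℓ)`.** -/
theorem exists_jMap_mod (hp2 : p ≠ 2) (hpq : p ≠ q) (hqN : ¬ q ∣ N) (hN1 : (ℓ : ZMod N) = 1)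
    (hℓq : ℓ ≠ q) (h1 : (ℓ : ZMod p) = 1) (φ : H1 N ℤ) :
    ∃ (ψ : H1 (N * q * q) ℤ) (χ : H1 N ℤ),
      hecke2 N ℓ ℤ (hecke2 N ℓ ℤ (hecke2 N ℓ ℤ
        ((heckeSystem N ⊤ ℓ).transfer φ - (1 + ℓ : ℤ) • φ))) =
      jMap (NeZero.ne N) ψ + p • χ := by
  have hN := NeZero.ne N
  have hℓN : ¬ ℓ ∣ N := HeckeCohom.not_dvd_of_cast_eq_one hN1
  let S : AddSubgroup (H1 N ℤ) :=
    (jMap (B := ℤ) (q := q) hN).range ⊔ (nsmulAddMonoidHom p : H1 N ℤ →+ H1 N ℤ).range
  set φ' := (heckeSystem N ⊤ ℓ).transfer φ - (1 + ℓ : ℤ) • φ with hφ'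
  suffices hmem : hecke2 N ℓ ℤ (hecke2 N ℓ ℤ (hecke2 N ℓ ℤ φ')) ∈ S by
    obtain ⟨-, ⟨ψ, rfl⟩, -, ⟨χ, rfl⟩, he⟩ := AddSubgroup.mem_sup.mp hmem
    exact ⟨ψ, χ, he.symm⟩
  by_contra hnot
  obtain ⟨f, hfS, hf⟩ := LevelRaising.exists_functional_ne_zero S
    (fun v => AddSubgroup.mem_sup_right ⟨v, rfl⟩) hnot
  refine hf ?_
  obtain ⟨u, hu⟩ := exists_eval f
  set u' : Additive (Gamma0 N) :=
    (Subgroup.inclusion GroupH1.GammaH_top.le).toAdditive u with hu'
  set x := cycleHom N u' with hx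
  -- the transpose of `j` kills `x` modulo `p`
  have hJ : DvdModTorsion p (jSym hN hqN x) := fun Φ => by
    have h0 := hfS _ (AddSubgroup.mem_sup_left
      ⟨ofGamma0 (Φ.comp (cycleHom (N * q * q))), rfl⟩)
    rw [hu, jMap_comp_cycleHom hN hqN] at h0
    exact (ZMod.intCast_zmod_eq_zero_iff_dvd _ _).mp h0
  let π : ℤ →+ ZMod p := Int.castAddHom (ZMod p)
  have hk : ∀ b : ZMod p, p • b = 0 := fun b => by
    rw [nsmul_eq_mul, ZMod.natCast_self, zero_mul]
  set ω : H1 N (ZMod p) := π.comp (ofGamma0 (psi N x)) with hω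
  have h0 : π.comp (ofGamma0 (psi (N * q * q) (jSym hN hqN x))) = 0 :=
    AddMonoidHom.ext fun γ => (ZMod.intCast_zmod_eq_zero_iff_dvd _ _).mpr
      (hJ ((AddMonoidHom.eval ((Subgroup.inclusion GroupH1.GammaH_top.le).toAdditive γ)).comp
        (psi (N * q * q))))
  rw [psi_jSym hN hqN] at h0
  have hkey : q • (degMap one_ne_zero (by rw [mul_one, mul_assoc]; exact dvd_mul_right N _) ω
      + degMap hq.out.ne_zero (dvd_mul_right (N * q) q) (-(heckeSystem N ⊤ q).transfer ω)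
      + degMap (M' := N * q * q) (mul_ne_zero hq.out.ne_zero hq.out.ne_zero) (by rw [mul_assoc])
          (q • ω)) = 0 := by
    rw [map_nsmul, map_neg, hω, ← comp_transfer_hecke, ← comp_degMap, ← comp_degMap, ← comp_degMap,
      ← h0]
    ext g
    simp [π, sub_eq_add_neg]
  have hker := hecke2_cube_eq_zero_of_triple (iharaProp hp2 hN hqN hk) hp2 hpq hqN hN1 hℓq hk h1
    (φ₀ := ω) (φ₁ := -(heckeSystem N ⊤ q).transfer ω) (φ₂ := q • ω)
    (AddMonoidHom.ext fun g => eq_zero_of_nsmul_eq_zero (B := ZMod p) hpq hk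
      (DFunLike.congr_fun hkey g))
  have hω3 := hker.1
  rw [hω, ← comp_hecke2, ← comp_hecke2, ← comp_hecke2, ← psi_eisSym hℓN, ← psi_eisSym hℓN,
    ← psi_eisSym hℓN] at hω3
  obtain ⟨y, c, hc, hy⟩ := LevelRaising.eq_smul_add_torsion_of_psi hp.out hp2
    (eisSym hℓN (eisSym hℓN (eisSym hℓN x))) fun γ =>
      (ZMod.intCast_zmod_eq_zero_iff_dvd _ _).mp
        (DFunLike.congr_fun hω3 ((Subgroup.inclusion GroupH1.GammaH_top.ge).toAdditive γ))
  obtain ⟨Φ, hΦ⟩ := LevelRaising.exists_comp_cycleHom_eq (toGamma0 φ')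
    (isParabolic_transfer_sub hN1 φ)
  have hφΦ : φ' = ofGamma0 (Φ.comp (cycleHom N)) := by rw [hΦ]; exact AddMonoidHom.ext fun _ => rfl
  rw [hu, hφΦ, hecke2_cycleHom hℓN, hecke2_cycleHom hℓN, hecke2_cycleHom hℓN]
  show ((Φ (eisSym hℓN (eisSym hℓN (eisSym hℓN x))) : ℤ) : ZMod p) = 0
  rw [ZMod.intCast_zmod_eq_zero_iff_dvd]
  have h2 := congrArg Φ hy
  rw [map_zsmul, map_zero, map_sub, map_zsmul, smul_eq_zero] at h2
  exact ⟨Φ y, by rw [sub_eq_zero.mp (h2.resolve_left hc), smul_eq_mul]⟩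

omit hℓ hq hp in
/-- Homomorphisms into a torsion free ring are combinations of integral ones. -/
theorem exists_integral_decomp (O : Type*) [CommRing O] [IsDomain O] [CharZero O] (φ : H1 N O) :
    ∃ (n : ℕ) (c : Fin n → O) (φ₀ : Fin n → H1 N ℤ),
      φ = ∑ i, ((AddMonoidHom.mulLeft (c i)).comp (Int.castAddHom O)).comp (φ₀ i) := by
  let A : Type := Additive (Abelianization (GammaH N ⊤))
  let mk : Additive (GammaH N ⊤) →+ A := Abelianization.of.toAdditive
  have hmk : Function.Surjective mk := fun a => by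
    obtain ⟨g, hg⟩ := QuotientGroup.mk_surjective (Additive.toMul a)
    exact ⟨Additive.ofMul g, hg⟩
  have : Module.Finite ℤ A := by
    obtain ⟨-, S, -, hS⟩ := Group.fg_iff'.1 (inferInstance : Group.FG (GammaH N ⊤))
    refine Module.Finite.iff_addGroup_fg.mpr (AddGroup.fg_iff.mpr ⟨mk '' (Additive.ofMul '' S), ?_,
      (S.finite_toSet.image _).image _⟩)
    rw [← AddMonoidHom.map_closure, eq_top_iff]
    intro a _
    obtain ⟨g, rfl⟩ := hmk a
    refine ⟨g, ?_, rfl⟩
    have hmem : Additive.toMul g ∈ Subgroup.closure (S : Set (GammaH N ⊤)) := hS ▸ trivial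
    rw [← ofMul_toMul g]
    generalize Additive.toMul g = γ at hmem ⊢
    induction hmem using Subgroup.closure_induction with
    | mem x hx => exact AddSubgroup.subset_closure ⟨x, hx, rfl⟩
    | one => exact zero_mem _
    | mul a b _ _ ha hb => exact add_mem ha hb
    | inv a _ ha => exact neg_mem ha
  let φA : A →+ O := (Abelianization.lift (AddMonoidHom.toMultiplicativeRight φ)).toAdditiveLeft
  have hφA : ∀ g, φA (mk g) = φ g := fun g => rfl
  set T := Submodule.torsion ℤ A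
  have b := Module.finBasis ℤ (A ⧸ T)
  have hT : T ≤ LinearMap.ker φA.toIntLinearMap := by
    intro x hx
    obtain ⟨a, ha⟩ := (Submodule.mem_torsion_iff x).mp hx
    have h2 := congrArg φA ha
    rw [Submonoid.smul_def, map_zsmul, map_zero, zsmul_eq_mul, mul_eq_zero, Int.cast_eq_zero] at h2
    exact h2.resolve_left (nonZeroDivisors.coe_ne_zero a)
  set φT := T.liftQ φA.toIntLinearMap hT
  refine ⟨_, fun i => φT (b i), fun i =>
    (((b.coord i).comp T.mkQ).toAddMonoidHom).comp mk, AddMonoidHom.ext fun g => ?_⟩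
  rw [AddMonoidHom.finsetSum_apply, ← hφA g]
  calc φA (mk g) = φT (T.mkQ (mk g)) := rfl
    _ = φT (∑ i, b.repr (T.mkQ (mk g)) i • b i) := by rw [b.sum_repr]
    _ = ∑ i, (b.repr (T.mkQ (mk g)) i : O) * φT (b i) := by
      simp only [map_sum, map_smul, zsmul_eq_mul]
    _ = _ := Finset.sum_congr rfl fun i _ => by rw [mul_comm]; rfl

open IsLocalRing in
/-- **`j` is surjective on the localisations.** -/
theorem locJ_surjective {O : Type} [CommRing O] [IsLocalRing O] [IsNoetherianRing O]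
    [IsAdicComplete (maximalIdeal O) O] [IsDomain O] [CharZero O]
    {a : Nat.Primes → ResidueField O} (hp2 : p ≠ 2) (hpO : (p : O) ∈ maximalIdeal O) (hpq : p ≠ q)
    (hqN : ¬ q ∣ N) (hN1 : (ℓ : ZMod N) = 1) (h1 : (ℓ : ZMod p) = 1) (hℓq : ℓ ≠ q)
    (ha : a (primeOf ℓ) ≠ 2) : Function.Surjective (locJ (N := N) (q := q) hqN a) := by
  have hN := NeZero.ne N
  set m := eigIdeal a
  set Xl : HeckePoly O := MvPolynomial.X (primeOf ℓ)
  set P : HeckePoly O := Xl - 2
  set P' : HeckePoly O := Xl - MvPolynomial.C (1 + (ℓ : O))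
  have hP : ∀ f : H1 N O, toH (hecke2 N ℓ O f) = P • toH f := fun f => by
    rw [hecke2_apply, map_sub, map_nsmul, sub_smul, X_smul_toH, two_nsmul, two_smul]
  have hPm : P ∉ m := fun hm => ha (by
    rw [GroupH1.mem_eigIdeal, map_sub, MvPolynomial.eval₂Hom_X', map_ofNat, sub_eq_zero] at hm
    exact hm)
  have hℓk : residue O (ℓ : O) = 1 := by
    obtain ⟨t, ht⟩ : (p : ℤ) ∣ (ℓ : ℤ) - 1 := by
      rw [← ZMod.intCast_zmod_eq_zero_iff_dvd]; push_cast; rw [h1, sub_self]
    rw [← sub_eq_zero, ← map_one (residue O), ← map_sub, residue_eq_zero_iff]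
    have : (ℓ : O) - 1 = (p : O) * (t : O) := by
      have h3 := congrArg (Int.cast : ℤ → O) ht
      push_cast at h3
      exact h3
    rw [this]
    exact Ideal.mul_mem_right _ _ hpO
  have hP'm : P' ∉ m := fun hm => ha (by
    rw [GroupH1.X_sub_C_mem_eigIdeal_iff, map_add, map_one, hℓk, one_add_one_eq_two] at hm
    exact hm)
  have hprime : m.IsPrime := Ideal.IsMaximal.isPrime inferInstance
  set u := P * (P * (P * P')) with hu_def
  have hu : u ∉ m := fun hm => (hprime.mem_or_mem hm).elim hPm fun h =>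
    (hprime.mem_or_mem h).elim hPm fun h => (hprime.mem_or_mem h).elim hPm hP'm
  let R : Submodule O (LocM m (HMod N ⊤ O)) := LinearMap.range (locJ (N := N) (q := q) hqN a)
  have hgen : ∀ v : HMod N ⊤ O,
      toLocM m (u • v) ∈ R ⊔ maximalIdeal O • (⊤ : Submodule O (LocM m (HMod N ⊤ O))) := by
    intro v
    obtain ⟨φ, rfl⟩ := toH.surjective v
    obtain ⟨n, c, φ₀, rfl⟩ := exists_integral_decomp O φ
    rw [map_sum, Finset.smul_sum, map_sum]
    refine Submodule.sum_mem _ fun i _ => ?_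
    obtain ⟨ψ, χ, he⟩ := exists_jMap_mod hp2 hpq hqN hN1 hℓq h1 (φ₀ i)
    set f : ℤ →+ O := (AddMonoidHom.mulLeft (c i)).comp (Int.castAddHom O)
    have h4 : u • toH (f.comp (φ₀ i)) =
        jLin N q O (toH (f.comp ψ)) + (p : O) • toH (f.comp χ) := by
      have hP' : P' • toH (f.comp (φ₀ i)) =
          toH (f.comp ((heckeSystem N ⊤ ℓ).transfer (φ₀ i) - (1 + ℓ : ℤ) • φ₀ i)) := by
        rw [sub_smul, X_smul_toH, C_smul, ← comp_transfer_hecke, ← map_smul, ← map_sub]
        refine congrArg toH (AddMonoidHom.ext fun g => ?_)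
        simp [f]
        ring
      rw [hu_def, mul_smul, mul_smul, mul_smul, hP', ← hP, ← hP, ← hP, ← comp_hecke2,
        ← comp_hecke2, ← comp_hecke2, he]
      show toH (f.comp (jMap hN ψ + p • χ)) =
        toH (jMap hN (f.comp ψ)) + (p : O) • toH (f.comp χ)
      rw [← comp_jMap, Nat.cast_smul_eq_nsmul, ← map_nsmul, ← map_add]
      refine congrArg toH (AddMonoidHom.ext fun g => ?_)
      simp [f]
      ring
    rw [h4, map_add, LinearMap.map_smul_of_tower]
    refine Submodule.add_mem _ (Submodule.mem_sup_left ?_)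
      (Submodule.mem_sup_right (Submodule.smul_mem_smul hpO trivial))
    exact ⟨toLocM _ (toH (f.comp ψ)), locJ_toLocM hqN _⟩
  have hle : (⊤ : Submodule O (LocM m (HMod N ⊤ O))) ≤
      R ⊔ maximalIdeal O • (⊤ : Submodule O _) := by
    intro x _
    induction x using LocalizedModule.induction_on with
    | _ v s =>
      obtain ⟨w, hw⟩ := toLocM_surjective O m
        (LocalizedModule.mk v (⟨(s : HeckePoly O) * u, fun h => (hprime.mem_or_mem h).elim s.2 hu⟩ :
          m.primeCompl))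
      have h5 := hgen w
      rw [map_smul, hw, LocalizedModule.smul'_mk] at h5
      convert h5 using 1
      exact LocalizedModule.mk_eq.mpr ⟨1, by simp [Submonoid.smul_def, mul_smul]⟩
  have hfg : (⊤ : Submodule O (LocM m (HMod N ⊤ O))).FG :=
    (GroupH1.finite_locM (O := O) (V := HMod N ⊤ O) m).fg_top
  exact LinearMap.range_eq_top.mp (eq_top_iff.mpr (Submodule.le_of_le_smul_of_le_jacobson_bot
    hfg (IsLocalRing.maximalIdeal_le_jacobson _) hle))

end Fermat.Agent.IharaH1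

end
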